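import Fermat.Agent.Mazur.Immersion.AlgPoints

/-!
# Good Hecke polynomials acting on formal sums of disc points

A good polynomial moves a formal sum to one whose logarithms are taken along the transformed form.
-/

noncomputable section

open ModularCurve AlgebraicCurve CongruenceSubgroup ModularFormClass

namespace Fermat.Agent.Mazur.Immersion

local notation "Qbar" => AlgebraicClosure ℚ

variable {p : ℕ} [hp : Fact p.Prime]

/-- `b` is the integral expansion of `w`. -/
def IntExp (w : CuspForm (Gamma0 p) 2) (b : ℕ → ℤ) : Prop := ∀ k, qCoeff ⇑w k = (b k : ℂ)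

omit hp in
theorem IntExp.unique {w : CuspForm (Gamma0 p) 2} {b b' : ℕ → ℤ} (h : IntExp w b)
    (h' : IntExp w b') : b = b' :=
  funext fun k => Int.cast_injective (α := ℂ) ((h k).symm.trans (h' k))

omit hp in
theorem IntExp.zero_eq {w : CuspForm (Gamma0 p) 2} {b : ℕ → ℤ} (h : IntExp w b) : b 0 = 0 := by
  have := (h 0).symm.trans (Eis.qCoeff_cusp_zero w)
  exact_mod_cast this

theorem exists_intExp {S : Set ℕ} {T : Module.End ℂ (CuspForm (Gamma0 p) 2)}
    (hT : T ∈ CuspForm.heckeAlgebra p 2 S) {w : CuspForm (Gamma0 p) 2} {b : ℕ → ℤ}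
    (h : IntExp w b) : ∃ b', IntExp (T w) b' := by
  have hw : w ∈ CuspForm.intLattice p 2 := (Eis.mem_intLattice_iff w).mpr fun k => ⟨b k, h k⟩
  choose b' hb' using
    (Eis.mem_intLattice_iff _).mp (CuspForm.mem_intLattice_of_mem_heckeAlgebra one_le_two hT hw)
  exact ⟨b', hb'⟩

theorem formsEval_C (c : ℤ) (w : CuspForm (Gamma0 p) 2) :
    (formsEval p (MvPolynomial.C c)).1 w = (c : ℂ) • w := by
  rw [show (MvPolynomial.C c : GoodHecke p) = algebraMap ℤ _ c from rfl, AlgHom.commutes,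
    Int.cast_smul_eq_zsmul]
  rfl

open scoped IsMulCommutative in
theorem formsEval_X (l : {ℓ : Nat.Primes // ¬ (ℓ : ℕ) ∣ p}) :
    (formsEval p (MvPolynomial.X l)).1 = CuspForm.heckeTLin 2 l.1.2 l.2 := by
  rw [formsEval, MvPolynomial.aeval_X, CuspForm.heckeAlgebra.coe_T]

theorem jAct_C (h : HeckeOperatorsCommuteBar p) (c : ℤ) (y : JZero p) :
    jAct p h (MvPolynomial.C c) y = c • y := by
  rw [show (MvPolynomial.C c : GoodHecke p) = algebraMap ℤ _ c from rfl, eq_intCast, map_intCast,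
    Module.End.intCast_apply]

variable {Ω : Type*} [NormedField Ω] [IsUltrametricDist Ω] [CompleteSpace Ω] [CharZero Ω]
  [IsAlgClosed Ω] {ι : Qbar →+* Ω} (O : XPlace p)

theorem exists_hecke_sum (hnat : ∀ k : ℕ, k ≠ 0 → 1 ≤ (k : ℝ) * ‖(k : Ω)‖) (hO : IsInfty p O)
    (l : Nat.Primes) (hlp : ¬ (l : ℕ) ∣ p) (n : AlgPt ι →₀ ℤ) :
    ∃ n' : AlgPt ι →₀ ℤ, sumClass O n' = heckeOperatorBar p l (sumClass O n) ∧
      ∀ b : ℕ → Ω, (∀ k, ‖b k‖ ≤ 1) → logSum b n' = logSum (tOp (l : ℕ) b) n := by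
  induction n using Finsupp.induction_linear with
  | zero => exact ⟨0, by simp, fun b _ => by simp⟩
  | add f g hf hg =>
    obtain ⟨f', hf1, hf2⟩ := hf
    obtain ⟨g', hg1, hg2⟩ := hg
    exact ⟨f' + g', by rw [map_add, map_add, hf1, hg1, map_add],
      fun b hb => by rw [map_add, map_add, hf2 b hb, hg2 b hb]⟩
  | single s c =>
    obtain ⟨m, hm1, hm2⟩ := exists_hecke_single O hnat hO l hlp s
    refine ⟨c • m, ?_, fun b hb => ?_⟩
    · rw [map_zsmul, hm1, ← map_zsmul, ← map_zsmul, Finsupp.smul_single, smul_eq_mul, mul_one]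
    · rw [map_zsmul, hm2 b hb, logSum_single]

omit [CharZero Ω] [IsAlgClosed Ω] in
theorem logSum_add (hnat : ∀ k : ℕ, k ≠ 0 → 1 ≤ (k : ℝ) * ‖(k : Ω)‖) (b b' : ℕ → ℤ)
    (n : AlgPt ι →₀ ℤ) :
    logSum (fun k => ((b k + b' k : ℤ) : Ω)) n =
      logSum (fun k => (b k : Ω)) n + logSum (fun k => (b' k : Ω)) n := by
  simp only [logSum_apply, Int.cast_add, ← Finset.sum_add_distrib, ← mul_add]
  refine Finset.sum_congr rfl fun i _ => ?_
  rw [logVal_add hnat (fun k => IsUltrametricDist.norm_intCast_le_one Ω _)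
    (fun k => IsUltrametricDist.norm_intCast_le_one Ω _) i.1.1.norm_lt]

omit [CharZero Ω] [IsAlgClosed Ω] in
theorem logSum_smul (c : ℤ) (b : ℕ → ℤ) (n : AlgPt ι →₀ ℤ) :
    logSum (fun k => ((c * b k : ℤ) : Ω)) n = (c : Ω) * logSum (fun k => (b k : Ω)) n := by
  simp only [logSum_apply, Finset.mul_sum, Int.cast_mul]
  refine Finset.sum_congr rfl fun i _ => ?_
  rw [logVal_smul]
  ring

/-- A good Hecke polynomial on formal sums. -/
theorem exists_jAct (hnat : ∀ k : ℕ, k ≠ 0 → 1 ≤ (k : ℝ) * ‖(k : Ω)‖) (hO : IsInfty p O)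
    (h : HeckeOperatorsCommuteBar p) (t : GoodHecke p) (n : AlgPt ι →₀ ℤ) :
    ∃ n' : AlgPt ι →₀ ℤ, sumClass O n' = jAct p h t (sumClass O n) ∧
      ∀ w b b', IntExp w b → IntExp ((formsEval p t).1 w) b' →
        logSum (fun k => (b k : Ω)) n' = logSum (fun k => (b' k : Ω)) n := by
  induction t using MvPolynomial.induction_on generalizing n with
  | C c =>
    refine ⟨c • n, by rw [map_zsmul, jAct_C], fun w b b' hb hb' => ?_⟩
    have e : b' = fun k => c * b k := hb'.unique fun k => by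
      rw [formsEval_C, Eis.qCoeff_smul, hb k]; push_cast; ring
    rw [e, logSum_smul, map_zsmul, zsmul_eq_mul]
  | add t u ht hu =>
    obtain ⟨n₁, h1, h1'⟩ := ht n
    obtain ⟨n₂, h2, h2'⟩ := hu n
    refine ⟨n₁ + n₂, by rw [map_add, h1, h2, map_add, LinearMap.add_apply],
      fun w b b' hb hb' => ?_⟩
    obtain ⟨b₁, hb₁⟩ := exists_intExp (formsEval p t).2 hb
    obtain ⟨b₂, hb₂⟩ := exists_intExp (formsEval p u).2 hb
    have e : b' = fun k => b₁ k + b₂ k := hb'.unique fun k => by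
      rw [map_add, Subalgebra.coe_add, LinearMap.add_apply, Eis.qCoeff_add, hb₁ k, hb₂ k]
      push_cast; ring
    rw [e, logSum_add hnat, map_add, h1' w b b₁ hb hb₁, h2' w b b₂ hb hb₂]
  | mul_X t l ht =>
    obtain ⟨n₁, h1, h1'⟩ := exists_hecke_sum O hnat hO l.1 l.2 n
    obtain ⟨n₂, h2, h2'⟩ := ht n₁
    refine ⟨n₂, by rw [h2, map_mul, Module.End.mul_apply, jAct_X, h1], fun w b b' hb hb' => ?_⟩
    obtain ⟨c, hc⟩ := exists_intExp (formsEval p t).2 hb
    rw [h2' w b c hb hc, h1' _ fun k => IsUltrametricDist.norm_intCast_le_one Ω _]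
    refine congrArg (fun d => logSum d n) (funext fun k => ?_)
    have hcomm : (formsEval p (t * MvPolynomial.X l)).1 w =
        CuspForm.heckeTLin 2 l.1.2 l.2 ((formsEval p t).1 w) := by
      rw [mul_comm, map_mul, Subalgebra.coe_mul, Module.End.mul_apply, formsEval_X]
    have e := hb' k
    rw [hcomm, Eis.qCoeff_heckeTLin, hc] at e
    have e' : b' k = c (l.1 * k) + (l.1 : ℤ) * if (l.1 : ℕ) ∣ k then c (k / l.1) else 0 := by
      refine Int.cast_injective (α := ℂ) (e.symm.trans ?_)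
      split_ifs with hd
      · rw [hc]; push_cast; ring
      · push_cast; ring
    rw [e', tOp]
    split_ifs <;> push_cast <;> ring

end Fermat.Agent.Mazur.Immersion
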