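import Fermat.Agent.MF.IntegralBasis
import Fermat.Agent.Mazur.Descent.Count
import Fermat.Agent.Mazur.Disc.Fibre
import Fermat.Agent.Mazur.Disc.Padic
import Fermat.Agent.Mazur.Immersion.HeckeSums

/-!
# The formal immersion at `∞` in residue characteristic `3`

If a Hecke polynomial kills `P_s - ∞` with `|s| ≤ 1/3`, the logarithms at `s` of the transformed
forms vanish, so their first coefficients are divisible by `3` and the operator is zero.
-/

noncomputable section

open ModularCurve AlgebraicCurve CongruenceSubgroup ModularFormClass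

namespace Fermat.Agent.Mazur.Immersion

open Fermat.Agent.Mazur.Disc (DiscPt)

local notation "Qbar" => AlgebraicClosure ℚ

theorem one_le_natCast_mul_norm (ℓ : ℕ) [Fact ℓ.Prime] (k : ℕ) (hk : k ≠ 0) :
    1 ≤ (k : ℝ) * ‖(k : ℂ_[ℓ])‖ := by
  have h0 : (0 : ℝ) < (ℓ : ℝ) ^ padicValNat ℓ k :=
    pow_pos (Nat.cast_pos.mpr (Fact.out : ℓ.Prime).pos) _
  rw [← map_natCast (algebraMap ℚ_[ℓ] ℂ_[ℓ]) k, norm_algebraMap',
    Padic.norm_eq_zpow_neg_valuation (Nat.cast_ne_zero.mpr hk), Padic.valuation_natCast,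
    zpow_neg, zpow_natCast, ← div_eq_mul_inv, one_le_div h0]
  exact_mod_cast Nat.le_of_dvd (Nat.pos_of_ne_zero hk) pow_padicValNat_dvd

theorem norm_rat_le (q : ℚ) (h : ‖(q : ℂ_[3])‖ < 1) : ‖(q : ℂ_[3])‖ ≤ (1 : ℝ) / 3 := by
  rw [← map_ratCast (algebraMap ℚ_[3] ℂ_[3]) q, norm_algebraMap'] at h ⊢
  have h' := (Padic.norm_le_pow_iff_norm_lt_pow_add_one (q : ℚ_[3]) (-1)).mpr (by simpa using h)
  simpa [zpow_neg_one, one_div] using h'

theorem dvd_of_norm_lt_one {d : ℤ} (h : ‖(d : ℂ_[3])‖ < 1) : (3 : ℤ) ∣ d := by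
  rw [← map_intCast (algebraMap ℚ_[3] ℂ_[3]) d, norm_algebraMap'] at h
  exact_mod_cast Padic.norm_intCast_lt_one_iff.mp h

variable {p : ℕ} [hp : Fact p.Prime]

/-- The value of `j` at a rational point is rational. -/
theorem exists_rat_of_hasValue {x : XPlace p} (hx : IsRationalPlace p x) {a : Qbar}
    (ha : 0 < x.ord (jBar p - algebraMap Qbar _ a)) : ∃ q : ℚ, (q : Qbar) = a := by
  refine Descent.exists_rat_eq_of_fixed fun σ => ?_
  set g := arithmeticGalois (modularFunctionFieldFull p) σ with hg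
  have hsm : g • (jBar p - algebraMap Qbar _ a) = jBar p - algebraMap Qbar _ (σ a) := by
    refine Subtype.ext ?_
    rw [hg, coe_arithmeticGalois_smul, AddSubgroupClass.coe_sub, AddSubgroupClass.coe_sub,
      map_sub, IntermediateField.coe_algebraMap_apply, IntermediateField.coe_algebraMap_apply,
      algebraMap_laurentSeries_eq_single, algebraMap_laurentSeries_eq_single, coeffMap_single]
    congr 1
    exact coeffMap_coeffEmb σ jq
  have h := SemilinearAut.ord_smul g x (jBar p - algebraMap Qbar _ a)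
  rw [hsm, hx σ] at h
  exact FF.const_unique x (Or.inr (h ▸ ha)) (Or.inr ha)

/-- A vanishing logarithm at a point with `‖s‖ ≤ 1/3` makes the first coefficient divisible by `3`.
-/
theorem dvd_first_coeff {s : ℂ_[3]} (hs0 : s ≠ 0) (hs : ‖s‖ ≤ 1 / 3) {d : ℕ → ℤ} (hd0 : d 0 = 0)
    (h : logVal (fun k => (d k : ℂ_[3])) s = 0) : (3 : ℤ) ∣ d 1 := by
  have hnat := one_le_natCast_mul_norm 3
  have hs1 : ‖s‖ < 1 := lt_of_le_of_lt hs (by norm_num)
  have hb : ∀ k, ‖(d k : ℂ_[3])‖ ≤ 1 := fun k => IsUltrametricDist.norm_intCast_le_one _ _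
  rw [logVal, (summable_logVal hnat hb hs1).tsum_eq_add_tsum_ite 1] at h
  have htail : ‖∑' k, if k = 1 then 0 else (d k : ℂ_[3]) * (s ^ k / (k : ℂ_[3]))‖ ≤
      ‖s‖ * (2 / 3) := by
    refine IsUltrametricDist.norm_tsum_le_of_forall_le_of_nonneg (by positivity) fun k => ?_
    split_ifs with hk
    · rw [norm_zero]; positivity
    rcases Nat.eq_zero_or_pos k with rfl | hk0
    · simp [hd0]
    obtain ⟨j, rfl⟩ : ∃ j, k = j + 2 := ⟨k - 2, by omega⟩
    rw [norm_mul]
    refine (mul_le_of_le_one_left (norm_nonneg _) (hb _)).trans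
      ((norm_div_natCast_le hnat _ _).trans ?_)
    rw [norm_pow]
    have h3 : ∀ i : ℕ, (1 / 3 : ℝ) ^ (i + 1) * ((i : ℝ) + 2) ≤ 2 / 3 := fun i => by
      induction i with
      | zero => norm_num
      | succ i ih =>
        refine le_trans ?_ ih
        rw [pow_succ _ (i + 1), mul_assoc]
        refine mul_le_mul_of_nonneg_left ?_ (by positivity)
        push_cast
        nlinarith [(Nat.cast_nonneg i : (0 : ℝ) ≤ i)]
    calc ‖s‖ ^ (j + 2) * ((j + 2 : ℕ) : ℝ) = ‖s‖ * (‖s‖ ^ (j + 1) * ((j : ℝ) + 2)) := by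
          push_cast; ring
      _ ≤ ‖s‖ * ((1 / 3) ^ (j + 1) * ((j : ℝ) + 2)) := by gcongr
      _ ≤ ‖s‖ * (2 / 3) := mul_le_mul_of_nonneg_left (h3 j) (norm_nonneg _)
  rw [add_eq_zero_iff_eq_neg, Nat.cast_one, div_one, pow_one] at h
  have h2 := congrArg norm h
  rw [norm_neg, norm_mul, mul_comm] at h2
  have : ‖(d 1 : ℂ_[3])‖ ≤ 2 / 3 :=
    le_of_mul_le_mul_left (h2.trans_le htail) (norm_pos_iff.mpr hs0)
  exact dvd_of_norm_lt_one (lt_of_le_of_lt this (by norm_num))

/-- An element of the full Hecke algebra with vanishing logarithms is zero. -/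
theorem apply_eq_zero_of_logVal {T : Module.End ℂ (CuspForm (Gamma0 p) 2)}
    (hT : T ∈ CuspForm.heckeAlgebra p 2 ∅) {s : ℂ_[3]} (hs0 : s ≠ 0) (hs : ‖s‖ ≤ 1 / 3)
    (h : ∀ w b b', IntExp w b → IntExp (T w) b' → logVal (fun k => (b' k : ℂ_[3])) s = 0)
    {w : CuspForm (Gamma0 p) 2} {b : ℕ → ℤ} (hw : IntExp w b) : T w = 0 := by
  suffices H : ∀ (m k : ℕ) w b b', IntExp w b → IntExp (T w) b' → (3 : ℤ) ^ m ∣ b' k by
    obtain ⟨b', hb'⟩ := exists_intExp hT hw
    refine Eis.eq_zero_of_qCoeff _ fun k => ?_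
    rw [hb' k]
    suffices b' k = 0 by simp [this]
    by_contra hne
    obtain ⟨m, hm⟩ := pow_unbounded_of_one_lt ((b' k).natAbs : ℤ) (show (1 : ℤ) < 3 by norm_num)
    have := Int.natAbs_dvd_natAbs.mpr (H m k w b b' hw hb')
    have h2 := Nat.le_of_dvd (Int.natAbs_pos.mpr hne) this
    rw [Int.natAbs_pow] at h2
    have h3 : (3 : ℤ) ^ m ≤ ((b' k).natAbs : ℤ) := by exact_mod_cast h2
    linarith
  intro m
  induction m with
  | zero => intro k w b b' _ _; simp
  | succ m ih =>
    intro k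
    induction k using Nat.strong_induction_on with
    | _ k ihk =>
      intro w b b' hb hb'
      rcases Nat.eq_zero_or_pos k with rfl | hk
      · rw [hb'.zero_eq]; exact dvd_zero _
      rcases eq_or_ne k 1 with rfl | hk1
      · choose d hd using fun j => ih j w b b' hb hb'
        have hd0 : d 0 = 0 := by
          have := hd 0
          rw [hb'.zero_eq] at this
          exact (mul_eq_zero.mp this.symm).resolve_left (pow_ne_zero _ (by norm_num))
        have hl := h w b b' hb hb'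
        simp only [hd, Int.cast_mul] at hl
        rw [logVal_smul, mul_eq_zero] at hl
        rw [hd 1, pow_succ]
        exact mul_dvd_mul_left _ (dvd_first_coeff hs0 hs hd0
          (hl.resolve_left (by norm_num)))
      obtain ⟨q, hq, k', rfl⟩ := Nat.exists_prime_and_dvd hk1
      have hk' : k' < q * k' := by
        rcases Nat.eq_zero_or_pos k' with rfl | h'
        · simp at hk
        · exact lt_mul_of_one_lt_left h' hq.one_lt
      rcases eq_or_ne q p with rfl | hqp
      · have hU := CuspForm.heckeULin_mem_heckeAlgebra (k := 2) (S := ∅) hq (dvd_refl q)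
          (Set.notMem_empty q)
        obtain ⟨c, hc⟩ := exists_intExp hU hb
        obtain ⟨c', hc'⟩ := exists_intExp hT hc
        have hcomm : T (CuspForm.heckeULin 2 (dvd_refl q) w) =
            CuspForm.heckeULin 2 (dvd_refl q) (T w) :=
          LinearMap.congr_fun (congrArg Subtype.val (mul_comm
            (⟨T, hT⟩ : CuspForm.heckeAlgebra q 2 ∅) ⟨_, hU⟩)) w
        have e := hc' k'
        rw [hcomm, Eis.qCoeff_heckeULin hq, hb'] at e
        have e' : b' (q * k') = c' k' := Int.cast_injective (α := ℂ) e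
        rw [e']
        exact ihk k' hk' _ _ _ hc hc'
      · have hqN : ¬ q ∣ p := fun hd => hqp ((Nat.prime_dvd_prime_iff_eq hq hp.out).mp hd)
        have hU := CuspForm.heckeTLin_mem_heckeAlgebra (k := 2) (S := ∅) hq hqN
          (Set.notMem_empty q)
        obtain ⟨c, hc⟩ := exists_intExp hU hb
        obtain ⟨c', hc'⟩ := exists_intExp hT hc
        have hcomm : T (CuspForm.heckeTLin 2 hq hqN w) =
            CuspForm.heckeTLin 2 hq hqN (T w) :=
          LinearMap.congr_fun (congrArg Subtype.val (mul_comm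
            (⟨T, hT⟩ : CuspForm.heckeAlgebra p 2 ∅) ⟨_, hU⟩)) w
        have e := hc' k'
        rw [hcomm, Eis.qCoeff_heckeTLin, hb'] at e
        have e' : b' (q * k') = c' k' - (q : ℤ) * if q ∣ k' then b' (k' / q) else 0 := by
          apply Int.cast_injective (α := ℂ)
          push_cast
          rw [← e]
          split_ifs
          · rw [hb']; ring
          · ring
        rw [e']
        refine dvd_sub (ihk k' hk' _ _ _ hc hc') (Dvd.dvd.mul_left ?_ _)
        split_ifs
        · exact ihk _ (lt_of_le_of_lt (Nat.div_le_self _ _) hk') _ _ _ hb hb'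
        · exact dvd_zero _

/-- **The formal immersion** at `∞` in residue characteristic `3`. -/
theorem formalImmersion (p : ℕ) [hp : Fact p.Prime] (hp3 : p ≠ 3) : FormalImmersion p := by
  intro h x O y hO hx hnear hy t ht hty
  have : Fact (Nat.Prime 3) := ⟨Nat.prime_three⟩
  obtain ⟨A, hAl⟩ := Disc.exists_liesOverPrime 3
  obtain ⟨ι, hA⟩ := Disc.exists_embedding 3 hAl
  have h3p : ¬ 3 ∣ p := fun hd =>
    hp3 ((Nat.prime_dvd_prime_iff_eq Nat.prime_three hp.out).mp hd).symm
  have hnat := one_le_natCast_mul_norm 3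
  obtain ⟨τ, hτ⟩ := Disc.exists_isFricke p
  obtain ⟨s, hs0, hsx, a, hax, haJ⟩ := Disc.exists_isPoint_of_nearInfty hτ hA (hnear A hAl)
  let s' : AlgPt ι := ⟨s, hs0, a, haJ⟩
  have hord : x.ord (jBar p - algebraMap Qbar _ a) = 1 :=
    hsx.ord_sub_const ι (Disc.adm_stdHom ι) hs0 (Disc.stdHom_jBar (p := p))
      (by rw [Disc.isPoint_powPt_one]; exact haJ)
  obtain ⟨q, hq⟩ := exists_rat_of_hasValue hx (by rw [hord]; exact one_pos)
  have hs : ‖s.val‖ ≤ 1 / 3 := by
    have hJ : s.J = ((q⁻¹ : ℚ) : ℂ_[3]) := by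
      rw [Rat.cast_inv, ← map_ratCast ι, hq]
      exact (inv_eq_of_mul_eq_one_right haJ).symm
    rw [← s.norm_J, hJ]
    exact norm_rat_le _ (by rw [← hJ, s.norm_J]; exact s.norm_lt)
  have hclass : sumClass O (Finsupp.single s' 1) = y := by
    obtain ⟨D, hD, rfl⟩ := hy
    rw [sumClass_apply]
    refine congrArg Pic0.mk (Subtype.ext ?_)
    rw [hD, sumDiv_single, one_smul]
    show Finsupp.single (placeOf p s') 1 - Finsupp.single O 1 = _
    rw [(isPoint_placeOf s').unique ι hsx]
  obtain ⟨n', hn', hlog⟩ := exists_jAct O hnat hO h t (Finsupp.single s' 1)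
  rw [hclass, hty] at hn'
  refine ht (Subtype.ext (LinearMap.ext_on (MF.hasIntegralStructure p 2) fun w hw => ?_))
  have hmem : (formsEval p t).1 ∈ CuspForm.heckeAlgebra p 2 ∅ :=
    CuspForm.heckeAlgebra_mono (Set.empty_subset _) (formsEval p t).2
  choose b hb using (Eis.mem_intLattice_iff w).mp hw
  refine apply_eq_zero_of_logVal hmem hs0 hs (fun w b b' hb hb' => ?_) (b := b) hb
  have h1 := logSum_eq_zero_of_sumClass O h3p hnat (Disc.norm_natCast_self_lt_one 3) hA hAl hO hn'
    w b hb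
  rw [hlog w b b' hb hb', logSum_single, one_smul] at h1
  exact h1

end Fermat.Agent.Mazur.Immersion
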