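import Mathlib.Algebra.Polynomial.AlgebraMap
import Mathlib.Algebra.Ring.GeomSum
import Fermat.Prelude.Def_ModularCurve_LaurentCoeff
import Fermat.Prelude.Def_ModularCurve_X0
import Fermat.Agent.Mazur.Disc.Eval

/-!
# Sup norm estimates on Laurent series over a nonarchimedean field
-/

noncomputable section

open ModularCurve

namespace Fermat.Agent.Mazur.Immersion

variable {Ω : Type*} [NormedField Ω] [IsUltrametricDist Ω]

/-- All coefficients are bounded by `ε`. -/
def Small (ε : ℝ) (x : LaurentSeries Ω) : Prop := ∀ k, ‖x.coeff k‖ ≤ ε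

namespace Small

variable {ε δ : ℝ} {x y : LaurentSeries Ω}

omit [IsUltrametricDist Ω] in
theorem nonneg (h : Small ε x) : 0 ≤ ε := le_trans (norm_nonneg _) (h 0)

omit [IsUltrametricDist Ω] in
theorem mono (h : Small ε x) (hεδ : ε ≤ δ) : Small δ x := fun k => (h k).trans hεδ

omit [IsUltrametricDist Ω] in
theorem zero (hε : 0 ≤ ε) : Small ε (0 : LaurentSeries Ω) := fun k => by simpa using hε

omit [IsUltrametricDist Ω] in
theorem neg (h : Small ε x) : Small ε (-x) := fun k => by simpa using h k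

theorem add (hx : Small ε x) (hy : Small ε y) : Small ε (x + y) := fun k => by
  rw [HahnSeries.coeff_add]
  exact (IsUltrametricDist.norm_add_le_max _ _).trans (max_le (hx k) (hy k))

theorem sub (hx : Small ε x) (hy : Small ε y) : Small ε (x - y) := by
  rw [sub_eq_add_neg]
  exact hx.add hy.neg

theorem sum {ι' : Type*} {f : ι' → LaurentSeries Ω} {t : Finset ι'} (hε : 0 ≤ ε)
    (h : ∀ i ∈ t, Small ε (f i)) : Small ε (∑ i ∈ t, f i) := by
  induction t using Finset.cons_induction with
  | empty => simpa using zero hε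
  | cons a s ha ih =>
    rw [Finset.sum_cons]
    exact (h a (by simp)).add (ih fun i hi => h i (by simp [hi]))

theorem mul (hx : Small ε x) (hy : Small δ y) : Small (ε * δ) (x * y) := fun k => by
  rw [HahnSeries.coeff_mul]
  refine IsUltrametricDist.norm_sum_le_of_forall_le_of_nonneg (mul_nonneg hx.nonneg hy.nonneg)
    fun ij _ => ?_
  rw [norm_mul]
  exact mul_le_mul (hx _) (hy _) (norm_nonneg _) hx.nonneg

omit [IsUltrametricDist Ω] in
theorem single {c : Ω} (n : ℤ) (h : ‖c‖ ≤ ε) : Small ε (HahnSeries.single n c) := fun k => by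
  classical
  rw [HahnSeries.coeff_single]
  split
  · exact h
  · simpa using le_trans (norm_nonneg c) h

omit [IsUltrametricDist Ω] in
theorem const {c : Ω} (h : ‖c‖ ≤ ε) : Small ε (HahnSeries.C c) := by
  rw [HahnSeries.C_apply]
  exact single 0 h

omit [IsUltrametricDist Ω] in
theorem one (hε : 1 ≤ ε) : Small ε (1 : LaurentSeries Ω) := by
  rw [← map_one (HahnSeries.C : Ω →+* LaurentSeries Ω)]
  exact const (by rwa [norm_one])

theorem pow (hx : Small ε x) (n : ℕ) : Small (ε ^ n) (x ^ n) := by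
  induction n with
  | zero => simpa using one le_rfl
  | succ n ih => rw [pow_succ, pow_succ]; exact ih.mul hx

theorem pow_one_bound (hx : Small 1 x) (n : ℕ) : Small 1 (x ^ n) := by
  simpa using hx.pow n

theorem prod {ι' : Type*} {f : ι' → LaurentSeries Ω} {t : Finset ι'}
    (h : ∀ i ∈ t, Small 1 (f i)) : Small 1 (∏ i ∈ t, f i) := by
  induction t using Finset.cons_induction with
  | empty => simpa using one le_rfl
  | cons a s ha ih =>
    rw [Finset.prod_cons]
    simpa using (h a (by simp)).mul (ih fun i hi => h i (by simp [hi]))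

omit [IsUltrametricDist Ω] in
theorem qExpand (l : ℕ) [NeZero l] (hx : Small ε x) : Small ε (qExpand Ω l x) := fun k => by
  by_cases hk : (l : ℤ) ∣ k
  · obtain ⟨j, rfl⟩ := hk
    rw [qExpand_coeff_mul]
    exact hx j
  · rw [qExpand_coeff_of_not_dvd l x hk, norm_zero]
    exact hx.nonneg

omit [IsUltrametricDist Ω] in
theorem ofPowerSeries {G : PowerSeries Ω} (hε : 0 ≤ ε) (h : ∀ n, ‖PowerSeries.coeff n G‖ ≤ ε) :
    Small ε (HahnSeries.ofPowerSeries ℤ Ω G) := fun k => by
  rcases lt_or_ge k 0 with hk | hk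
  · rw [ofPowerSeries_coeff_of_neg _ hk, norm_zero]
    exact hε
  · obtain ⟨n, rfl⟩ := Int.eq_ofNat_of_zero_le hk
    rw [HahnSeries.ofPowerSeries_apply_coeff]
    exact h n

theorem mul_left_one (hx : Small ε x) (hy : Small 1 y) : Small ε (y * x) := by
  simpa using hy.mul hx

theorem mul_right_one (hx : Small ε x) (hy : Small 1 y) : Small ε (x * y) := by
  simpa using hx.mul hy

end Small

theorem small_mul_sub_mul {ε δ a b : ℝ} {x x' y y' : LaurentSeries Ω} (hx : Small ε (x - x'))
    (hy : Small δ (y - y')) (ha : Small a x') (hb : Small b y) :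
    Small (max (ε * b) (a * δ)) (x * y - x' * y') := by
  rw [show x * y - x' * y' = (x - x') * y + x' * (y - y') by ring]
  exact ((hx.mul hb).mono (le_max_left _ _)).add ((ha.mul hy).mono (le_max_right _ _))

/-- Products of congruent series are congruent. -/
theorem small_mul_sub_mul_one {ε : ℝ} {x x' y y' : LaurentSeries Ω} (hx : Small ε (x - x'))
    (hy : Small ε (y - y')) (ha : Small 1 x') (hb : Small 1 y) : Small ε (x * y - x' * y') :=
  (small_mul_sub_mul hx hy ha hb).mono (by rw [mul_one, one_mul, max_self])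

theorem small_prod_sub_prod {ι' : Type*} {ε : ℝ} {f g : ι' → LaurentSeries Ω} {t : Finset ι'}
    (hε : 0 ≤ ε) (hf : ∀ i ∈ t, Small 1 (f i)) (hg : ∀ i ∈ t, Small 1 (g i))
    (h : ∀ i ∈ t, Small ε (f i - g i)) : Small ε (∏ i ∈ t, f i - ∏ i ∈ t, g i) := by
  induction t using Finset.cons_induction with
  | empty => simpa using Small.zero hε
  | cons a s ha ih =>
    rw [Finset.prod_cons, Finset.prod_cons]
    exact small_mul_sub_mul_one (h a (by simp))
      (ih (fun i hi => hf i (by simp [hi])) (fun i hi => hg i (by simp [hi]))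
        fun i hi => h i (by simp [hi]))
      (hg a (by simp)) (Small.prod fun i hi => hf i (by simp [hi]))

theorem small_pow_sub_pow {ε : ℝ} {x y : LaurentSeries Ω} (hε : 0 ≤ ε) (hx : Small 1 x)
    (hy : Small 1 y) (h : Small ε (x - y)) (n : ℕ) : Small ε (x ^ n - y ^ n) := by
  induction n with
  | zero => simpa using Small.zero hε
  | succ n ih =>
    rw [pow_succ, pow_succ]
    exact small_mul_sub_mul_one ih h (hy.pow_one_bound n) hx

theorem small_pow_sub_pow_bound {ε B : ℝ} {x y : LaurentSeries Ω} (hε : 0 ≤ ε) (hB : 1 ≤ B)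
    (hx : Small B x) (hy : Small B y) (h : Small ε (x - y)) (n : ℕ) :
    Small (ε * B ^ n) (x ^ n - y ^ n) := by
  induction n with
  | zero => simpa using Small.zero hε
  | succ n ih =>
    rw [pow_succ, pow_succ]
    refine (small_mul_sub_mul ih h (hy.pow n) hx).mono ?_
    have : 0 ≤ B ^ n := by positivity
    have h1 : B ^ n * ε ≤ ε * B ^ (n + 1) := by
      rw [pow_succ, mul_comm ε]
      exact mul_le_mul_of_nonneg_right (le_mul_of_one_le_right this hB) hε
    refine max_le (le_of_eq (mul_assoc _ _ _)) (by rw [← pow_succ]; exact h1)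

/-- For `x ≡ 1` modulo `r`, `x ^ n ≡ 1` modulo `r · max |n| r`. -/
theorem small_pow_sub_one {r : ℝ} {x : LaurentSeries Ω} (hr : r ≤ 1) (h : Small r (x - 1)) (n : ℕ) :
    Small (r * max ‖(n : Ω)‖ r) (x ^ n - 1) := by
  have e : x ^ n - 1 = (x - 1) * ∑ i ∈ Finset.range n, x ^ i := by
    rw [mul_comm, geom_sum_mul]
  rw [e]
  refine h.mul ?_
  have hx1 : Small 1 x := by
    have := (h.mono hr).add (Small.one (Ω := Ω) le_rfl)
    rwa [sub_add_cancel] at this
  rw [show ∑ i ∈ Finset.range n, x ^ i =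
      (∑ i ∈ Finset.range n, (x ^ i - 1)) + HahnSeries.C (n : Ω) by
    rw [Finset.sum_sub_distrib, map_natCast, Finset.sum_const, Finset.card_range, nsmul_eq_mul,
      mul_one, sub_add_cancel]]
  refine Small.add ((Small.sum h.nonneg fun i _ => ?_).mono (le_max_right _ _))
    ((Small.const le_rfl).mono (le_max_left _ _))
  have := small_pow_sub_pow h.nonneg hx1 (Small.one le_rfl) h i
  rwa [one_pow] at this

/-- High powers of a principal unit. -/
theorem exists_small_pow_sub_one {r : ℝ} (hr : r < 1)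
    {l : ℕ} (hl : ‖(l : Ω)‖ < 1) (hl0 : (l : Ω) ≠ 0) :
    ∃ C : ℝ, 0 ≤ C ∧ ∀ x : LaurentSeries Ω, Small r (x - 1) →
      ∀ k, Small (C * ‖(l : Ω)‖ ^ k) (x ^ l ^ k - 1) := by
  set e := ‖(l : Ω)‖ with he
  have he0 : 0 < e := norm_pos_iff.mpr hl0
  set θ := max e r with hθ
  have hθ1 : θ < 1 := max_lt hl hr
  have hθ0 : 0 ≤ θ := he0.le.trans (le_max_left _ _)
  have step : ∀ {z : LaurentSeries Ω} {ρ : ℝ}, ρ ≤ 1 → Small ρ (z - 1) →
      Small (ρ * max e ρ) (z ^ l - 1) := fun hρ hz => small_pow_sub_one hρ hz l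
  obtain ⟨c, hc⟩ : ∃ c, r * θ ^ c < e := by
    obtain ⟨c, hc⟩ := exists_pow_lt_of_lt_one he0 hθ1
    exact ⟨c, lt_of_le_of_lt (mul_le_of_le_one_left (pow_nonneg hθ0 c) hr.le) hc⟩
  refine ⟨(e ^ c)⁻¹, by positivity, fun x h => ?_⟩
  have h1 : ∀ k, Small (r * θ ^ k) (x ^ l ^ k - 1) := by
    intro k
    induction k with
    | zero => simpa using h
    | succ k ih =>
      have hle : r * θ ^ k ≤ r := mul_le_of_le_one_right h.nonneg (pow_le_one₀ hθ0 hθ1.le)
      rw [pow_succ l, pow_mul, pow_succ θ, ← mul_assoc]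
      exact (step (hle.trans hr.le) ih).mono (mul_le_mul_of_nonneg_left
        (max_le_max le_rfl hle) (mul_nonneg h.nonneg (pow_nonneg hθ0 k)))
  have h2 : ∀ j, Small (e ^ (j + 1)) (x ^ l ^ (c + j) - 1) := by
    intro j
    induction j with
    | zero => simpa using (h1 c).mono hc.le
    | succ j ih =>
      have hle : e ^ (j + 1) ≤ e := pow_le_of_le_one he0.le hl.le (Nat.succ_ne_zero j)
      rw [← add_assoc, pow_succ l, pow_mul, pow_succ e (j + 1)]
      exact (step (hle.trans hl.le) ih).mono (mul_le_mul_of_nonneg_left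
        (max_le le_rfl hle) (by positivity))
  intro k
  rcases le_or_gt c k with hk | hk
  · obtain ⟨j, rfl⟩ := Nat.exists_eq_add_of_le hk
    refine (h2 j).mono ?_
    rw [pow_add e c, ← mul_assoc, inv_mul_cancel₀ (pow_ne_zero c he0.ne'), one_mul]
    exact pow_le_pow_of_le_one he0.le hl.le (Nat.le_succ j)
  · refine (h1 k).mono (le_trans (mul_le_one₀ hr.le (pow_nonneg hθ0 k) (pow_le_one₀ hθ0 hθ1.le)) ?_)
    rw [← div_eq_inv_mul, one_le_div (by positivity)]
    exact pow_le_pow_of_le_one he0.le hl.le hk.le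

/-- A polynomial in `1/q`. -/
def negPoly : Polynomial Ω →+* LaurentSeries Ω :=
  (Polynomial.aeval (HahnSeries.single (-1 : ℤ) (1 : Ω))).toRingHom

omit [IsUltrametricDist Ω] in
theorem negPoly_C (c : Ω) : negPoly (Polynomial.C c) = HahnSeries.C c := by
  show Polynomial.aeval _ (Polynomial.C c) = _
  rw [Polynomial.aeval_C, algebraMap_laurentSeries_eq_single, HahnSeries.C_apply]

omit [IsUltrametricDist Ω] in
theorem negPoly_X : negPoly (Polynomial.X : Polynomial Ω) = HahnSeries.single (-1 : ℤ) 1 :=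
  Polynomial.aeval_X _

omit [IsUltrametricDist Ω] in
theorem negPoly_monomial (n : ℕ) (c : Ω) :
    negPoly (Polynomial.monomial n c) = HahnSeries.single (-(n : ℤ)) c := by
  rw [← Polynomial.C_mul_X_pow_eq_monomial, map_mul, map_pow, negPoly_C, negPoly_X,
    HahnSeries.single_pow, HahnSeries.C_apply, HahnSeries.single_mul_single, one_pow, mul_one,
    zero_add]
  simp

omit [IsUltrametricDist Ω] in
theorem coeff_zero_ofPowerSeries_mul_negPoly (A : PowerSeries Ω) (P : Polynomial Ω) :
    (HahnSeries.ofPowerSeries ℤ Ω A * negPoly P).coeff 0 =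
      P.sum fun k c => PowerSeries.coeff k A * c := by
  induction P using Polynomial.induction_on' with
  | add P Q hP hQ =>
    rw [map_add, mul_add, HahnSeries.coeff_add, hP, hQ,
      Polynomial.sum_add_index _ _ _ (by simp) (by intros; ring)]
  | monomial n c =>
    rw [negPoly_monomial, mul_comm, HahnSeries.coeff_single_mul, zero_sub, neg_neg,
      HahnSeries.ofPowerSeries_apply_coeff, Polynomial.sum_monomial_index _ _ (by simp), mul_comm]

theorem Small.negPoly {ε : ℝ} (hε : 0 ≤ ε) {P : Polynomial Ω} (h : ∀ k, ‖P.coeff k‖ ≤ ε) :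
    Small ε (negPoly P) := by
  rw [P.as_sum_range, map_sum]
  refine Small.sum hε fun i _ => ?_
  rw [negPoly_monomial]
  exact Small.single _ (h i)

/-- Coefficient at `0` of a product with a small series. -/
theorem norm_coeff_zero_mul_le {ε δ : ℝ} {x y : LaurentSeries Ω} (hx : Small ε x) (hy : Small δ y) :
    ‖(x * y).coeff 0‖ ≤ ε * δ :=
  hx.mul hy 0

end Fermat.Agent.Mazur.Immersion
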