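import Mathlib.RingTheory.PowerSeries.Basic
import Fermat.Agent.Mazur.Immersion.Small

/-!
# The series `∏ (1 - sᵢ z) ^ nᵢ` and its truncations

Coefficient decay, comparison with the polynomial truncations, and the logarithmic derivative.
-/

noncomputable section

open PowerSeries

namespace Fermat.Agent.Mazur.Immersion

variable {Ω : Type*} [NormedField Ω] [IsUltrametricDist Ω]

/-- The operator `z d/dz`. -/
def zDeriv (f : PowerSeries Ω) : PowerSeries Ω := mk fun k => (k : Ω) * coeff k f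

omit [IsUltrametricDist Ω] in
theorem coeff_zDeriv (f : PowerSeries Ω) (k : ℕ) : coeff k (zDeriv f) = (k : Ω) * coeff k f :=
  coeff_mk k _

omit [IsUltrametricDist Ω] in
theorem zDeriv_one : zDeriv (1 : PowerSeries Ω) = 0 := PowerSeries.ext fun k => by
  rw [coeff_zDeriv, coeff_one]
  rcases eq_or_ne k 0 with rfl | hk <;> simp [*]

omit [IsUltrametricDist Ω] in
theorem zDeriv_mul (f g : PowerSeries Ω) : zDeriv (f * g) = zDeriv f * g + f * zDeriv g :=
  PowerSeries.ext fun k => by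
    rw [coeff_zDeriv, map_add, coeff_mul, coeff_mul, coeff_mul, Finset.mul_sum,
      ← Finset.sum_add_distrib]
    refine Finset.sum_congr rfl fun ij hij => ?_
    rw [Finset.HasAntidiagonal.mem_antidiagonal] at hij
    rw [coeff_zDeriv, coeff_zDeriv, ← hij, Nat.cast_add]
    ring

/-- `f` has logarithmic derivative `E`. -/
def LogD (f E : PowerSeries Ω) : Prop := zDeriv f = E * f

omit [IsUltrametricDist Ω] in
theorem logD_one : LogD (1 : PowerSeries Ω) 0 := by rw [LogD, zDeriv_one, zero_mul]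

omit [IsUltrametricDist Ω] in
theorem LogD.mul {f g E E' : PowerSeries Ω} (hf : LogD f E) (hg : LogD g E') :
    LogD (f * g) (E + E') := by
  rw [LogD] at *
  rw [zDeriv_mul, hf, hg]
  ring

omit [IsUltrametricDist Ω] in
theorem LogD.pow {f E : PowerSeries Ω} (hf : LogD f E) (n : ℕ) : LogD (f ^ n) ((n : Ω) • E) := by
  induction n with
  | zero => simpa using logD_one
  | succ n ih =>
    rw [pow_succ]
    convert ih.mul hf using 1
    rw [Nat.cast_succ, add_smul, one_smul]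

omit [IsUltrametricDist Ω] in
theorem LogD.prod {ι' : Type*} {f E : ι' → PowerSeries Ω} (t : Finset ι')
    (h : ∀ i ∈ t, LogD (f i) (E i)) : LogD (∏ i ∈ t, f i) (∑ i ∈ t, E i) := by
  induction t using Finset.cons_induction with
  | empty => simpa using logD_one
  | cons a s ha ih =>
    rw [Finset.prod_cons, Finset.sum_cons]
    exact (h a (by simp)).mul (ih fun i hi => h i (by simp [hi]))

/-- `(1 - s z)`. -/
def oneSub (s : Ω) : Polynomial Ω := 1 - Polynomial.C s * Polynomial.X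

/-- `∑ (s z)^k`. -/
def geo (s : Ω) : PowerSeries Ω := mk fun k => s ^ k

/-- `∑_{k ≥ 1} (s z)^k`. -/
def geoTail (s : Ω) : PowerSeries Ω := mk fun k => if k = 0 then 0 else s ^ k

/-- `∑_{k < M} (s z)^k`. -/
def geoPoly (s : Ω) (M : ℕ) : Polynomial Ω :=
  ∑ k ∈ Finset.range M, Polynomial.monomial k (s ^ k)

omit [IsUltrametricDist Ω] in
theorem coeff_geoPoly (s : Ω) (M k : ℕ) : (geoPoly s M).coeff k = if k < M then s ^ k else 0 := by
  rw [geoPoly, Polynomial.finsetSum_coeff]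
  simp [Polynomial.coeff_monomial]

omit [IsUltrametricDist Ω] in
theorem coe_oneSub (s : Ω) :
    ((oneSub s : Polynomial Ω) : PowerSeries Ω) = 1 - C s * X := by
  simp [oneSub]

omit [IsUltrametricDist Ω] in
theorem oneSub_mul_geo (s : Ω) : (1 - C s * X) * geo s = 1 := by
  ext k
  rw [sub_mul, one_mul, map_sub, mul_assoc, coeff_C_mul]
  rcases k with _ | k
  · simp [geo]
  · rw [coeff_succ_X_mul, coeff_one, if_neg (Nat.succ_ne_zero k)]
    simp [geo, pow_succ, mul_comm]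

omit [IsUltrametricDist Ω] in
theorem geoTail_eq (s : Ω) : geoTail s = C s * X * geo s := by
  ext k
  rw [mul_assoc, coeff_C_mul]
  rcases k with _ | k
  · simp [geoTail]
  · rw [coeff_succ_X_mul]
    simp [geoTail, geo, pow_succ, mul_comm]

omit [IsUltrametricDist Ω] in
theorem zDeriv_oneSub (s : Ω) : zDeriv (1 - C s * X : PowerSeries Ω) = -(C s * X) := by
  ext k
  rw [coeff_zDeriv, map_neg, map_sub, coeff_C_mul, coeff_one, coeff_X]
  rcases k with _ | _ | k <;> simp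

omit [IsUltrametricDist Ω] in
theorem logD_oneSub (s : Ω) : LogD (1 - C s * X : PowerSeries Ω) (-geoTail s) := by
  rw [LogD, zDeriv_oneSub, geoTail_eq, neg_mul, mul_assoc (C s * X), mul_comm (geo s),
    oneSub_mul_geo, mul_one]

omit [IsUltrametricDist Ω] in
theorem logD_geo (s : Ω) : LogD (geo s) (geoTail s) := by
  have h := congrArg zDeriv (oneSub_mul_geo s)
  rw [zDeriv_one, zDeriv_mul, zDeriv_oneSub] at h
  rw [LogD, geoTail_eq]
  calc zDeriv (geo s) = geo s * ((1 - C s * X) * zDeriv (geo s)) := by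
        rw [← mul_assoc, mul_comm (geo s), oneSub_mul_geo, one_mul]
    _ = geo s * (C s * X * geo s) := by
        rw [show (1 - C s * X) * zDeriv (geo s) = C s * X * geo s by linear_combination h]
    _ = _ := mul_comm _ _

/-- The coefficient of `z^k` is bounded by `ρ^k`. -/
def Dec (ρ : ℝ) (f : PowerSeries Ω) : Prop := ∀ k, ‖coeff k f‖ ≤ ρ ^ k

omit [IsUltrametricDist Ω] in
theorem dec_one {ρ : ℝ} (hρ : 0 ≤ ρ) : Dec ρ (1 : PowerSeries Ω) := fun k => by
  rw [coeff_one]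
  split
  · next h => simp [h]
  · simpa using pow_nonneg hρ k

theorem Dec.mul {ρ : ℝ} (hρ : 0 ≤ ρ) {f g : PowerSeries Ω} (hf : Dec ρ f) (hg : Dec ρ g) :
    Dec ρ (f * g) := fun k => by
  rw [coeff_mul]
  refine IsUltrametricDist.norm_sum_le_of_forall_le_of_nonneg (pow_nonneg hρ k) fun ij hij => ?_
  rw [Finset.HasAntidiagonal.mem_antidiagonal] at hij
  rw [norm_mul, ← hij, pow_add]
  exact mul_le_mul (hf _) (hg _) (norm_nonneg _) (pow_nonneg hρ _)

theorem Dec.pow {ρ : ℝ} (hρ : 0 ≤ ρ) {f : PowerSeries Ω} (hf : Dec ρ f) (n : ℕ) :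
    Dec ρ (f ^ n) := by
  induction n with
  | zero => simpa using dec_one hρ
  | succ n ih => rw [pow_succ]; exact ih.mul hρ hf

theorem Dec.prod {ρ : ℝ} (hρ : 0 ≤ ρ) {ι' : Type*} {f : ι' → PowerSeries Ω} (t : Finset ι')
    (h : ∀ i ∈ t, Dec ρ (f i)) : Dec ρ (∏ i ∈ t, f i) := by
  induction t using Finset.cons_induction with
  | empty => simpa using dec_one hρ
  | cons a s ha ih =>
    rw [Finset.prod_cons]
    exact (h a (by simp)).mul hρ (ih fun i hi => h i (by simp [hi]))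

omit [IsUltrametricDist Ω] in
theorem Dec.small {ρ : ℝ} (hρ : 0 ≤ ρ) (hρ1 : ρ ≤ 1) {f : PowerSeries Ω} (hf : Dec ρ f) :
    Small 1 (HahnSeries.ofPowerSeries ℤ Ω f) :=
  Small.ofPowerSeries zero_le_one fun n => (hf n).trans (pow_le_one₀ hρ hρ1)

omit [IsUltrametricDist Ω] in
theorem dec_oneSub {ρ : ℝ} (hρ : 0 ≤ ρ) {s : Ω} (hs : ‖s‖ ≤ ρ) :
    Dec ρ (1 - C s * X : PowerSeries Ω) := fun k => by
  rw [map_sub, coeff_C_mul, coeff_one, coeff_X]
  rcases k with _ | _ | k
  · simp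
  · simpa using hs
  · simpa using pow_nonneg hρ _

omit [IsUltrametricDist Ω] in
theorem dec_geo {ρ : ℝ} {s : Ω} (hs : ‖s‖ ≤ ρ) : Dec ρ (geo s) := fun k => by
  rw [geo, coeff_mk, norm_pow]
  exact pow_le_pow_left₀ (norm_nonneg _) hs k

omit [IsUltrametricDist Ω] in
theorem dec_geoPoly {ρ : ℝ} (hρ : 0 ≤ ρ) {s : Ω} (hs : ‖s‖ ≤ ρ) (M : ℕ) :
    Dec ρ ((geoPoly s M : Polynomial Ω) : PowerSeries Ω) := fun k => by
  rw [Polynomial.coeff_coe, coeff_geoPoly]
  split
  · rw [norm_pow]; exact pow_le_pow_left₀ (norm_nonneg _) hs k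
  · simpa using pow_nonneg hρ k

variable {ι' : Type*} [Fintype ι'] (s : ι' → Ω) (n : ι' → ℤ)

/-- `∏ (1 - sᵢ z) ^ nᵢ`. -/
def ratSer : PowerSeries Ω :=
  ∏ i, (1 - C (s i) * X) ^ (n i).toNat * geo (s i) ^ (-n i).toNat

/-- Its truncations. -/
def ratPoly (M : ℕ) : Polynomial Ω :=
  ∏ i, oneSub (s i) ^ (n i).toNat * geoPoly (s i) M ^ (-n i).toNat

/-- `-∑ nᵢ ∑_{k ≥ 1} (sᵢ z)^k`. -/
def logSer : PowerSeries Ω := mk fun k => if k = 0 then 0 else -∑ i, (n i : Ω) * s i ^ k

omit [IsUltrametricDist Ω] in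
theorem logD_ratSer : LogD (ratSer s n) (logSer s n) := by
  have h := LogD.prod Finset.univ fun i _ =>
    ((logD_oneSub (s i)).pow (n i).toNat).mul ((logD_geo (s i)).pow (-n i).toNat)
  rw [ratSer]
  convert h using 1
  ext k
  simp only [logSer, coeff_mk, map_sum, map_add, coeff_smul, map_neg, geoTail, smul_eq_mul]
  split
  · simp
  · rw [← Finset.sum_neg_distrib]
    refine Finset.sum_congr rfl fun i _ => ?_
    have e : ((n i).toNat : Ω) - ((-n i).toNat : Ω) = (n i : Ω) := by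
      rw [← Int.cast_natCast, ← Int.cast_natCast (R := Ω) (-n i).toNat, ← Int.cast_sub]
      congr 1
      omega
    rw [← e]
    ring

omit [IsUltrametricDist Ω] in
theorem coe_ratPoly (M : ℕ) : ((ratPoly s n M : Polynomial Ω) : PowerSeries Ω) =
    ∏ i, (1 - C (s i) * X) ^ (n i).toNat *
      ((geoPoly (s i) M : Polynomial Ω) : PowerSeries Ω) ^ (-n i).toNat := by
  rw [ratPoly, ← Polynomial.coeToPowerSeries.ringHom_apply, map_prod]
  simp [coe_oneSub]

variable {s} {ρ : ℝ} (hρ : 0 ≤ ρ) (hs : ∀ i, ‖s i‖ ≤ ρ)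
include hρ hs

theorem dec_ratSer : Dec ρ (ratSer s n) :=
  Dec.prod hρ _ fun i _ =>
    ((dec_oneSub hρ (hs i)).pow hρ _).mul hρ ((dec_geo (hs i)).pow hρ _)

theorem dec_ratPoly (M : ℕ) : Dec ρ ((ratPoly s n M : Polynomial Ω) : PowerSeries Ω) := by
  rw [coe_ratPoly]
  exact Dec.prod hρ _ fun i _ =>
    ((dec_oneSub hρ (hs i)).pow hρ _).mul hρ ((dec_geoPoly hρ (hs i) M).pow hρ _)

theorem small_ratPoly_sub_ratSer (hρ1 : ρ ≤ 1) (M : ℕ) :
    Small (ρ ^ M) (HahnSeries.ofPowerSeries ℤ Ω (ratPoly s n M : Polynomial Ω) -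
      HahnSeries.ofPowerSeries ℤ Ω (ratSer s n)) := by
  rw [coe_ratPoly, ratSer, map_prod, map_prod]
  have h1 : ∀ i, Small 1 (HahnSeries.ofPowerSeries ℤ Ω ((1 - C (s i) * X) ^ (n i).toNat)) :=
    fun i => ((dec_oneSub hρ (hs i)).pow hρ _).small hρ hρ1
  have h2 : ∀ i, Small 1 (HahnSeries.ofPowerSeries ℤ Ω (geoPoly (s i) M : Polynomial Ω)) :=
    fun i => (dec_geoPoly hρ (hs i) M).small hρ hρ1
  have h3 : ∀ i, Small 1 (HahnSeries.ofPowerSeries ℤ Ω (geo (s i))) :=
    fun i => (dec_geo (hs i)).small hρ hρ1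
  refine small_prod_sub_prod (pow_nonneg hρ M) (fun i _ => ?_) (fun i _ => ?_) fun i _ => ?_
  · rw [map_mul, map_pow _ (geoPoly (s i) M : PowerSeries Ω)]
    exact Small.mul_left_one ((h2 i).pow_one_bound _) (h1 i)
  · rw [map_mul, map_pow _ (geo (s i))]
    exact Small.mul_left_one ((h3 i).pow_one_bound _) (h1 i)
  · rw [map_mul, map_mul, map_pow _ (geoPoly (s i) M : PowerSeries Ω), map_pow _ (geo (s i)),
      ← mul_sub]
    refine Small.mul_left_one (small_pow_sub_pow (pow_nonneg hρ M) (h2 i) (h3 i) ?_ _) (h1 i)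
    rw [← map_sub]
    refine Small.ofPowerSeries (pow_nonneg hρ M) fun k => ?_
    rw [map_sub, Polynomial.coeff_coe, coeff_geoPoly, geo, coeff_mk]
    split
    · simpa using pow_nonneg hρ M
    · next hk =>
      rw [zero_sub, norm_neg, norm_pow]
      exact (pow_le_pow_left₀ (norm_nonneg _) (hs i) k).trans
        (pow_le_pow_of_le_one hρ hρ1 (not_lt.mp hk))

end Fermat.Agent.Mazur.Immersion
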