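import Mathlib.Algebra.BigOperators.Field
import Mathlib.Analysis.Real.Sqrt
import Mathlib.Analysis.SpecificLimits.Normed
import Fermat.Agent.Mazur.Immersion.Decay

/-!
# Vanishing of logarithms from congruences

If series `x_M`, congruent to truncations of `∏ (1 - sᵢ/q)^nᵢ · u₀`, have all powers paired to zero
against a cusp form, then `∑ nᵢ ∑ a_k sᵢ^k / k = 0`. No geometry enters.
-/

noncomputable section

open PowerSeries Filter Topology

namespace Fermat.Agent.Mazur.Immersion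

variable {Ω : Type*} [NormedField Ω] [IsUltrametricDist Ω]

omit [IsUltrametricDist Ω] in
theorem coeff_zero_ofPowerSeries (G : PowerSeries Ω) :
    (HahnSeries.ofPowerSeries ℤ Ω G).coeff 0 = PowerSeries.constantCoeff G := by
  rw [show (0 : ℤ) = ((0 : ℕ) : ℤ) from rfl, HahnSeries.ofPowerSeries_apply_coeff,
    PowerSeries.coeff_zero_eq_constantCoeff]

variable [CompleteSpace Ω]

/-- `∑ a_k s^k / k`. -/
def logVal (a : ℕ → Ω) (s : Ω) : Ω := ∑' k, a k * (s ^ k / (k : Ω))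

omit [IsUltrametricDist Ω] [CompleteSpace Ω] in
theorem norm_div_natCast_le (hnat : ∀ k : ℕ, k ≠ 0 → 1 ≤ (k : ℝ) * ‖(k : Ω)‖) (x : Ω) (k : ℕ) :
    ‖x / (k : Ω)‖ ≤ ‖x‖ * k := by
  rcases eq_or_ne k 0 with rfl | hk
  · simp
  have h0 : 0 < ‖(k : Ω)‖ := by
    rcases (norm_nonneg (k : Ω)).lt_or_eq with h | h
    · exact h
    · have := hnat k hk
      rw [← h, mul_zero] at this
      linarith
  rw [norm_div, div_le_iff₀ h0, mul_assoc]
  exact le_mul_of_one_le_right (norm_nonneg x) (hnat k hk)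

omit [IsUltrametricDist Ω] in
theorem summable_logVal (hnat : ∀ k : ℕ, k ≠ 0 → 1 ≤ (k : ℝ) * ‖(k : Ω)‖) {a : ℕ → Ω}
    (ha : ∀ k, ‖a k‖ ≤ 1) {s : Ω} (hs : ‖s‖ < 1) :
    Summable fun k => a k * (s ^ k / (k : Ω)) := by
  refine Summable.of_norm_bounded (g := fun k => (k : ℝ) ^ 1 * ‖s‖ ^ k) ?_ fun k => ?_
  · exact summable_pow_mul_geometric_of_norm_lt_one 1 (by rwa [norm_norm])
  · rw [norm_mul, pow_one, mul_comm (k : ℝ), ← norm_pow]
    exact (mul_le_of_le_one_left (norm_nonneg _) (ha k)).trans (norm_div_natCast_le hnat _ k)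

variable {ι' : Type*} [Fintype ι'] {s : ι' → Ω} (n : ι' → ℤ)

omit [CompleteSpace Ω] in
/-- The logarithmic derivative controls the coefficients of a power. -/
theorem norm_coeff_pow_div_add {σ D : ℝ} (hσ : 0 ≤ σ) (hσ1 : σ ≤ 1) (hs : ∀ i, ‖s i‖ ≤ σ ^ 2)
    {L : ℕ} (hL : (L : Ω) ≠ 0) (hD : 0 ≤ D)
    (hpow : ∀ m, 1 ≤ m → ‖coeff m (ratSer s n ^ L)‖ ≤ D * σ ^ m)
    (hnat : ∀ k : ℕ, k ≠ 0 → 1 ≤ (k : ℝ) * ‖(k : Ω)‖) {k : ℕ} (hk : 1 ≤ k) :
    ‖coeff k (ratSer s n ^ L) / (L : Ω) + (∑ i, (n i : Ω) * s i ^ k) / (k : Ω)‖ ≤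
      D * ((k : ℝ) * σ ^ k) := by
  have hk0 : (k : Ω) ≠ 0 := by
    intro h
    have := hnat k (by omega)
    rw [h, norm_zero, mul_zero] at this
    linarith
  have hE : ∀ j, ‖coeff j (logSer s n)‖ ≤ (σ ^ 2) ^ j := by
    intro j
    rw [logSer, coeff_mk]
    split
    · simpa using pow_nonneg (pow_nonneg hσ 2) j
    · rw [norm_neg]
      refine IsUltrametricDist.norm_sum_le_of_forall_le_of_nonneg (by positivity) fun i _ => ?_
      rw [norm_mul, norm_pow]
      exact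
          (mul_le_of_le_one_left (by positivity) (IsUltrametricDist.norm_intCast_le_one Ω _)).trans
        (pow_le_pow_left₀ (norm_nonneg _) (hs i) j)
  have hlog := congrArg (coeff k) ((logD_ratSer s n).pow L)
  rw [coeff_zDeriv, smul_mul_assoc, coeff_smul, smul_eq_mul, coeff_mul] at hlog
  have hmem : (k, 0) ∈ Finset.HasAntidiagonal.antidiagonal k :=
    Finset.HasAntidiagonal.mem_antidiagonal.mpr (add_zero k)
  rw [← Finset.add_sum_erase _ _ hmem] at hlog
  have h0 : coeff 0 (ratSer s n ^ L) = 1 := by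
    rw [coeff_zero_eq_constantCoeff, map_pow, ratSer, map_prod, Finset.prod_eq_one, one_pow]
    intro i _
    rw [map_mul, map_pow, map_pow]
    simp [geo]
  have hEk : coeff k (logSer s n) = -∑ i, (n i : Ω) * s i ^ k := by
    rw [logSer, coeff_mk, if_neg (by omega)]
  simp only [h0, mul_one, hEk] at hlog
  set R := ∑ ij ∈ (Finset.HasAntidiagonal.antidiagonal k).erase (k, 0),
    coeff ij.1 (logSer s n) * coeff ij.2 (ratSer s n ^ L) with hR
  have e : coeff k (ratSer s n ^ L) / (L : Ω) + (∑ i, (n i : Ω) * s i ^ k) / (k : Ω) =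
      R / (k : Ω) := by
    rw [div_add_div _ _ hL hk0, div_eq_div_iff (mul_ne_zero hL hk0) hk0]
    linear_combination (k : Ω) * hlog
  rw [e]
  refine (norm_div_natCast_le hnat _ k).trans ?_
  rw [mul_comm (k : ℝ) (σ ^ k), ← mul_assoc]
  refine mul_le_mul_of_nonneg_right ?_ (Nat.cast_nonneg k)
  refine IsUltrametricDist.norm_sum_le_of_forall_le_of_nonneg (by positivity) fun ij hij => ?_
  obtain ⟨hne, hsum⟩ := Finset.mem_erase.mp hij
  rw [Finset.HasAntidiagonal.mem_antidiagonal] at hsum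
  have h2 : 1 ≤ ij.2 := by
    by_contra h
    exact hne (Prod.ext (by simp; omega) (by simp; omega))
  rw [norm_mul]
  refine (mul_le_mul (hE _) (hpow _ h2) (norm_nonneg _) (by positivity)).trans ?_
  rw [← hsum, pow_add σ, ← pow_mul]
  calc σ ^ (2 * ij.1) * (D * σ ^ ij.2) ≤ σ ^ ij.1 * (D * σ ^ ij.2) :=
        mul_le_mul_of_nonneg_right (pow_le_pow_of_le_one hσ hσ1 (by omega)) (by positivity)
    _ = _ := by ring

/-- Pairing of the exact series with a cusp form, from the truncations. -/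
theorem norm_tsum_pow_le {ρ : ℝ} (hρ : 0 ≤ ρ) (hρ1 : ρ < 1) (hs : ∀ i, ‖s i‖ ≤ ρ) {a : ℕ → Ω}
    (ha : ∀ k, ‖a k‖ ≤ 1) (L : ℕ) {ε K : ℝ} (hε : 0 ≤ ε)
    (h : ∀ M, ‖(HahnSeries.ofPowerSeries ℤ Ω (mk a) * negPoly (ratPoly s n (M + 1) ^ L)).coeff 0‖ ≤
      max (K * ρ ^ M) ε) :
    ‖∑' k, a k * coeff k (ratSer s n ^ L)‖ ≤ ε := by
  have hdec := (dec_ratSer n hρ hs).pow hρ L
  have hsum : Summable fun k => a k * coeff k (ratSer s n ^ L) :=
    Summable.of_norm_bounded (summable_geometric_of_lt_one hρ hρ1) fun k => by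
      rw [norm_mul]
      exact (mul_le_of_le_one_left (norm_nonneg _) (ha k)).trans (hdec k)
  have key : ∀ M, ‖∑' k, a k * coeff k (ratSer s n ^ L)‖ ≤ max ((max K 1) * ρ ^ M) ε := by
    intro M
    set P := ratPoly s n (M + 1) ^ L with hP
    have hPs : Summable fun k => a k * P.coeff k :=
      summable_of_ne_finset_zero (s := P.support) fun k hk => by
        rw [Polynomial.notMem_support_iff.mp hk, mul_zero]
    have e1 : (HahnSeries.ofPowerSeries ℤ Ω (mk a) * negPoly P).coeff 0 = ∑' k, a k *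
        P.coeff k := by
      rw [coeff_zero_ofPowerSeries_mul_negPoly, Polynomial.sum, tsum_eq_sum fun k hk => by
        rw [Polynomial.notMem_support_iff.mp hk, mul_zero]]
      simp
    have hdiff : Small (ρ ^ M) (HahnSeries.ofPowerSeries ℤ Ω (P : PowerSeries Ω) -
        HahnSeries.ofPowerSeries ℤ Ω (ratSer s n ^ L)) := by
      rw [hP, Polynomial.coe_pow, map_pow, map_pow]
      exact small_pow_sub_pow (pow_nonneg hρ M) ((dec_ratPoly n hρ hs (M + 1)).small hρ hρ1.le)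
        ((dec_ratSer n hρ hs).small hρ hρ1.le)
            ((small_ratPoly_sub_ratSer n hρ hs hρ1.le (M + 1)).mono
          (pow_le_pow_of_le_one hρ hρ1.le (Nat.le_succ M))) L
    have e2 : ∑' k, a k * coeff k (ratSer s n ^ L) = (∑' k, a k * P.coeff k) -
        ∑' k, a k * (P.coeff k - coeff k (ratSer s n ^ L)) := by
      rw [← hPs.tsum_sub]
      · exact tsum_congr fun k => by ring
      · simpa [mul_sub] using hPs.sub hsum
    rw [e2, ← e1, sub_eq_add_neg]
    refine (IsUltrametricDist.norm_add_le_max _ _).trans (max_le ((h M).trans (max_le_max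
      (mul_le_mul_of_nonneg_right (le_max_left _ _) (pow_nonneg hρ M)) le_rfl)) ?_)
    rw [norm_neg]
    refine le_trans ?_ (le_max_left _ _)
    refine IsUltrametricDist.norm_tsum_le_of_forall_le_of_nonneg (by positivity) fun k => ?_
    rw [norm_mul]
    refine (mul_le_of_le_one_left (norm_nonneg _) (ha k)).trans ?_
    refine le_trans ?_ (le_mul_of_one_le_left (pow_nonneg hρ M) (le_max_right _ _))
    have := hdiff (k : ℤ)
    rwa [HahnSeries.coeff_sub, HahnSeries.ofPowerSeries_apply_coeff,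
      HahnSeries.ofPowerSeries_apply_coeff, Polynomial.coeff_coe] at this
  have hlim : Tendsto (fun M => max ((max K 1) * ρ ^ M) ε) atTop (𝓝 ε) := by
    have := ((tendsto_pow_atTop_nhds_zero_of_lt_one hρ hρ1).const_mul (max K 1)).max
      (tendsto_const_nhds (x := ε))
    rwa [mul_zero, max_eq_right hε] at this
  exact ge_of_tendsto' hlim key

omit [CompleteSpace Ω] in
/-- The pairing of `(R u₀)^L` for `L` a power of `l`. -/
theorem exists_norm_pairing_le {r : ℝ} (hr : r < 1) {l : ℕ} (hl : ‖(l : Ω)‖ < 1)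
    (hl0 : (l : Ω) ≠ 0) {a : ℕ → Ω} (ha : ∀ k, ‖a k‖ ≤ 1) (ha0 : a 0 = 0) {u₀ : PowerSeries Ω}
    (hu : Small r (HahnSeries.ofPowerSeries ℤ Ω u₀ - 1)) :
    ∃ C : ℝ, 0 ≤ C ∧ ∀ R : LaurentSeries Ω, Small r (R - 1) → ∀ k,
      ‖(HahnSeries.ofPowerSeries ℤ Ω (mk a) * R ^ l ^ k).coeff 0‖ ≤
        max ‖(HahnSeries.ofPowerSeries ℤ Ω (mk a) *
          (R * HahnSeries.ofPowerSeries ℤ Ω u₀) ^ l ^ k).coeff 0‖
          ((C * ‖(l : Ω)‖ ^ k) ^ 2) := by
  obtain ⟨C, hC, hCx⟩ := exists_small_pow_sub_one (Ω := Ω) hr hl hl0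
  refine ⟨C, hC, fun R hR k => ?_⟩
  set A := HahnSeries.ofPowerSeries ℤ Ω (mk a) with hA
  set u := HahnSeries.ofPowerSeries ℤ Ω u₀
  have hAs : Small 1 A := Small.ofPowerSeries zero_le_one fun j => by rw [coeff_mk]; exact ha j
  have hA0 : constantCoeff (mk a) = 0 := by
    rw [← coeff_zero_eq_constantCoeff, coeff_mk, ha0]
  have h1 : (A * u ^ l ^ k).coeff 0 = 0 := by
    rw [hA, ← map_pow, ← map_mul, coeff_zero_ofPowerSeries, map_mul, hA0, zero_mul]
  have h2 : (A * (1 : LaurentSeries Ω)).coeff 0 = 0 := by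
    rw [mul_one, hA, coeff_zero_ofPowerSeries, hA0]
  have e : A * R ^ l ^ k = A * (R * u) ^ l ^ k - A * ((R ^ l ^ k - 1) * (u ^ l ^ k - 1)) -
      A * u ^ l ^ k + A * 1 := by ring
  rw [e, HahnSeries.coeff_add, HahnSeries.coeff_sub, HahnSeries.coeff_sub, h1, h2, sub_zero,
    add_zero, sub_eq_add_neg]
  refine (IsUltrametricDist.norm_add_le_max _ _).trans (max_le_max le_rfl ?_)
  rw [norm_neg, pow_two]
  refine (norm_coeff_zero_mul_le hAs ((hCx R hR k).mul (hCx _ hu k))).trans (le_of_eq ?_)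
  rw [one_mul]

/-- A bound for `∑ a_j d_j` when `∑ a_j c_j` is small and `c_j / L` is close to `-d_j`. -/
theorem norm_logSum_le {ρ : ℝ} (hρ : 0 ≤ ρ) (hρ1 : ρ < 1) {a : ℕ → Ω} (ha : ∀ k, ‖a k‖ ≤ 1)
    (ha0 : a 0 = 0) {L : Ω} (hL : L ≠ 0) {c : PowerSeries Ω} (hc : Dec ρ c) {d : ℕ → Ω} {ε δ ε' : ℝ}
    (hT : ‖∑' j, a j * coeff j c‖ ≤ ε) (hε : ε ≤ ‖L‖ * ε')
    (hb : ∀ j, 1 ≤ j → ‖coeff j c / L + d j‖ ≤ δ) (hd : Summable fun j => a j * d j) (hδ : 0 ≤ δ) :
    ‖∑' j, a j * d j‖ ≤ max ε' δ := by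
  have hc' : Summable fun j => a j * coeff j c :=
    Summable.of_norm_bounded (summable_geometric_of_lt_one hρ hρ1) fun j => by
      rw [norm_mul]
      exact (mul_le_of_le_one_left (norm_nonneg _) (ha j)).trans (hc j)
  have hc2 : Summable fun j => a j * (coeff j c / L) :=
    (hc'.div_const L).congr fun j => mul_div_assoc _ _ _
  have e : ∑' j, a j * d j =
      (∑' j, a j * (coeff j c / L + d j)) - (∑' j, a j * coeff j c) / L := by
    rw [tsum_congr fun j => mul_add (a j) (coeff j c / L) (d j), hc2.tsum_add hd, ← tsum_div_const,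
      tsum_congr fun j => (mul_div_assoc (a j) (coeff j c) L), add_sub_cancel_left]
  rw [e, sub_eq_add_neg]
  refine (IsUltrametricDist.norm_add_le_max _ _).trans (max_le ?_ ?_)
  · refine le_max_of_le_right
      (IsUltrametricDist.norm_tsum_le_of_forall_le_of_nonneg hδ fun j => ?_)
    rcases Nat.eq_zero_or_pos j with rfl | hj
    · rw [ha0, zero_mul, norm_zero]; exact hδ
    · rw [norm_mul]
      exact (mul_le_of_le_one_left (norm_nonneg _) (ha j)).trans (hb j hj)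
  · refine le_max_of_le_left ?_
    rw [norm_neg, norm_div, div_le_iff₀ (norm_pos_iff.mpr hL), mul_comm ε']
    exact hT.trans hε

/-- **Vanishing of logarithms**: the pairings of all powers of the approximations being equal on
both sides forces `∑ nᵢ ∑ a_k sᵢ^k / k = 0`. -/
theorem sum_logVal_eq_zero {σ r B : ℝ} (hσ : 0 ≤ σ) (hσ1 : σ < 1) (hs : ∀ i, ‖s i‖ ≤ σ ^ 2)
    (hσr : σ ^ 2 ≤ r) (hr : r < 1) (hB : 1 ≤ B)
    (hnat : ∀ k : ℕ, k ≠ 0 → 1 ≤ (k : ℝ) * ‖(k : Ω)‖)
    {l : ℕ} (hl : ‖(l : Ω)‖ < 1) (hl0 : (l : Ω) ≠ 0)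
    {a a' : ℕ → Ω} (ha : ∀ k, ‖a k‖ ≤ 1) (ha0 : a 0 = 0) (ha' : ∀ k, ‖a' k‖ ≤ 1) (ha'0 : a' 0 = 0)
    {u₀ P : PowerSeries Ω} (hu : Small r (HahnSeries.ofPowerSeries ℤ Ω u₀ - 1))
    (hP : Small B (HahnSeries.ofPowerSeries ℤ Ω P)) (x y : ℕ → LaurentSeries Ω)
    (hx : ∀ M, Small ((σ ^ 2) ^ M)
      (x M - negPoly (ratPoly s n M) * HahnSeries.ofPowerSeries ℤ Ω u₀))
    (hy : ∀ M, Small (B * (σ ^ 2) ^ M) (y M - HahnSeries.ofPowerSeries ℤ Ω P))
    (hCT : ∀ M L, (HahnSeries.ofPowerSeries ℤ Ω (mk a) * x M ^ L).coeff 0 =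
      (HahnSeries.ofPowerSeries ℤ Ω (mk a') * y M ^ L).coeff 0) :
    ∑ i, (n i : Ω) * logVal a (s i) = 0 := by
  set ρ := σ ^ 2 with hρdef
  have hρ : 0 ≤ ρ := pow_nonneg hσ 2
  have hρ1 : ρ < 1 := hσr.trans_lt hr
  set A := HahnSeries.ofPowerSeries ℤ Ω (mk a) with hA
  have hAs : Small 1 A := Small.ofPowerSeries zero_le_one fun j => by rw [coeff_mk]; exact ha j
  have hA's : Small 1 (HahnSeries.ofPowerSeries ℤ Ω (mk a')) :=
    Small.ofPowerSeries zero_le_one fun j => by rw [coeff_mk]; exact ha' j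
  set u := HahnSeries.ofPowerSeries ℤ Ω u₀ with hudef
  have hu1 : Small 1 u := by
    have := (hu.mono hr.le).add (Small.one (Ω := Ω) le_rfl)
    rwa [sub_add_cancel] at this
  -- the truncations
  have hR : ∀ M, Small r (negPoly (ratPoly s n (M + 1)) - 1) := fun M => by
    rw [← map_one negPoly, ← map_sub]
    refine (Small.negPoly hρ fun k => ?_).mono hσr
    rw [Polynomial.coeff_sub, Polynomial.coeff_one]
    rcases Nat.eq_zero_or_pos k with rfl | hk
    · have h0 : (ratPoly s n (M + 1)).coeff 0 = 1 := by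
        rw [ratPoly, ← Polynomial.constantCoeff_apply, map_prod]
        refine Finset.prod_eq_one fun i _ => ?_
        rw [map_mul, map_pow, map_pow]
        simp [oneSub, Polynomial.constantCoeff_apply, coeff_geoPoly]
      rw [h0]
      simpa using hρ
    · rw [if_neg (Nat.pos_iff_ne_zero.mp hk), sub_zero, ← Polynomial.coeff_coe]
      exact (dec_ratPoly n hρ hs (M + 1) k).trans (pow_le_of_le_one hρ hρ1.le hk.ne')
  have hR1 : ∀ M, Small 1 (negPoly (ratPoly s n (M + 1))) := fun M => by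
    have := ((hR M).mono hr.le).add (Small.one (Ω := Ω) le_rfl)
    rwa [sub_add_cancel] at this
  have hPB : ∀ M, Small B (y M) := fun M => by
    have := ((hy M).mono (mul_le_of_le_one_right (zero_le_one.trans hB)
      (pow_le_one₀ hρ hρ1.le))).add hP
    rwa [sub_add_cancel] at this
  have hx1 : ∀ M, Small 1 (x (M + 1)) := fun M => by
    have := ((hx (M + 1)).mono (pow_le_one₀ hρ hρ1.le)).add ((hR1 M).mul_right_one hu1)
    rwa [sub_add_cancel] at this
  -- the pairing with the truncations of `(R u₀)^L`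
  have hpair : ∀ M L, ‖(A * (negPoly (ratPoly s n (M + 1)) * u) ^ L).coeff 0‖ ≤
      B ^ (L + 1) * ρ ^ M := by
    intro M L
    have h1 : (HahnSeries.ofPowerSeries ℤ Ω (mk a') *
        HahnSeries.ofPowerSeries ℤ Ω P ^ L).coeff 0 = 0 := by
      rw [← map_pow, ← map_mul, coeff_zero_ofPowerSeries, map_mul,
        ← coeff_zero_eq_constantCoeff, coeff_mk, ha'0, zero_mul]
    have h2 := norm_coeff_zero_mul_le hA's
      (small_pow_sub_pow_bound (by positivity) hB (hPB _) hP (hy (M + 1)) L)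
    rw [mul_sub, HahnSeries.coeff_sub, h1, sub_zero, one_mul, ← hCT] at h2
    have h3 := norm_coeff_zero_mul_le hAs
      (small_pow_sub_pow (pow_nonneg hρ _) (hx1 M) ((hR1 M).mul_right_one hu1) (hx (M + 1)) L)
    rw [mul_sub, HahnSeries.coeff_sub, one_mul] at h3
    have hle : ρ ^ (M + 1) ≤ ρ ^ M := pow_le_pow_of_le_one hρ hρ1.le (Nat.le_succ M)
    have e : (A * (negPoly (ratPoly s n (M + 1)) * u) ^ L).coeff 0 =
        (A * x (M + 1) ^ L).coeff 0 - ((A * x (M + 1) ^ L).coeff 0 -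
          (A * (negPoly (ratPoly s n (M + 1)) * u) ^ L).coeff 0) := by ring
    rw [e, sub_eq_add_neg]
    refine (IsUltrametricDist.norm_add_le_max _ _).trans (max_le (h2.trans ?_) ?_)
    · rw [pow_succ B L, mul_comm (B ^ L) B, mul_right_comm B]
      exact mul_le_mul_of_nonneg_left hle (by positivity)
    · rw [norm_neg]
      exact (h3.trans hle).trans (le_mul_of_one_le_left (pow_nonneg hρ M) (one_le_pow₀ hB))
  obtain ⟨C, hC, hCR⟩ := exists_norm_pairing_le hr hl hl0 ha ha0 hu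
  obtain ⟨D, hD, hDx⟩ := exists_small_pow_sub_one (Ω := Ω) hρ1 hl hl0
  set e := ‖(l : Ω)‖ with he
  have he0 : 0 ≤ e := norm_nonneg _
  have hT : ∀ k, ‖∑' j, a j * coeff j (ratSer s n ^ l ^ k)‖ ≤ (C * e ^ k) ^ 2 := fun k =>
    norm_tsum_pow_le n hρ hρ1 hs ha _ (K := B ^ (l ^ k + 1)) (by positivity)
      fun M => by
        rw [map_pow]
        exact (hCR _ (hR M) k).trans (max_le_max (hpair M _) le_rfl)
  have hpow : ∀ k m, 1 ≤ m →
      ‖coeff m (ratSer s n ^ l ^ k)‖ ≤ Real.sqrt (D * e ^ k) * σ ^ m := by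
    intro k m hm
    have h1 := (dec_ratSer n hρ hs).pow hρ (l ^ k) m
    have h2 := hDx (HahnSeries.ofPowerSeries ℤ Ω (ratSer s n)) ?_ k (m : ℤ)
    · rw [HahnSeries.coeff_sub, ← map_pow, HahnSeries.ofPowerSeries_apply_coeff,
        HahnSeries.coeff_one, if_neg (by omega), sub_zero] at h2
      rw [hρdef, ← pow_mul, mul_comm 2 m, pow_mul] at h1
      have h3 : ‖coeff m (ratSer s n ^ l ^ k)‖ ^ 2 ≤ D * e ^ k * (σ ^ m) ^ 2 := by
        rw [pow_two]
        exact mul_le_mul h2 h1 (norm_nonneg _) (le_trans (norm_nonneg _) h2)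
      calc ‖coeff m (ratSer s n ^ l ^ k)‖
          = Real.sqrt (‖coeff m (ratSer s n ^ l ^ k)‖ ^ 2) := (Real.sqrt_sq (norm_nonneg _)).symm
        _ ≤ Real.sqrt (D * e ^ k * (σ ^ m) ^ 2) := Real.sqrt_le_sqrt h3
        _ = _ := by rw [Real.sqrt_mul (by positivity), Real.sqrt_sq (pow_nonneg hσ m)]
    · rw [← map_one (HahnSeries.ofPowerSeries ℤ Ω), ← map_sub]
      refine Small.ofPowerSeries hρ fun j => ?_
      rw [map_sub]
      rcases Nat.eq_zero_or_pos j with rfl | hj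
      · rw [coeff_zero_eq_constantCoeff, map_one, ratSer, map_prod, Finset.prod_eq_one, sub_self,
          norm_zero]
        · exact hρ
        · intro i _
          rw [map_mul, map_pow, map_pow]
          simp [geo]
      · rw [coeff_one, if_neg hj.ne', sub_zero]
        exact (dec_ratSer n hρ hs j).trans (pow_le_of_le_one hρ hρ1.le hj.ne')
  obtain ⟨K, hK⟩ : ∃ K, ∀ j : ℕ, (j : ℝ) * σ ^ j ≤ K := by
    obtain ⟨K, hK⟩ := (tendsto_pow_const_mul_const_pow_of_abs_lt_one 1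
      (by rwa [abs_of_nonneg hσ] : |σ| < 1)).bddAbove_range
    exact ⟨K, fun j => by simpa using hK ⟨j, rfl⟩⟩
  have hK0 : 0 ≤ K := by simpa using hK 0
  set S := ∑ i, (n i : Ω) * logVal a (s i) with hS
  have hsum : ∀ i, Summable fun j => a j * (s i ^ j / (j : Ω)) := fun i =>
    summable_logVal hnat ha ((hs i).trans_lt hρ1)
  have hterm : ∀ j, ∑ i, (n i : Ω) * (a j * (s i ^ j / (j : Ω))) =
      a j * ((∑ i, (n i : Ω) * s i ^ j) / (j : Ω)) := fun j => by
    rw [Finset.sum_div, Finset.mul_sum]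
    exact Finset.sum_congr rfl fun i _ => by ring
  have hSeq : S = ∑' j, a j * ((∑ i, (n i : Ω) * s i ^ j) / (j : Ω)) := by
    rw [hS]
    simp only [logVal, ← tsum_mul_left]
    rw [← Summable.tsum_finsetSum fun i _ => (hsum i).mul_left _]
    exact tsum_congr hterm
  have key : ∀ k, ‖S‖ ≤ max (C ^ 2 * e ^ k) (Real.sqrt (D * e ^ k) * K) := by
    intro k
    have hL : ((l ^ k : ℕ) : Ω) ≠ 0 := by rw [Nat.cast_pow]; exact pow_ne_zero k hl0
    have hLn : ‖((l ^ k : ℕ) : Ω)‖ = e ^ k := by rw [Nat.cast_pow, norm_pow]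
    rw [hSeq]
    refine norm_logSum_le hρ hρ1 ha ha0 hL ((dec_ratSer n hρ hs).pow hρ _) (hT k) ?_
      (fun j hj => (norm_coeff_pow_div_add n hσ hσ1.le hs hL (Real.sqrt_nonneg _) (hpow k) hnat
        hj).trans (mul_le_mul_of_nonneg_left (hK j) (Real.sqrt_nonneg _)))
      ((summable_sum (s := Finset.univ) fun i _ => (hsum i).mul_left (n i : Ω)).congr
        fun j => hterm j) (mul_nonneg (Real.sqrt_nonneg _) hK0)
    rw [hLn]
    exact le_of_eq (by ring)
  have hlim : Tendsto (fun k => max (C ^ 2 * e ^ k) (Real.sqrt (D * e ^ k) * K)) atTop (𝓝 0) := by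
    have h0 := tendsto_pow_atTop_nhds_zero_of_lt_one he0 hl
    have h1 := h0.const_mul (C ^ 2)
    have h2 := ((h0.const_mul D).sqrt).mul_const K
    have h3 := h1.max h2
    simpa using h3
  exact norm_le_zero_iff.mp (ge_of_tendsto' hlim key)

end Fermat.Agent.Mazur.Immersion
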