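import Mathlib.RingTheory.RootsOfUnity.AlgebraicallyClosed
import Mathlib.RingTheory.RootsOfUnity.PrimitiveRoots
import Fermat.Agent.Mazur.Immersion.Congr

/-!
# Logarithms summed over `l`-th roots

The logarithm of `T_l P_s = Σ_{r^l = s} P_r + P_{s^l}` along `∑ b_k q^k` is that of `P_s` along the
series transformed by `T_l`.
-/

noncomputable section

namespace Fermat.Agent.Mazur.Immersion

open Fermat.Agent.Mazur.Disc (DiscPt)

variable {Ω : Type*} [NormedField Ω] [IsUltrametricDist Ω] [CompleteSpace Ω] [CharZero Ω]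
  [IsAlgClosed Ω]

omit [IsUltrametricDist Ω] [CompleteSpace Ω] in
theorem sum_pow_roots {s : DiscPt Ω} {l : ℕ} (hl : l ≠ 0) {R : Finset (DiscPt Ω)}
    (hR : R.card = l) (hmem : ∀ r : DiscPt Ω, r ∈ R ↔ r.val ^ l = s.val) (k : ℕ) :
    ∑ r ∈ R, r.val ^ k = if l ∣ k then (l : Ω) * s.val ^ (k / l) else 0 := by
  classical
  split_ifs with hk
  · obtain ⟨m, rfl⟩ := hk
    rw [Nat.mul_div_cancel_left m (Nat.pos_of_ne_zero hl),
      Finset.sum_congr rfl fun r hr => by rw [pow_mul, (hmem r).mp hr], Finset.sum_const, hR,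
      nsmul_eq_mul]
  · have : NeZero l := ⟨hl⟩
    have : NeZero (l : Ω) := ⟨Nat.cast_ne_zero.mpr hl⟩
    obtain ⟨ζ, hζ⟩ := HasEnoughRootsOfUnity.exists_primitiveRoot Ω l
    have hn : ‖ζ‖ = 1 := by
      refine (pow_eq_one_iff_of_nonneg (norm_nonneg _) hl).mp ?_
      rw [← norm_pow, hζ.pow_eq_one, norm_one]
    let g : DiscPt Ω → DiscPt Ω := fun r => ⟨ζ * r.val, by
      rw [norm_mul, hn, one_mul]; exact r.norm_lt⟩
    have hg : Function.Injective g := fun r r' h => by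
      have h' : ζ * r.val = ζ * r'.val := congrArg DiscPt.val h
      have h'' := mul_left_cancel₀ (hζ.ne_zero hl) h'
      cases r; cases r'; simp_all
    have hRg : R.image g = R := by
      refine Finset.eq_of_subset_of_card_le (fun x hx => ?_)
        (by rw [Finset.card_image_of_injective _ hg])
      obtain ⟨r, hr, rfl⟩ := Finset.mem_image.mp hx
      rw [hmem, show (g r).val = ζ * r.val from rfl, mul_pow, hζ.pow_eq_one, one_mul]
      exact (hmem r).mp hr
    have h : ζ ^ k * ∑ r ∈ R, r.val ^ k = ∑ r ∈ R, r.val ^ k := by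
      conv_rhs => rw [← hRg, Finset.sum_image hg.injOn]
      rw [Finset.mul_sum]
      exact Finset.sum_congr rfl fun r _ => (mul_pow _ _ _).symm
    have hζk : ζ ^ k ≠ 1 := fun e => hk (hζ.dvd_of_pow_eq_one k e)
    by_contra hne
    exact hζk (mul_right_cancel₀ hne (h.trans (one_mul _).symm))

/-- The effect of `T_l` on coefficients. -/
def tOp (l : ℕ) (b : ℕ → Ω) (k : ℕ) : Ω := b (l * k) + (l : Ω) * if l ∣ k then b (k / l) else 0

omit [IsUltrametricDist Ω] [CompleteSpace Ω] [CharZero Ω] [IsAlgClosed Ω] in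
/-- Re-indexing a series supported on multiples of `l`. -/
theorem tsum_dvd {l : ℕ} (hl : l ≠ 0) (f : ℕ → Ω) (hf : ∀ k, ¬ l ∣ k → f k = 0) :
    ∑' k, f k = ∑' m, f (l * m) :=
  ((mul_right_injective₀ hl).tsum_eq fun k hk => by
    by_cases h : l ∣ k
    · obtain ⟨m, rfl⟩ := h
      exact ⟨m, rfl⟩
    · exact absurd (hf k h) hk).symm

/-- `Σ_{r^l = s} log_b r + log_b s^l = log_{T_l b} s`. -/
theorem logVal_tOp (hnat : ∀ k : ℕ, k ≠ 0 → 1 ≤ (k : ℝ) * ‖(k : Ω)‖) {s : DiscPt Ω} {l : ℕ}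
    (hl : l ≠ 0) {R : Finset (DiscPt Ω)} (hR : R.card = l)
    (hmem : ∀ r : DiscPt Ω, r ∈ R ↔ r.val ^ l = s.val) {b : ℕ → Ω} (hb : ∀ k, ‖b k‖ ≤ 1) :
    ∑ r ∈ R, logVal b r.val + logVal b (s.val ^ l) = logVal (tOp l b) s.val := by
  have hl0 : (l : Ω) ≠ 0 := Nat.cast_ne_zero.mpr hl
  have hb1 : ∀ k, ‖(fun k => b (l * k)) k‖ ≤ 1 := fun k => hb _
  have hb2 : ∀ k, ‖(fun k => (l : Ω) * if l ∣ k then b (k / l) else 0) k‖ ≤ 1 := fun k => by
    rw [norm_mul]
    refine mul_le_one₀ (IsUltrametricDist.norm_natCast_le_one Ω l) (norm_nonneg _) ?_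
    split_ifs
    · exact hb _
    · simp
  have e1 : ∑ r ∈ R, logVal b r.val = logVal (fun k => b (l * k)) s.val := by
    simp only [logVal]
    rw [← Summable.tsum_finsetSum fun r _ => summable_logVal hnat hb r.norm_lt]
    simp_rw [← Finset.mul_sum, ← Finset.sum_div, sum_pow_roots hl hR hmem]
    rw [tsum_dvd hl _ fun k hk => by simp [hk]]
    refine tsum_congr fun m => ?_
    rw [if_pos (dvd_mul_right l m), Nat.mul_div_cancel_left m (Nat.pos_of_ne_zero hl),
      Nat.cast_mul, mul_div_mul_left _ _ hl0]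
  have e2 : logVal b (s.val ^ l) =
      logVal (fun k => (l : Ω) * if l ∣ k then b (k / l) else 0) s.val := by
    simp only [logVal]
    rw [tsum_dvd hl (fun k => ((l : Ω) * if l ∣ k then b (k / l) else 0) * (s.val ^ k / (k : Ω)))
      fun k hk => by simp [hk]]
    refine tsum_congr fun m => ?_
    rw [if_pos (dvd_mul_right l m), Nat.mul_div_cancel_left m (Nat.pos_of_ne_zero hl),
      Nat.cast_mul, ← pow_mul, mul_comm (l : Ω) (b m), mul_assoc, ← mul_div_assoc (l : Ω),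
      mul_div_mul_left _ _ hl0]
  rw [e1, e2]
  simp only [logVal]
  rw [← (summable_logVal hnat hb1 s.norm_lt).tsum_add (summable_logVal hnat hb2 s.norm_lt)]
  exact tsum_congr fun k => by rw [tOp, add_mul]

omit [IsUltrametricDist Ω] [CharZero Ω] [IsAlgClosed Ω] in
theorem logVal_add (hnat : ∀ k : ℕ, k ≠ 0 → 1 ≤ (k : ℝ) * ‖(k : Ω)‖) {a b : ℕ → Ω}
    (ha : ∀ k, ‖a k‖ ≤ 1) (hb : ∀ k, ‖b k‖ ≤ 1) {s : Ω} (hs : ‖s‖ < 1) :
    logVal (fun k => a k + b k) s = logVal a s + logVal b s := by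
  simp only [logVal]
  rw [← (summable_logVal hnat ha hs).tsum_add (summable_logVal hnat hb hs)]
  exact tsum_congr fun k => add_mul _ _ _

omit [IsUltrametricDist Ω] [CompleteSpace Ω] [CharZero Ω] [IsAlgClosed Ω] in
theorem logVal_smul (c : Ω) (a : ℕ → Ω) (s : Ω) :
    logVal (fun k => c * a k) s = c * logVal a s := by
  simp only [logVal]
  rw [← tsum_mul_left]
  exact tsum_congr fun k => mul_assoc _ _ _

end Fermat.Agent.Mazur.Immersion
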