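import Fermat.Agent.Mazur.Immersion.Normalise

/-!
# Factorisations of the normalised function along both cusps
-/

noncomputable section

open ModularCurve AlgebraicCurve

namespace Fermat.Agent.Mazur.Immersion

open Fermat.Agent.Mazur.Disc (ser stdHom DiscPt IsPoint IsFricke toL)

local notation "Qbar" => AlgebraicClosure ℚ

variable {p : ℕ} [hp : Fact p.Prime]
variable {Ω : Type*} [NormedField Ω] [IsUltrametricDist Ω] [CompleteSpace Ω] [CharZero Ω]
  [IsAlgClosed Ω] {ι : Qbar →+* Ω}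

variable {ι' : Type*} [Fintype ι'] {pt : ι' → DiscPt Ω}
  (hinj : ∀ i j, (pt i).val = (pt j).val → i = j) (h0 : ∀ i, (pt i).val ≠ 0) {a : ι' → Qbar}
  (ha : ∀ i, ι (a i) * (pt i).J = 1) {P : ι' → XPlace p}
  (hP : ∀ i, IsPoint ι (stdHom p) (pt i) (P i)) {n : ι' → ℤ} {O : XPlace p} (hO : IsInfty p O)
  {h : modularFunctionFieldBar p}
  (hdiv : FF.divOf (K := Qbar) h =
    (∑ i, Finsupp.single (P i) (n i)) - Finsupp.single O (∑ i, n i))
  {G : modularFunctionFieldBar p} (hG0 : G ≠ 0)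
  (hordG : ∀ v : XPlace p, v.ord G =
    v.ord h + ∑ i, (negPart n i : ℤ) * v.ord (jFactor (a i) : modularFunctionFieldBar p))

omit [IsAlgClosed Ω] in
include hinj h0 ha hP hO hdiv hG0 hordG in
/-- Along `∞` the normalised function is `∏ (1 - sᵢ/q)^posPart` times an integral series. -/
theorem exists_std_factor (hG1 : Small 1 (ser ι (stdHom p) G)) :
    ∃ V : PowerSeries (Disc.O Ω),
      ser ι (stdHom p) G = (∏ i, tInv (pt i).val ^ posPart n i) * toL V := by
  have hOo : ∀ i, O.ord (jFactor (a i) : modularFunctionFieldBar p) = -1 := fun i => by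
    rw [ord_jFactor_of_neg (ne_zero_of_mul_J (ha i)) (by rw [ord_jBar_infty hO]; norm_num),
      ord_jBar_infty hO]
  refine exists_factor pt hinj h0 (posPart n) (Disc.ser_ne_zero ι _ hG0) hG1 (fun k hk => ?_)
    fun i => ?_
  · rw [Disc.ser_apply, Disc.stdHom_apply, coeffMap_coeff, HahnSeries.coeff_eq_zero_of_lt_order,
      map_zero]
    rw [← hO G hG0, hordG, ord_div_infty h0 ha hP hO hdiv]
    simp only [hOo, mul_neg_one, Finset.sum_neg_distrib]
    have e : ((∑ i, posPart n i : ℕ) : ℤ) = ∑ i, n i + ∑ i, (negPart n i : ℤ) := by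
      rw [← Finset.sum_add_distrib, Nat.cast_sum]
      exact Finset.sum_congr rfl fun i _ => (add_negPart n i).symm
    omega
  · rw [← (hP i) G hG0, hordG, ord_div_point hinj h0 ha hP hO hdiv i, ← add_negPart n i]
    refine add_le_add le_rfl (le_trans ?_ (single_jFactor_le ha (n := n) (v := P i)
      (ord_jBar_nonneg_of_pos ((ord_sub_point h0 ha hP i).symm ▸ one_pos)) i))
    rw [ord_jFactor (ne_zero_of_mul_J (ha i)), ord_sub_point h0 ha hP i, mul_one]

include hinj h0 ha hP hO hdiv hG0 hordG in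
/-- Along `0` the normalised function is a constant times `∏ (1 - sᵢ/q^p)^negPart` times an integral
series. -/
theorem exists_fricke_factor {γ : Ω} (hγ : 1 < ‖γ‖)
    {τ : modularFunctionFieldBar p →+* LaurentSeries Qbar} (hτ : IsFricke τ)
    (hGint : IsIntegral (Algebra.adjoin Qbar {jBar p}) G) :
    ∃ γm : Ω, 1 ≤ ‖γm‖ ∧ ∃ V' : PowerSeries (Disc.O Ω), ser ι τ G = HahnSeries.C γm *
      ((∏ i, qExpand Ω p (tInv (pt i).val) ^ negPart n i) * toL V') := by
  classical
  have hadm := Disc.adm_fricke ι hτ.map_const hτ.map_j hτ.map_jN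
  have hjτ : ser ι τ (jBar p) = qExpand Ω p (jqModC Ω) := by
    rw [Disc.ser_apply, hτ.map_j, Disc.coeffMap_qExpand_coeffEmb_jq]
  obtain ⟨O', hO'⟩ := hτ.exists_cusp
  have hO'j := ord_jBar_cusp hτ hO'
  have hOj := ord_jBar_infty hO
  have hp2 := hp.out.two_le
  have hOO' : O' ≠ O := fun e => by rw [e, hOj] at hO'j; omega
  have hO'o : ∀ i, O'.ord (jFactor (a i) : modularFunctionFieldBar p) = -(p : ℤ) := fun i => by
    rw [ord_jFactor_of_neg (ne_zero_of_mul_J (ha i)) (by rw [hO'j]; omega), hO'j]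
  obtain ⟨B₀, hB₀⟩ := exists_small_ser hγ hadm
    ⟨1, show Small 1 (ser ι τ (jBar p)) by rw [hjτ]; exact small_jqModC.qExpand p⟩ hGint
  obtain ⟨m, hm⟩ := pow_unbounded_of_one_lt B₀ hγ
  set γm : Ω := γ ^ m with hγm
  have hγm0 : γm ≠ 0 := pow_ne_zero m fun e => by rw [e, norm_zero] at hγ; linarith
  refine ⟨γm, by rw [hγm, norm_pow]; exact one_le_pow₀ hγ.le, ?_⟩
  have hτG : Small 1 (HahnSeries.C γm⁻¹ * ser ι τ G) := by
    refine ((Small.const (c := γm⁻¹) le_rfl).mul hB₀).mono ?_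
    rw [norm_inv, inv_mul_le_one₀ (norm_pos_iff.mpr hγm0), hγm, norm_pow]
    exact hm.le
  choose R hRc hR using fun i => Disc.exists_root_finset (h0 i) p
  choose W hW hW1 using fun (k : Σ i, R i) =>
    Disc.exists_point_fricke hτ (ha k.1) (h0 k.1) ((hR k.1 k.2.1).mp k.2.2)
  have hinj' : ∀ k k' : Σ i, R i, k.2.1.val = k'.2.1.val → k = k' := by
    rintro ⟨i, rr, hrr⟩ ⟨i', rr', hrr'⟩ hk
    have e1 : rr = rr' := by cases rr; cases rr'; simp_all
    subst e1
    obtain rfl : i = i' := hinj i i' (((hR i rr).mp hrr).symm.trans ((hR i' rr).mp hrr'))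
    rfl
  have h0' : ∀ k : Σ i, R i, k.2.1.val ≠ 0 := fun k hk =>
    h0 k.1 (by rw [← (hR k.1 k.2.1).mp k.2.2, hk, zero_pow hp.out.ne_zero])
  have hlow : ∀ k : ℤ, k < -((∑ k : Σ i, R i, negPart n k.1 : ℕ) : ℤ) →
      (HahnSeries.C γm⁻¹ * ser ι τ G).coeff k = 0 := fun k hk => by
    have hsum : O'.ord h = 0 := by
      rw [ord_div_of_ne hdiv hOO']
      refine Finset.sum_eq_zero fun i _ => if_neg fun e => ?_
      have := ord_jBar_nonneg_of_pos (v := P i) ((ord_sub_point h0 ha hP i).symm ▸ one_pos)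
      rw [e, hO'j] at this
      omega
    have hz : (τ G).coeff k = 0 := by
      refine HahnSeries.coeff_eq_zero_of_lt_order ?_
      rw [← hO' G hG0, hordG, hsum, zero_add]
      simp only [hO'o, mul_neg, Finset.sum_neg_distrib]
      have e : ((∑ k : Σ i, R i, negPart n k.1 : ℕ) : ℤ) = ∑ i, (negPart n i : ℤ) * p := by
        rw [Fintype.sum_sigma, Nat.cast_sum]
        refine Finset.sum_congr rfl fun i _ => ?_
        simp [hRc i, mul_comm]
      omega
    rw [HahnSeries.C_apply, HahnSeries.coeff_single_mul, sub_zero, Disc.ser_apply, coeffMap_coeff,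
      hz, map_zero, mul_zero]
  have hzero : ∀ k : Σ i, R i, (negPart n k.1 : ℤ) ≤
      k.2.1.ordAt (HahnSeries.C γm⁻¹ * ser ι τ G) := fun k => by
    have hWne : W k ≠ O := fun e => by
      have := ord_jBar_nonneg_of_pos (v := W k) ((hW1 k).symm ▸ one_pos)
      rw [e, hOj] at this
      omega
    have hh : (W k).ord h = 0 := by
      rw [ord_div_of_ne hdiv hWne]
      refine Finset.sum_eq_zero fun i _ => if_neg fun e => ?_
      have hik : i = k.1 := eq_of_ord_pos hinj ha (v := W k)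
        (e ▸ (ord_sub_point h0 ha hP i).symm ▸ one_pos) ((hW1 k).symm ▸ one_pos)
      subst hik
      exact false_of_point_of_fricke hτ (h0 _) ((hR k.1 k.2.1).mp k.2.2) (e ▸ hP k.1) (hW k)
    have hC0 : ser ι τ G ≠ 0 := Disc.ser_ne_zero ι _ hG0
    rw [k.2.1.ordAt_mul (Disc.C_mem _) (hadm.mem G) (HahnSeries.C_ne_zero (inv_ne_zero hγm0)) hC0,
      k.2.1.ordAt_C (inv_ne_zero hγm0), zero_add, ← (hW k) G hG0, hordG, hh, zero_add]
    refine le_trans ?_ (single_jFactor_le ha (n := n) (v := W k)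
      (ord_jBar_nonneg_of_pos ((hW1 k).symm ▸ one_pos)) k.1)
    rw [ord_jFactor (ne_zero_of_mul_J (ha k.1)), hW1 k, mul_one]
  obtain ⟨V', hV'⟩ := exists_factor (fun k : Σ i, R i => k.2.1) hinj' h0'
    (fun k => negPart n k.1) (mul_ne_zero (HahnSeries.C_ne_zero (inv_ne_zero hγm0))
      (Disc.ser_ne_zero ι _ hG0)) hτG hlow hzero
  refine ⟨V', ?_⟩
  have h1 : (∏ k : Σ i, R i, tInv k.2.1.val ^ negPart n k.1) =
      ∏ i, qExpand Ω p (tInv (pt i).val) ^ negPart n i := by
    rw [Fintype.prod_sigma]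
    refine Finset.prod_congr rfl fun i _ => ?_
    simp only
    rw [Finset.prod_pow, Finset.prod_coe_sort (R i) (fun r => tInv r.val),
      prod_tInv_roots _ p (hRc i) (hR i)]
  rw [← h1, ← hV', ← mul_assoc, ← map_mul, mul_inv_cancel₀ hγm0, map_one, one_mul]

end Fermat.Agent.Mazur.Immersion
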