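import Mathlib.Analysis.Real.Sqrt
import Fermat.Agent.Mazur.Immersion.Congr
import Fermat.Agent.Mazur.Immersion.Factors

/-!
# Logarithms of a principal divisor supported on the disc of `∞` vanish
-/

noncomputable section

open ModularCurve AlgebraicCurve

namespace Fermat.Agent.Mazur.Immersion

open Fermat.Agent.Mazur.Disc (ser stdHom DiscPt IsPoint IsFricke toL)

local notation "Qbar" => AlgebraicClosure ℚ

variable {p : ℕ} [hp : Fact p.Prime]
variable {Ω : Type*} [NormedField Ω] [IsUltrametricDist Ω] [CompleteSpace Ω] [CharZero Ω]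
  [IsAlgClosed Ω] {ι : Qbar →+* Ω}
variable {ι' : Type*} [Fintype ι']

/-- The inverse of a unit of the integral series, as a Laurent series. -/
def invL (H : (PowerSeries (Disc.O Ω))ˣ) : LaurentSeries Ω :=
  toL ((H⁻¹ : (PowerSeries (Disc.O Ω))ˣ) : PowerSeries (Disc.O Ω))

omit [CompleteSpace Ω] [CharZero Ω] [IsAlgClosed Ω] in
theorem invL_mul (H : (PowerSeries (Disc.O Ω))ˣ) :
    invL H * toL (H : PowerSeries (Disc.O Ω)) = 1 := by
  rw [invL, ← map_mul, Units.inv_mul, map_one]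

omit [CompleteSpace Ω] [CharZero Ω] [IsAlgClosed Ω] in
theorem small_invL (H : (PowerSeries (Disc.O Ω))ˣ) : Small 1 (invL H) := small_toL _

omit [CharZero Ω] [IsAlgClosed Ω] in
/-- The truncated geometric series of `j/a` against that of `s/q`. -/
theorem small_geom {s : DiscPt Ω} {a : Qbar} (ha : ι a * s.J = 1) {H : (PowerSeries (Disc.O Ω))ˣ}
    (hH : 1 - HahnSeries.C (ι a⁻¹) * jqModC Ω = tInv s.val * toL (H : PowerSeries (Disc.O Ω)))
    {ρ : ℝ} (hρ : ‖s.val‖ ≤ ρ) (hρ1 : ρ ≤ 1) (M : ℕ) :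
    Small 1 (ser ι (stdHom p) (jGeom a M)) ∧
    Small (ρ ^ M) (ser ι (stdHom p) (jGeom a M) - negPoly (geoPoly s.val M) * invL H) ∧
    Small (ρ ^ M) (tInv s.val * ser ι (stdHom p) (jGeom a M) - invL H) := by
  have hJ : ι a⁻¹ = s.J := by rw [map_inv₀]; exact inv_eq_of_mul_eq_one_right ha
  have hz : Small ρ (HahnSeries.C (ι a⁻¹) * jqModC Ω) := by
    refine ((Small.const le_rfl).mul_right_one small_jqModC).mono ?_
    rw [hJ, DiscPt.norm_J]
    exact hρ
  have h1 : Small (ρ ^ M)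
      (ser ι (stdHom p) (jGeom a M) - negPoly (geoPoly s.val M) * invL H) := by
    rw [jGeom, map_sum, negPoly_geoPoly]
    simp only [map_pow, map_mul, Disc.ser_const ι (Disc.adm_stdHom ι), ser_stdHom_jBar]
    exact small_geom_congr hρ1 hz ((small_sInv _).mono hρ) rfl hH (invL_mul H) (small_invL H) M
  refine ⟨?_, h1, ?_⟩
  · rw [jGeom, map_sum]
    refine Small.sum zero_le_one fun k _ => ?_
    rw [map_pow, map_mul, Disc.ser_const ι (Disc.adm_stdHom ι), ser_stdHom_jBar]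
    exact (hz.mono hρ1).pow_one_bound k
  · have h2 : negPoly (geoPoly s.val M) * tInv s.val =
        1 - (HahnSeries.C s.val * HahnSeries.single (-1 : ℤ) 1) ^ M := by
      rw [negPoly_geoPoly, tInv]; exact geom_sum_mul_neg _ M
    have e : tInv s.val * ser ι (stdHom p) (jGeom a M) - invL H =
        tInv s.val * (ser ι (stdHom p) (jGeom a M) - negPoly (geoPoly s.val M) * invL H) -
        invL H * (HahnSeries.C s.val * HahnSeries.single (-1 : ℤ) 1) ^ M := by
      linear_combination invL H * h2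
    rw [e]
    exact (h1.mul_left_one (small_tInv s.norm_lt.le)).sub
      ((((small_sInv _).mono hρ).pow M).mul_left_one (small_invL H))

omit [CompleteSpace Ω] [CharZero Ω] [IsAlgClosed Ω] in
theorem small_negPoly_geoPoly {s : DiscPt Ω} (M : ℕ) : Small 1 (negPoly (geoPoly s.val M)) := by
  rw [negPoly_geoPoly]
  exact Small.sum zero_le_one fun k _ => ((small_sInv _).mono s.norm_lt.le).pow_one_bound k

omit [CompleteSpace Ω] [CharZero Ω] [IsAlgClosed Ω] in
theorem ser_fricke_jGeom {τ : modularFunctionFieldBar p →+* LaurentSeries Qbar} (hτ : IsFricke τ)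
    (a : Qbar) (M : ℕ) :
    ser ι τ (jGeom a M) = qExpand Ω p (ser ι (stdHom p) (jGeom a M)) := by
  have hadm := Disc.adm_fricke ι hτ.map_const hτ.map_j hτ.map_jN
  have hjτ : ser ι τ (jBar p) = qExpand Ω p (jqModC Ω) := by
    rw [Disc.ser_apply, hτ.map_j, Disc.coeffMap_qExpand_coeffEmb_jq]
  simp only [jGeom, map_sum, map_pow, map_mul, Disc.ser_const ι (Disc.adm_stdHom ι),
    Disc.ser_const ι hadm, ser_stdHom_jBar, hjτ, qExpand_C]

section Approx

variable {pt : ι' → DiscPt Ω} {a : ι' → Qbar} (ha : ∀ i, ι (a i) * (pt i).J = 1) (n : ι' → ℤ)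
  {H : ι' → (PowerSeries (Disc.O Ω))ˣ}
  (hH : ∀ i, 1 - HahnSeries.C (ι (a i)⁻¹) * jqModC Ω =
    tInv (pt i).val * toL (H i : PowerSeries (Disc.O Ω)))
  {ρ : ℝ} (hρ0 : 0 ≤ ρ) (hρ1 : ρ ≤ 1) (hρ : ∀ i, ‖(pt i).val‖ ≤ ρ)
  {G : modularFunctionFieldBar p} {V : PowerSeries (Disc.O Ω)}

omit [CharZero Ω] [IsAlgClosed Ω] in
include ha hH hρ0 hρ1 hρ in
/-- The approximations along `∞`. -/
theorem small_approx_std
    (hV : ser ι (stdHom p) G = (∏ i, tInv (pt i).val ^ posPart n i) * toL V) (M : ℕ) :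
    Small (ρ ^ M) (ser ι (stdHom p) (G * ∏ i, jGeom (a i) M ^ negPart n i) -
      negPoly (ratPoly (fun i => (pt i).val) n M) *
        toL (V * ∏ i, ((H i)⁻¹ : (PowerSeries (Disc.O Ω))ˣ).val ^ negPart n i)) := by
  have e1 : negPoly (ratPoly (fun i => (pt i).val) n M) *
      toL (V * ∏ i, ((H i)⁻¹ : (PowerSeries (Disc.O Ω))ˣ).val ^ negPart n i) =
      ((∏ i, tInv (pt i).val ^ posPart n i) * toL V) *
        ∏ i, (negPoly (geoPoly (pt i).val M) * invL (H i)) ^ negPart n i := by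
    simp only [ratPoly, map_prod, map_mul, map_pow, negPoly_oneSub, mul_pow,
      Finset.prod_mul_distrib, invL, posPart, negPart]
    ring
  rw [e1, map_mul, map_prod, hV]
  simp only [map_pow]
  rw [← mul_sub]
  have g := fun i => small_geom (p := p) (ha i) (hH i) (hρ i) hρ1 M
  exact (small_prod_sub_prod (pow_nonneg hρ0 M) (fun i _ => (g i).1.pow_one_bound _)
    (fun i _ => ((small_negPoly_geoPoly M).mul_right_one (small_invL (H i))).pow_one_bound _)
    fun i _ => small_pow_sub_pow (pow_nonneg hρ0 M) (g i).1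
      ((small_negPoly_geoPoly M).mul_right_one (small_invL (H i))) (g i).2.1 _).mul_left_one
    ((Small.prod fun i _ => (small_tInv (pt i).norm_lt.le).pow_one_bound _).mul_right_one
      (small_toL V))

omit [CharZero Ω] [IsAlgClosed Ω] in
include ha hH hρ0 hρ1 hρ in
/-- The approximations along the other cusp. -/
theorem small_approx_fricke {τ : modularFunctionFieldBar p →+* LaurentSeries Qbar}
    (hτ : IsFricke τ) {γm : Ω} {V' : PowerSeries (Disc.O Ω)}
    (hV' : ser ι τ G = HahnSeries.C γm *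
      ((∏ i, qExpand Ω p (tInv (pt i).val) ^ negPart n i) * toL V')) :
    ∃ P₀ : PowerSeries Ω, Small ‖γm‖ (HahnSeries.ofPowerSeries ℤ Ω P₀) ∧ ∀ M,
      Small (‖γm‖ * ρ ^ M) (ser ι τ (G * ∏ i, jGeom (a i) M ^ negPart n i) -
        HahnSeries.ofPowerSeries ℤ Ω P₀) := by
  refine ⟨PowerSeries.C γm * ((V' * ∏ i, PowerSeries.expand p hp.out.ne_zero
    ((H i)⁻¹ : (PowerSeries (Disc.O Ω))ˣ).val ^ negPart n i).map (Disc.O Ω).subtype), ?_⟩
  have hP : HahnSeries.ofPowerSeries ℤ Ω (PowerSeries.C γm * ((V' * ∏ i,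
      PowerSeries.expand p hp.out.ne_zero
        ((H i)⁻¹ : (PowerSeries (Disc.O Ω))ˣ).val ^ negPart n i).map (Disc.O Ω).subtype)) =
      HahnSeries.C γm * (toL V' * ∏ i, qExpand Ω p (invL (H i)) ^ negPart n i) := by
    rw [map_mul, HahnSeries.ofPowerSeries_C, ← Disc.toL_apply, map_mul, map_prod]
    simp only [map_pow, invL, Disc.qExpand_toL]
  constructor
  · rw [hP]
    exact (Small.const le_rfl).mul_right_one ((small_toL _).mul_right_one
      (Small.prod fun i _ => ((small_invL (H i)).qExpand p).pow_one_bound _))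
  intro M
  have g := fun i => small_geom (p := p) (ha i) (hH i) (hρ i) hρ1 M
  have e : ser ι τ (G * ∏ i, jGeom (a i) M ^ negPart n i) -
      HahnSeries.C γm * (toL V' * ∏ i, qExpand Ω p (invL (H i)) ^ negPart n i) =
      HahnSeries.C γm * (toL V' *
        ((∏ i, qExpand Ω p (tInv (pt i).val * ser ι (stdHom p) (jGeom (a i) M)) ^ negPart n i) -
          ∏ i, qExpand Ω p (invL (H i)) ^ negPart n i)) := by
    rw [map_mul, map_prod, hV']
    simp only [map_pow, ser_fricke_jGeom hτ, map_mul, mul_pow, Finset.prod_mul_distrib]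
    ring
  rw [hP, e]
  refine ((Small.const (c := γm) le_rfl).mul
    ((small_prod_sub_prod (pow_nonneg hρ0 M) ?_ ?_ ?_).mul_left_one (small_toL V'))).mono le_rfl
  · exact fun i _ =>
      ((((small_tInv (pt i).norm_lt.le).mul_right_one (g i).1).qExpand p)).pow_one_bound _
  · exact fun i _ => ((small_invL (H i)).qExpand p).pow_one_bound _
  · intro i _
    refine small_pow_sub_pow (pow_nonneg hρ0 M)
      (((small_tInv (pt i).norm_lt.le).mul_right_one (g i).1).qExpand p)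
      ((small_invL (H i)).qExpand p) ?_ _
    rw [← map_sub]
    exact (g i).2.2.qExpand p

omit [CharZero Ω] [IsAlgClosed Ω] in
include ha hH hρ0 hρ1 hρ in
/-- The unit part is a principal unit. -/
theorem small_unit_sub_one
    (hV : ser ι (stdHom p) G = (∏ i, tInv (pt i).val ^ posPart n i) * toL V)
    {r : ℝ} (hr : Small r (ser ι (stdHom p) G - 1)) :
    Small (max r ρ)
      (toL (V * ∏ i, ((H i)⁻¹ : (PowerSeries (Disc.O Ω))ˣ).val ^ negPart n i) - 1) := by
  set U := V * ∏ i, ((H i)⁻¹ : (PowerSeries (Disc.O Ω))ˣ).val ^ negPart n i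
  have hR1 : negPoly (ratPoly (fun i => (pt i).val) n 1) =
      ∏ i, tInv (pt i).val ^ posPart n i := by
    rw [ratPoly, map_prod]
    refine Finset.prod_congr rfl fun i _ => ?_
    rw [map_mul, map_pow, map_pow, negPoly_oneSub, negPoly_geoPoly]
    simp [posPart]
  have h1 := small_approx_std ha n hH hρ0 hρ1 hρ hV 1
  rw [hR1, pow_one] at h1
  have hx1 : G * ∏ i, jGeom (a i) 1 ^ negPart n i = G := by simp [jGeom]
  rw [hx1] at h1
  have e : toL U - 1 = (ser ι (stdHom p) G - 1) -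
      (ser ι (stdHom p) G - (∏ i, tInv (pt i).val ^ posPart n i) * toL U) -
      (∏ i, tInv (pt i).val ^ posPart n i - 1) * toL U := by ring
  rw [e]
  refine ((hr.mono (le_max_left _ _)).sub (h1.mono (le_max_right _ _))).sub
    (Small.mul_right_one ?_ (small_toL U))
  refine Small.mono ?_ (le_max_right r ρ)
  have h2 := small_prod_sub_prod (t := (Finset.univ : Finset ι')) hρ0
    (f := fun i => tInv (pt i).val ^ posPart n i) (g := fun _ => 1)
    (fun i _ => (small_tInv (pt i).norm_lt.le).pow_one_bound _) (fun _ _ => Small.one le_rfl)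
    fun i _ => by
      have := small_pow_sub_pow hρ0 (small_tInv (pt i).norm_lt.le) (Small.one le_rfl)
        ((small_tInv_sub_one _).mono (hρ i)) (posPart n i)
      rwa [one_pow] at this
  rwa [Finset.prod_const_one] at h2

end Approx

/-- **Vanishing of the logarithms of a principal divisor on the disc of `∞`.** -/
theorem sum_logVal_of_principal {ℓ : ℕ} [Fact ℓ.Prime] (hℓp : ¬ ℓ ∣ p)
    (hnat : ∀ k : ℕ, k ≠ 0 → 1 ≤ (k : ℝ) * ‖(k : Ω)‖) (hl : ‖(ℓ : Ω)‖ < 1)
    {A : ValuationSubring Qbar} (hA : ∀ x, x ∈ A ↔ ‖ι x‖ ≤ 1) (hAl : A.LiesOverPrime ℓ)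
    (pt : ι' → DiscPt Ω) (hinj : ∀ i j, (pt i).val = (pt j).val → i = j)
    (h0 : ∀ i, (pt i).val ≠ 0) (a : ι' → Qbar) (ha : ∀ i, ι (a i) * (pt i).J = 1)
    (P : ι' → XPlace p) (hP : ∀ i, IsPoint ι (stdHom p) (pt i) (P i)) (n : ι' → ℤ)
    {O : XPlace p} (hO : IsInfty p O) {h : modularFunctionFieldBar p} (hh0 : h ≠ 0)
    (hdiv : FF.divOf (K := Qbar) h =
      (∑ i, Finsupp.single (P i) (n i)) - Finsupp.single O (∑ i, n i))
    (w : CuspForm (CongruenceSubgroup.Gamma0 p) 2) (b : ℕ → ℤ)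
    (hb : ∀ k, (UpperHalfPlane.qExpansion 1 w).coeff k = (b k : ℂ)) :
    ∑ i, (n i : Ω) * logVal (fun k => (b k : Ω)) (pt i).val = 0 := by
  classical
  have hℓ0 : (ℓ : Ω) ≠ 0 := Nat.cast_ne_zero.mpr (Fact.out : ℓ.Prime).ne_zero
  have hγ : 1 < ‖((ℓ : Ω))⁻¹‖ := by
    rw [norm_inv]; exact one_lt_inv_iff₀.mpr ⟨norm_pos_iff.mpr hℓ0, hl⟩
  obtain ⟨τ, hτ⟩ := Disc.exists_isFricke p
  obtain ⟨G, hG0, hGint, ⟨r, -, hr1, hGs⟩, hordG⟩ :=
    exists_normalised hinj h0 ha hP hO hdiv hℓp hl hA hAl hh0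
  have hG1 : Small 1 (ser ι (stdHom p) G) := by
    have := (hGs.mono hr1.le).add (Small.one (Ω := Ω) le_rfl)
    rwa [sub_add_cancel] at this
  obtain ⟨V, hV⟩ := exists_std_factor hinj h0 ha hP hO hdiv hG0 hordG hG1
  obtain ⟨γm, hγ1, V', hV'⟩ := exists_fricke_factor hinj h0 ha hP hO hdiv hG0 hordG hγ hτ hGint
  choose H hH using fun i => exists_oneSub_factor (pt i) (b := ι (a i)⁻¹)
    (by rw [map_inv₀]; exact inv_eq_of_mul_eq_one_right (ha i))
  obtain ⟨ρ, hρ0, hρ1, hρ⟩ : ∃ ρ : ℝ, 0 ≤ ρ ∧ ρ < 1 ∧ ∀ i, ‖(pt i).val‖ ≤ ρ := by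
    rcases isEmpty_or_nonempty ι' with hE | hE
    · exact ⟨0, le_rfl, one_pos, fun i => isEmptyElim i⟩
    · obtain ⟨i₀, -, hi₀⟩ := Finset.exists_max_image (Finset.univ : Finset ι')
        (fun i => ‖(pt i).val‖) Finset.univ_nonempty
      exact ⟨_, norm_nonneg _, (pt i₀).norm_lt, fun i => hi₀ i (Finset.mem_univ i)⟩
  obtain ⟨P₀, hPB, hys⟩ := small_approx_fricke ha n hH hρ0 hρ1.le hρ hτ hV'
  have hxint : ∀ M, IsIntegral (Algebra.adjoin Qbar {jBar p})
      (G * ∏ i, jGeom (a i) M ^ negPart n i : modularFunctionFieldBar p) := fun M =>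
    hGint.mul (IsIntegral.prod _ fun i _ => (isIntegral_jGeom (p := p) (a i) M).pow _)
  have hσ2 : Real.sqrt ρ ^ 2 = ρ := Real.sq_sqrt hρ0
  have hσ1 : Real.sqrt ρ < 1 := by rw [Real.sqrt_lt' one_pos, one_pow]; exact hρ1
  have hb0 : b 0 = 0 := by
    have h1 : (UpperHalfPlane.qExpansion 1 w).coeff 0 = 0 :=
      CuspFormClass.qExpansion_coeff_zero w one_pos
        (CongruenceSubgroup.one_mem_strictPeriods_Gamma0 p)
    rw [hb 0] at h1
    exact_mod_cast h1
  exact sum_logVal_eq_zero n (Real.sqrt_nonneg _) hσ1 (fun i => hσ2.symm ▸ hρ i)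
    (hσ2.symm ▸ le_max_right r ρ) (max_lt hr1 hρ1) hγ1 hnat hl hℓ0
    (a' := fun k => (b (p * k) : Ω))
    (fun k => IsUltrametricDist.norm_intCast_le_one Ω _) (by simp [hb0])
    (fun k => IsUltrametricDist.norm_intCast_le_one Ω _) (by simp [hb0])
    (u₀ := (V * ∏ i, ((H i)⁻¹ : (PowerSeries (Disc.O Ω))ˣ).val ^ negPart n i).map
      (Disc.O Ω).subtype)
    (small_unit_sub_one ha n hH hρ0 hρ1.le hρ hV hGs) hPB
    (fun M => ser ι (stdHom p) (G * ∏ i, jGeom (a i) M ^ negPart n i))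
    (fun M => ser ι τ (G * ∏ i, jGeom (a i) M ^ negPart n i))
    (fun M => hσ2.symm ▸ small_approx_std ha n hH hρ0 hρ1.le hρ hV M)
    (fun M => hσ2.symm ▸ hys M)
    fun M L => by
      have := coeff_zero_ser_eq (ι := ι) hτ ((hxint M).pow L) w b hb
      rwa [map_pow, map_pow] at this

end Fermat.Agent.Mazur.Immersion
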