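import Fermat.Prelude.Thm_CuspForm_mem_intLattice_of_mem_heckeAlgebra
import Fermat.Agent.Eis.CuspCoeff
import Fermat.Agent.Hecke.Inputs
import Fermat.Agent.Mazur.Disc.Hecke
import Fermat.Agent.Mazur.Immersion.HeckeLog
import Fermat.Agent.Mazur.Immersion.Vanishing

/-!
# Formal sums of algebraic disc points

Their classes in `J₀(p)` and their logarithms along a cusp form: the logarithms of a principal
sum vanish and `T_l` acts on them through the coefficients of the form.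
-/

noncomputable section

open ModularCurve AlgebraicCurve CongruenceSubgroup ModularFormClass

namespace Fermat.Agent.Mazur.Immersion

open Fermat.Agent.Mazur.Disc (stdHom DiscPt IsPoint)

local notation "Qbar" => AlgebraicClosure ℚ

variable {p : ℕ} [hp : Fact p.Prime]
variable {Ω : Type*} [NormedField Ω] [IsUltrametricDist Ω] [CompleteSpace Ω] [CharZero Ω]
  [IsAlgClosed Ω]

/-- Disc points at which `j` is algebraic. -/
abbrev AlgPt (ι : Qbar →+* Ω) : Type _ :=
  {s : DiscPt Ω // s.val ≠ 0 ∧ ∃ a, ι a * s.J = 1}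

variable {ι : Qbar →+* Ω}

omit [IsAlgClosed Ω] in
/-- An algebraic disc point is a point of `X₀(p)`. -/
theorem exists_placeOf (s : AlgPt ι) : ∃ v : XPlace p, IsPoint ι (stdHom p) s.1 v := by
  obtain ⟨a, ha⟩ := s.2.2
  exact Disc.exists_isPoint_of_value ι (Disc.adm_stdHom ι) s.2.1 (Disc.stdHom_jBar (p := p))
    (by rw [Disc.isPoint_powPt_one]; exact ha)

/-- The point of an algebraic disc point. -/
def placeOf (p : ℕ) [Fact p.Prime] (s : AlgPt ι) : XPlace p := (exists_placeOf s).choose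

omit [IsAlgClosed Ω] in
theorem isPoint_placeOf (s : AlgPt ι) : IsPoint ι (stdHom p) s.1 (placeOf p s) :=
  (exists_placeOf s).choose_spec

variable (O : XPlace p)

/-- `P_s - O`. -/
def baseDiv (s : AlgPt ι) : Divisor.degZero (K := Qbar) (F := modularFunctionFieldBar p) :=
  ⟨Finsupp.single (placeOf p s) 1 - Finsupp.single O 1, by
    rw [Divisor.mem_degZero, map_sub, Divisor.degree_single, Divisor.degree_single,
      FF.place_deg_eq_one, FF.place_deg_eq_one, sub_self]⟩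

/-- The divisor of a formal sum. -/
def sumDiv : (AlgPt ι →₀ ℤ) →+ Divisor.degZero (K := Qbar) (F := modularFunctionFieldBar p) :=
  Finsupp.liftAddHom fun s => zmultiplesHom _ (baseDiv O s)

omit [IsAlgClosed Ω] in
theorem sumDiv_single (s : AlgPt ι) (n : ℤ) :
    sumDiv O (Finsupp.single s n) = n • baseDiv O s := by simp [sumDiv]

omit [IsAlgClosed Ω] in
theorem coe_sumDiv (n : AlgPt ι →₀ ℤ) :
    ((sumDiv O n : Divisor.degZero (K := Qbar) (F := modularFunctionFieldBar p)) :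
      Divisor Qbar (modularFunctionFieldBar p)) =
      (∑ i : n.support, Finsupp.single (placeOf p i.1) (n i.1)) -
        Finsupp.single O (∑ i : n.support, n i.1) := by
  rw [Finset.sum_coe_sort n.support (fun s => Finsupp.single (placeOf p s) (n s)),
    Finset.sum_coe_sort n.support (fun s => n s)]
  rw [sumDiv, Finsupp.liftAddHom_apply, Finsupp.sum, AddSubgroup.val_finsetSum,
    Finsupp.single_finsetSum, ← Finset.sum_sub_distrib]
  refine Finset.sum_congr rfl fun s _ => ?_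
  rw [zmultiplesHom_apply, AddSubgroupClass.coe_zsmul, baseDiv, smul_sub, Finsupp.smul_single,
    Finsupp.smul_single, smul_eq_mul, mul_one]

/-- The class of a formal sum. -/
def sumClass : (AlgPt ι →₀ ℤ) →+ JZero p :=
  (QuotientAddGroup.mk' _).comp (sumDiv O)

omit [IsAlgClosed Ω] in
theorem sumClass_apply (n : AlgPt ι →₀ ℤ) : sumClass O n = Pic0.mk (sumDiv O n) := rfl

/-- The logarithm of a formal sum. -/
def logSum (b : ℕ → Ω) : (AlgPt ι →₀ ℤ) →+ Ω :=
  Finsupp.liftAddHom fun s => zmultiplesHom _ (logVal b s.1.val)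

omit [CharZero Ω] [IsAlgClosed Ω] in
theorem logSum_single (b : ℕ → Ω) (s : AlgPt ι) (n : ℤ) :
    logSum b (Finsupp.single s n) = n • logVal b s.1.val := by simp [logSum]

omit [CharZero Ω] [IsAlgClosed Ω] in
theorem logSum_apply (b : ℕ → Ω) (n : AlgPt ι →₀ ℤ) :
    logSum b n = ∑ i : n.support, (n i.1 : Ω) * logVal b i.1.1.val := by
  rw [Finset.sum_coe_sort n.support (fun s => (n s : Ω) * logVal b s.1.val), logSum,
    Finsupp.liftAddHom_apply, Finsupp.sum]
  exact Finset.sum_congr rfl fun s _ => by rw [zmultiplesHom_apply, zsmul_eq_mul]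

/-- The class of the divisor of `T_l` at a point. -/
theorem exists_hecke_single (hnat : ∀ k : ℕ, k ≠ 0 → 1 ≤ (k : ℝ) * ‖(k : Ω)‖)
    (hO : IsInfty p O) (l : Nat.Primes) (hlp : ¬ (l : ℕ) ∣ p) (s : AlgPt ι) :
    ∃ n : AlgPt ι →₀ ℤ, sumClass O n = heckeOperatorBar p l (sumClass O (Finsupp.single s 1)) ∧
      ∀ b : ℕ → Ω, (∀ k, ‖b k‖ ≤ 1) → logSum b n = logVal (tOp (l : ℕ) b) s.1.val := by
  classical
  have : Fact (l : ℕ).Prime := ⟨l.2⟩
  have : NeZero (l : ℕ) := ⟨l.2.ne_zero⟩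
  obtain ⟨R, P, v', hRc, hR, hP, hv', hcorr⟩ :=
    Disc.corr_point (l := (l : ℕ)) hlp s.2.1 (isPoint_placeOf (p := p) s)
  have hr0 : ∀ r : R, r.1.val ≠ 0 := fun r h =>
    s.2.1 (by rw [← (hR r.1).mp r.2, h, zero_pow l.2.ne_zero])
  have hs' : (s.1.powPt (l : ℕ)).val ≠ 0 := pow_ne_zero _ s.2.1
  have halg : ∀ {r : DiscPt Ω} {v : XPlace p}, r.val ≠ 0 → IsPoint ι (stdHom p) r v →
      ∃ a, ι a * r.J = 1 := fun {r v} h0 hv => by
    obtain ⟨a, ha, -⟩ := hv.exists_value ι (Disc.adm_stdHom ι) h0 (Disc.stdHom_jBar (p := p))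
    rw [Disc.isPoint_powPt_one] at ha
    exact ⟨a, ha⟩
  let σ : R → AlgPt ι := fun r => ⟨r.1, hr0 r, halg (hr0 r) (hP r)⟩
  let σ' : AlgPt ι := ⟨s.1.powPt (l : ℕ), hs', halg hs' hv'⟩
  have hPσ : ∀ r : R, placeOf p (σ r) = P r := fun r =>
    (isPoint_placeOf (σ r)).unique ι (hP r)
  have hPσ' : placeOf p σ' = v' := (isPoint_placeOf σ').unique ι hv'
  refine ⟨(∑ r : R, Finsupp.single (σ r) 1) + Finsupp.single σ' 1, ?_, fun b hb => ?_⟩
  · rw [sumClass_apply, sumClass_apply, Hecke.heckeOperatorBar_mk]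
    refine congrArg Pic0.mk (Subtype.ext ?_)
    rw [Pic0.coe_degZeroCorrespondence, sumDiv_single, one_smul, baseDiv]
    show _ = Disc.corr p (l : ℕ) _
    rw [map_sub, hcorr, Disc.corr_infty hlp hO, map_add, map_sum]
    simp only [sumDiv_single, one_smul, baseDiv, AddSubgroup.coe_add, AddSubgroup.val_finsetSum,
      hPσ, hPσ', Finset.sum_sub_distrib, Finset.sum_const, Finset.card_univ, Fintype.card_coe, hRc,
      Finsupp.single_add, Finsupp.smul_single, nsmul_eq_mul, mul_one]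
    abel
  · rw [map_add, map_sum]
    simp only [logSum_single, one_smul, σ, σ', DiscPt.powPt]
    rw [Finset.sum_coe_sort R (fun r => logVal b r.val)]
    exact logVal_tOp hnat l.2.ne_zero hRc hR hb

/-- The logarithms of a formal sum with trivial class vanish. -/
theorem logSum_eq_zero_of_sumClass {ℓ : ℕ} [Fact ℓ.Prime] (hℓp : ¬ ℓ ∣ p)
    (hnat : ∀ k : ℕ, k ≠ 0 → 1 ≤ (k : ℝ) * ‖(k : Ω)‖) (hl : ‖(ℓ : Ω)‖ < 1)
    {A : ValuationSubring Qbar} (hA : ∀ x, x ∈ A ↔ ‖ι x‖ ≤ 1) (hAl : A.LiesOverPrime ℓ)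
    (hO : IsInfty p O) {n : AlgPt ι →₀ ℤ} (hn : sumClass O n = 0)
    (w : CuspForm (Gamma0 p) 2) (b : ℕ → ℤ) (hb : ∀ k, qCoeff ⇑w k = (b k : ℂ)) :
    logSum (fun k => (b k : Ω)) n = 0 := by
  rw [sumClass_apply, Pic0.mk, QuotientAddGroup.eq_zero_iff, AddSubgroup.mem_addSubgroupOf,
    Divisor.mem_principal, FF.isPrincipal_iff] at hn
  obtain ⟨f, hf, hdiv⟩ := hn
  rw [coe_sumDiv] at hdiv
  rw [logSum_apply]
  refine sum_logVal_of_principal hℓp hnat hl hA hAl (fun i : n.support => i.1.1) ?_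
    (fun i => i.1.2.1) (fun i => i.1.2.2.choose) (fun i => i.1.2.2.choose_spec)
    (fun i => placeOf p i.1) (fun i => isPoint_placeOf i.1) (fun i => n i.1) hO hf hdiv.symm w b hb
  rintro ⟨⟨⟨x, hx⟩, _⟩, _⟩ ⟨⟨⟨y, hy⟩, _⟩, _⟩ h
  simp only at h
  subst h
  rfl

end Fermat.Agent.Mazur.Immersion
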