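import Mathlib.Algebra.Order.Interval.Finset.Basic
import Mathlib.Analysis.SpecificLimits.Basic
import Mathlib.Data.Nat.Choose.Sum
import Fermat.Agent.Mazur.Disc.Mero
import Fermat.Agent.Mazur.Immersion.Small

/-!
# Bounded Laurent series

* a bounded series times a primitive one determines its bound (Gauss);
* a quotient of bounded series which is integral over bounded series is bounded.
-/

noncomputable section

open Filter Topology

namespace Fermat.Agent.Mazur.Immersion

variable {Ω : Type*} [NormedField Ω] [IsUltrametricDist Ω]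

omit [IsUltrametricDist Ω] in
/-- A coefficient of a series below its order vanishes. -/
theorem coeff_eq_zero_of_lt {x : LaurentSeries Ω} {k : ℤ} (hk : k < x.order) : x.coeff k = 0 :=
  HahnSeries.coeff_eq_zero_of_lt_order hk

/-- Gauss: multiplying by a primitive series does not lower the sup norm. -/
theorem small_of_mul {b B : ℝ} {x z : LaurentSeries Ω} (hx : Small B x) (hz : Small 1 z)
    (hz1 : ∃ k, ‖z.coeff k‖ = 1) (hy : Small b (x * z)) : Small b x := by
  classical
  obtain ⟨k₁, hk₁⟩ := hz1
  -- the first coefficient of norm one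
  have hmin : ∃ m, ‖z.coeff m‖ = 1 ∧ ∀ i < m, ‖z.coeff i‖ < 1 := by
    obtain ⟨m, hm, hle⟩ := Int.exists_least_of_bdd (P := fun m => ‖z.coeff m‖ = 1)
      ⟨z.order, fun m hm => not_lt.mp fun hlt => by
        rw [coeff_eq_zero_of_lt hlt, norm_zero] at hm
        exact zero_ne_one hm⟩ ⟨k₁, hk₁⟩
    exact ⟨m, hm, fun i hi => lt_of_le_of_ne (hz i) fun h => absurd (hle i h) (not_le.mpr hi)⟩
  obtain ⟨m, hm, hlt⟩ := hmin
  obtain ⟨δ, hδ0, hδ1, hδ⟩ : ∃ δ : ℝ, 0 ≤ δ ∧ δ < 1 ∧ ∀ i < m, ‖z.coeff i‖ ≤ δ := by
    rcases (Finset.Ico z.order m).eq_empty_or_nonempty with he | hne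
    · refine ⟨0, le_rfl, one_pos, fun i hi => ?_⟩
      rw [coeff_eq_zero_of_lt, norm_zero]
      by_contra hle
      exact absurd (Finset.mem_Ico.mpr ⟨not_lt.mp hle, hi⟩) (by rw [he]; simp)
    · obtain ⟨i₀, hi₀, hmax⟩ := Finset.exists_max_image _ (fun i => ‖z.coeff i‖) hne
      refine ⟨‖z.coeff i₀‖, norm_nonneg _, hlt _ (Finset.mem_Ico.mp hi₀).2, fun i hi => ?_⟩
      rcases lt_or_ge i z.order with h | h
      · rw [coeff_eq_zero_of_lt h, norm_zero]; exact norm_nonneg _
      · exact hmax i (Finset.mem_Ico.mpr ⟨h, hi⟩)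
  -- the improvement step
  have step : ∀ {C : ℝ}, Small C x → Small (max b (δ * C)) x := by
    intro C hC k
    have main : ∀ d : ℕ, ‖x.coeff (x.order + d)‖ ≤ max b (δ * C) := by
      intro d
      induction d using Nat.strong_induction_on with
      | _ d ih =>
        set k' := x.order + (d : ℤ) with hk'
        have hsum := hy (k' + m)
        rw [HahnSeries.coeff_mul] at hsum
        by_cases hxk : x.coeff k' = 0
        · rw [hxk, norm_zero]; exact (hy.nonneg).trans (le_max_left _ _)
        have hzm : z.coeff m ≠ 0 := fun h => by rw [h, norm_zero] at hm; exact zero_ne_one hm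
        have hmem : (k', m) ∈ Finset.antidiagonal x.isPWO_support z.isPWO_support (k' + m) := by
          simp [Finset.mem_antidiagonal, hxk, hzm]
        rw [← Finset.add_sum_erase _ _ hmem] at hsum
        have hrest : ‖∑ ij ∈ (Finset.antidiagonal x.isPWO_support z.isPWO_support (k' + m)).erase
            (k', m), x.coeff ij.1 * z.coeff ij.2‖ ≤ max b (δ * C) := by
          refine IsUltrametricDist.norm_sum_le_of_forall_le_of_nonneg
            ((hy.nonneg).trans (le_max_left _ _)) fun ij hij => ?_
          obtain ⟨hne, hij⟩ := Finset.mem_erase.mp hij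
          rw [Finset.mem_antidiagonal] at hij
          obtain ⟨hx1, hz1, hs⟩ := hij
          rw [norm_mul]
          rcases lt_trichotomy ij.2 m with h | h | h
          · refine le_max_of_le_right ?_
            rw [mul_comm δ]
            exact mul_le_mul (hC _) (hδ _ h) (norm_nonneg _) hC.nonneg
          · exact absurd (Prod.ext (by omega) h) hne
          · have h1 : x.order ≤ ij.1 := HahnSeries.order_le_of_coeff_ne_zero hx1
            have h2 := ih (ij.1 - x.order).toNat (by omega)
            rw [show x.order + ((ij.1 - x.order).toNat : ℤ) = ij.1 by omega] at h2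
            exact (mul_le_of_le_one_right (norm_nonneg _) (hz _)).trans h2
        calc ‖x.coeff k'‖ = ‖x.coeff k' * z.coeff m‖ := by rw [norm_mul, hm, mul_one]
          _ ≤ max b (δ * C) := by
            rw [eq_sub_of_add_eq (rfl : x.coeff k' * z.coeff m + _ = _), sub_eq_add_neg]
            refine (IsUltrametricDist.norm_add_le_max _ _).trans
              (max_le (hsum.trans (le_max_left _ _)) ?_)
            rw [norm_neg]
            exact hrest
    rcases lt_or_ge k x.order with h | h
    · rw [coeff_eq_zero_of_lt h, norm_zero]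
      exact (hy.nonneg).trans (le_max_left _ _)
    · have := main (k - x.order).toNat
      rwa [show x.order + ((k - x.order).toNat : ℤ) = k by omega] at this
  have hall : ∀ n : ℕ, Small (max b (δ ^ n * B)) x := by
    intro n
    induction n with
    | zero => exact hx.mono (le_max_of_le_right (by simp))
    | succ n ih =>
      refine (step ih).mono (max_le (le_max_left _ _) ?_)
      rw [mul_max_of_nonneg _ _ hδ0, pow_succ', mul_assoc]
      exact max_le_max (mul_le_of_le_one_left hy.nonneg hδ1.le) le_rfl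
  intro k
  have hlim : Tendsto (fun n : ℕ => max b (δ ^ n * B)) atTop (𝓝 b) := by
    have h := ((tendsto_pow_atTop_nhds_zero_of_lt_one hδ0 hδ1).mul_const B)
    rw [zero_mul] at h
    have h2 := (tendsto_const_nhds (x := b)).max h
    rwa [max_eq_left hy.nonneg] at h2
  exact ge_of_tendsto' hlim fun n => hall n k

/-- `Ω((q))` with coefficients in the unit ball is completely integrally closed. -/
theorem small_one_of_forall_mul_pow {b x : LaurentSeries Ω} (hb : b ≠ 0)
    (h : ∀ k : ℕ, Small 1 (b * x ^ k)) : Small 1 x := by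
  classical
  by_contra hcon
  rw [Small] at hcon
  push Not at hcon
  obtain ⟨k₁, hk₁⟩ := hcon
  obtain ⟨k₀, hk₀, hle⟩ := Int.exists_least_of_bdd (P := fun m => 1 < ‖x.coeff m‖)
    ⟨x.order, fun m hm => not_lt.mp fun hlt => by
      rw [coeff_eq_zero_of_lt hlt, norm_zero] at hm; linarith⟩ ⟨k₁, hk₁⟩
  set low : LaurentSeries Ω :=
    ∑ i ∈ Finset.Ico x.order k₀, HahnSeries.single i (x.coeff i) with hlow
  have hlow1 : Small 1 low := Small.sum zero_le_one fun i hi =>
    Small.single _ (not_lt.mp fun hh => absurd (hle i hh) (not_le.mpr (Finset.mem_Ico.mp hi).2))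
  have hlowc : ∀ j, low.coeff j = if j < k₀ then x.coeff j else 0 := by
    intro j
    rw [hlow, HahnSeries.coeff_sum]
    simp only [HahnSeries.coeff_single]
    trans (if j ∈ Finset.Ico x.order k₀ then x.coeff j else 0)
    · by_cases hj : j ∈ Finset.Ico x.order k₀
      · rw [if_pos hj, Finset.sum_eq_single j]
        · simp
        · intro i _ hij
          exact if_neg (Ne.symm hij)
        · exact fun h0 => absurd hj h0
      · rw [if_neg hj]
        exact Finset.sum_eq_zero fun i hi => if_neg fun h0 => hj (by rw [h0]; exact hi)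
    by_cases hj : j < k₀
    · rw [if_pos hj]
      split
      · rfl
      · next hni =>
        rw [coeff_eq_zero_of_lt]
        by_contra h'
        exact hni (Finset.mem_Ico.mpr ⟨not_lt.mp h', hj⟩)
    · rw [if_neg hj, if_neg fun hi => hj (Finset.mem_Ico.mp hi).2]
  set g := x - low with hg
  have hgc : ∀ j, g.coeff j = if j < k₀ then 0 else x.coeff j := fun j => by
    rw [hg, HahnSeries.coeff_sub, hlowc]
    split <;> simp
  have hg0 : g.coeff k₀ = x.coeff k₀ := by rw [hgc, if_neg (lt_irrefl _)]
  have hxk : x.coeff k₀ ≠ 0 := fun h0 => by rw [h0, norm_zero] at hk₀; linarith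
  have hgne : g ≠ 0 := fun h0 => hxk (by rw [← hg0, h0, HahnSeries.coeff_zero])
  have hgord : g.order = k₀ := by
    refine le_antisymm (HahnSeries.order_le_of_coeff_ne_zero (by rw [hg0]; exact hxk)) ?_
    by_contra h'
    have := HahnSeries.coeff_order_eq_zero.not.mpr hgne
    rw [hgc, if_pos (not_le.mp h')] at this
    exact this rfl
  have hbg : ∀ k : ℕ, Small 1 (b * g ^ k) := fun k => by
    rw [hg, sub_eq_add_neg, add_pow, Finset.mul_sum]
    refine Small.sum zero_le_one fun i _ => ?_
    rw [← mul_assoc, ← mul_assoc]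
    refine Small.mul_right_one ((h i).mul_right_one (hlow1.neg.pow_one_bound _)) ?_
    rw [← map_natCast (HahnSeries.C : Ω →+* LaurentSeries Ω)]
    exact Small.const (IsUltrametricDist.norm_natCast_le_one Ω _)
  have hlead : g.leadingCoeff = x.coeff k₀ := by
    rw [HahnSeries.leadingCoeff_eq, hgord, hg0]
  have hpow : ∀ k : ℕ, (g ^ k).leadingCoeff = x.coeff k₀ ^ k := by
    intro k
    induction k with
    | zero => simp
    | succ k ih => rw [pow_succ, HahnSeries.leadingCoeff_mul, ih, hlead, pow_succ]
  have hb1 : 0 < ‖b.leadingCoeff‖ :=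
    norm_pos_iff.mpr (HahnSeries.leadingCoeff_ne_zero.mpr hb)
  obtain ⟨k, hk⟩ := pow_unbounded_of_one_lt (‖b.leadingCoeff‖⁻¹) hk₀
  have h1 := hbg k (b * g ^ k).order
  rw [← HahnSeries.leadingCoeff_eq, HahnSeries.leadingCoeff_mul, hpow, norm_mul, norm_pow] at h1
  have h2 := mul_lt_mul_of_pos_left hk hb1
  rw [mul_inv_cancel₀ hb1.ne'] at h2
  linarith

/-- A quotient of series in the unit ball which is integral over the unit ball lies in it. -/
theorem small_one_of_root {x a b : LaurentSeries Ω} (hb : b ≠ 0) (ha : Small 1 a) (hb1 : Small 1 b)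
    (hab : x * b = a) {n : ℕ} {c : ℕ → LaurentSeries Ω} (hc : ∀ i < n, Small 1 (c i))
    (h : x ^ n + ∑ i ∈ Finset.range n, c i * x ^ i = 0) : Small 1 x := by
  refine small_one_of_forall_mul_pow (b := b ^ n) (pow_ne_zero n hb) fun k => ?_
  induction k using Nat.strong_induction_on with
  | _ k ih =>
    rcases le_or_gt k n with hk | hk
    · obtain ⟨j, rfl⟩ := Nat.exists_eq_add_of_le hk
      rw [pow_add, mul_right_comm, ← mul_pow, mul_comm b, hab]
      exact (ha.pow_one_bound k).mul_right_one (hb1.pow_one_bound j)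
    · obtain ⟨j, rfl⟩ := Nat.exists_eq_add_of_le hk.le
      rw [pow_add, eq_neg_of_add_eq_zero_left h, neg_mul, mul_neg, Finset.sum_mul, Finset.mul_sum]
      refine (Small.sum zero_le_one fun i hi => ?_).neg
      rw [Finset.mem_range] at hi
      rw [mul_assoc, ← pow_add, mul_left_comm]
      exact (ih (i + j) (by omega)).mul_left_one (hc i hi)

/-- Same with bounded coefficients. -/
theorem exists_small_of_root {γ : Ω} (hγ : 1 < ‖γ‖) {x : LaurentSeries Ω}
    (hx : x ∈ Disc.merField Ω) {n : ℕ} {c : ℕ → LaurentSeries Ω}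
    (hc : ∀ i < n, ∃ B, Small B (c i))
    (h : x ^ n + ∑ i ∈ Finset.range n, c i * x ^ i = 0) : ∃ B, Small B x := by
  classical
  obtain ⟨e, he⟩ : ∃ e : ℕ, ∀ i < n, Small (‖γ‖ ^ e) (c i) := by
    choose! B hB using hc
    obtain ⟨e, he⟩ := pow_unbounded_of_one_lt (∑ i ∈ Finset.range n, |B i|) hγ
    refine ⟨e, fun i hi => (hB i hi).mono ((le_abs_self _).trans ((Finset.single_le_sum
      (fun j _ => abs_nonneg (B j)) (Finset.mem_range.mpr hi)).trans he.le))⟩
  set d : Ω := (γ ^ e)⁻¹ with hd
  have hd1 : ‖d‖ ≤ 1 := by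
    rw [hd, norm_inv, norm_pow]
    exact inv_le_one_of_one_le₀ (one_le_pow₀ hγ.le)
  have hd0 : d ≠ 0 := inv_ne_zero (pow_ne_zero e fun h0 => by rw [h0, norm_zero] at hγ; linarith)
  obtain ⟨a, b, hb, hab⟩ := hx
  have hsm : ∀ G : PowerSeries (Disc.O Ω), Small 1 (Disc.toL G) := fun G =>
    Small.ofPowerSeries zero_le_one fun j => by
      rw [PowerSeries.coeff_map]; exact (PowerSeries.coeff j G).2
  have key := small_one_of_root (x := HahnSeries.C d * x) (a := HahnSeries.C d * Disc.toL a)
    (b := Disc.toL b) (Disc.toL_ne_zero hb) ((Small.const hd1).mul_right_one (hsm a)) (hsm b)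
    (by rw [mul_assoc, hab]) (c := fun i => HahnSeries.C (d ^ (n - i)) * c i) (fun i hi => by
      refine ((Small.const (c := d ^ (n - i)) le_rfl).mul (he i hi)).mono ?_
      rw [norm_pow, show n - i = (n - i - 1) + 1 by omega, pow_succ, mul_assoc]
      refine mul_le_one₀ (pow_le_one₀ (norm_nonneg _) hd1) (by positivity) ?_
      rw [hd, norm_inv, norm_pow, inv_mul_cancel₀ (by positivity)]) (n := n) ?_
  · refine ⟨‖d‖⁻¹, fun k => ?_⟩
    have := key k
    rw [HahnSeries.C_apply, HahnSeries.coeff_single_mul, sub_zero, norm_mul] at this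
    rw [inv_eq_one_div, le_div_iff₀ (norm_pos_iff.mpr hd0), mul_comm]
    exact this
  · have e1 : ∀ i < n, HahnSeries.C (d ^ (n - i)) * c i * (HahnSeries.C d * x) ^ i =
        HahnSeries.C (d ^ n) * (c i * x ^ i) := fun i hi => by
      have hdn : d ^ n = d ^ (n - i) * d ^ i := by rw [← pow_add, Nat.sub_add_cancel hi.le]
      rw [mul_pow, hdn, map_mul, ← map_pow]
      ring
    rw [Finset.sum_congr rfl fun i hi => e1 i (Finset.mem_range.mp hi), mul_pow, ← map_pow,
      ← Finset.mul_sum, ← mul_add, h, mul_zero]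

end Fermat.Agent.Mazur.Immersion
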