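import Mathlib.RingTheory.RootsOfUnity.AlgebraicallyClosed
import Fermat.Agent.Mazur.Disc.Jinv
import Fermat.Agent.Mazur.Immersion.Decay

/-!
# Bounded series with prescribed zeros, and the factors `1 - j/a`
-/

noncomputable section

open ModularCurve

namespace Fermat.Agent.Mazur.Immersion

open Fermat.Agent.Mazur.Disc (toL DiscPt)

variable {Ω : Type*} [NormedField Ω] [IsUltrametricDist Ω]

/-- `1 - s/q`. -/
def tInv (s : Ω) : LaurentSeries Ω := 1 - HahnSeries.C s * HahnSeries.single (-1 : ℤ) (1 : Ω)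

omit [IsUltrametricDist Ω] in
theorem negPoly_oneSub (s : Ω) : negPoly (oneSub s) = tInv s := by
  rw [oneSub, map_sub, map_one, map_mul, negPoly_C, negPoly_X, tInv]

omit [IsUltrametricDist Ω] in
theorem negPoly_geoPoly (s : Ω) (M : ℕ) :
    negPoly (geoPoly s M) =
      ∑ k ∈ Finset.range M, (HahnSeries.C s * HahnSeries.single (-1 : ℤ) (1 : Ω)) ^ k := by
  rw [geoPoly, map_sum]
  refine Finset.sum_congr rfl fun k _ => ?_
  rw [← Polynomial.C_mul_X_pow_eq_monomial, map_mul, map_pow negPoly, negPoly_C, negPoly_X, mul_pow,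
    ← map_pow HahnSeries.C]

theorem small_sInv (s : Ω) : Small ‖s‖ (HahnSeries.C s * HahnSeries.single (-1 : ℤ) (1 : Ω)) := by
  simpa using (Small.const (c := s) le_rfl).mul (Small.single (-1) (norm_one (α := Ω)).le)

/-- `1 - s/q` is `1` up to `|s|`. -/
theorem small_tInv_sub_one (s : Ω) : Small ‖s‖ (tInv s - 1) := by
  have h := (small_sInv s).neg
  rwa [tInv, sub_sub_cancel_left]

theorem small_tInv {s : Ω} (hs : ‖s‖ ≤ 1) : Small 1 (tInv s) :=
  (Small.one le_rfl).sub ((small_sInv s).mono hs)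

theorem small_toL (G : PowerSeries (Disc.O Ω)) : Small 1 (toL G) :=
  Small.ofPowerSeries zero_le_one fun j => by
    rw [PowerSeries.coeff_map]; exact (PowerSeries.coeff j G).2

omit [IsUltrametricDist Ω] in
theorem qExpand_tInv (l : ℕ) [NeZero l] (s : Ω) :
    qExpand Ω l (tInv s) = 1 - HahnSeries.C s * HahnSeries.single (-(l : ℤ)) (1 : Ω) := by
  rw [tInv, map_sub, map_one, map_mul, qExpand_C, qExpand_single]
  simp

theorem toL_lin (s : DiscPt Ω) : toL s.lin = tInv s.val * HahnSeries.single (1 : ℤ) (1 : Ω) := by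
  rw [DiscPt.lin, map_sub, Disc.toL_X, Disc.toL_C, DiscPt.coe_toO, tInv, sub_mul, one_mul,
    mul_assoc, HahnSeries.single_mul_single]
  simp

omit [IsUltrametricDist Ω] in
/-- `∏_{r^n = s} (1 - r/q) = 1 - s/q^n`. -/
theorem prod_tInv_roots (s : Ω) (n : ℕ) [NeZero n]
    {R : Finset (DiscPt Ω)} (hR : R.card = n) (hmem : ∀ r : DiscPt Ω, r ∈ R ↔ r.val ^ n = s) :
    ∏ r ∈ R, tInv r.val = qExpand Ω n (tInv s) := by
  classical
  have hinj : Set.InjOn (fun r : DiscPt Ω => r.val) R := fun a _ b _ h => by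
    cases a; cases b; simp_all
  have hpoly : (Polynomial.X ^ n - Polynomial.C s : Polynomial Ω) =
      ∏ r ∈ R, (Polynomial.X - Polynomial.C r.val) := by
    have hmon := Polynomial.monic_X_pow_sub_C s (NeZero.ne n)
    have hroots : (R.image fun r => r.val).val = (Polynomial.X ^ n - Polynomial.C s).roots := by
      refine Multiset.eq_of_le_of_card_le ?_ ?_
      · rw [Multiset.le_iff_subset (Finset.nodup _)]
        intro x hx
        rw [Finset.mem_val, Finset.mem_image] at hx
        obtain ⟨r, hr, rfl⟩ := hx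
        rw [Polynomial.mem_roots hmon.ne_zero]
        simp [(hmem r).mp hr]
      · rw [← Finset.card_def, Finset.card_image_of_injOn hinj, hR]
        exact (Polynomial.card_roots' _).trans (Polynomial.natDegree_X_pow_sub_C.le)
    have h := Polynomial.prod_multiset_X_sub_C_of_monic_of_roots_card_eq hmon (by
      rw [← hroots, ← Finset.card_def, Finset.card_image_of_injOn hinj, hR,
        Polynomial.natDegree_X_pow_sub_C])
    rw [← h, ← hroots, ← Finset.prod_eq_multiset_prod, Finset.prod_image hinj]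
  have h := congrArg (Polynomial.aeval (HahnSeries.single (1 : ℤ) (1 : Ω))) hpoly
  rw [map_sub, map_pow, map_prod] at h
  simp only [map_sub, Polynomial.aeval_X, Polynomial.aeval_C,
    algebraMap_laurentSeries_eq_single] at h
  have e1 : ∀ r : Ω, HahnSeries.single (1 : ℤ) (1 : Ω) - HahnSeries.single (0 : ℤ) r =
      tInv r * HahnSeries.single (1 : ℤ) (1 : Ω) := fun r => by
    rw [tInv, sub_mul, one_mul, mul_assoc, HahnSeries.single_mul_single, HahnSeries.C_apply,
      HahnSeries.single_mul_single]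
    simp
  simp only [e1] at h
  rw [Finset.prod_mul_distrib, Finset.prod_const, hR] at h
  have hx : HahnSeries.single (1 : ℤ) (1 : Ω) ≠ 0 := HahnSeries.single_ne_zero one_ne_zero
  refine mul_right_cancel₀ (pow_ne_zero n hx) (h.symm.trans ?_)
  rw [qExpand_tInv, sub_mul, one_mul, mul_assoc, HahnSeries.single_pow, one_pow,
    HahnSeries.single_mul_single, HahnSeries.C_apply, HahnSeries.single_mul_single]
  simp

variable [CompleteSpace Ω]

/-- A series in the unit ball with given zeros and a pole of controlled order. -/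
theorem exists_factor {ι' : Type*} [Fintype ι'] (pt : ι' → DiscPt Ω)
    (hinj : ∀ i j, (pt i).val = (pt j).val → i = j) (h0 : ∀ i, (pt i).val ≠ 0) (e : ι' → ℕ)
    {x : LaurentSeries Ω} (hx : x ≠ 0) (hxs : Small 1 x)
    (hord : ∀ k : ℤ, k < -((∑ i, e i : ℕ) : ℤ) → x.coeff k = 0)
    (hzero : ∀ i, (e i : ℤ) ≤ (pt i).ordAt x) :
    ∃ V : PowerSeries (Disc.O Ω), x = (∏ i, tInv (pt i).val ^ e i) * toL V := by
  classical
  set T : ℕ := ∑ i, e i with hT
  set G : PowerSeries (Disc.O Ω) :=
    PowerSeries.mk fun n => ⟨x.coeff ((n : ℤ) - T), hxs _⟩ with hG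
  have hGx : toL G = x * HahnSeries.single (T : ℤ) (1 : Ω) := by
    ext k
    rw [mul_comm, HahnSeries.coeff_single_mul, one_mul]
    rcases lt_or_ge k 0 with hk | hk
    · rw [Disc.toL_coeff_neg _ hk, hord _ (by omega)]
    · obtain ⟨m, rfl⟩ := Int.eq_ofNat_of_zero_le hk
      rw [Disc.toL_coeff_nat, hG, PowerSeries.coeff_mk]
  have hG0 : G ≠ 0 := fun h => hx (by
    rw [h, map_zero, eq_comm, mul_eq_zero] at hGx
    exact hGx.resolve_right (HahnSeries.single_ne_zero one_ne_zero))
  have hdvd : ∀ i ∈ (Finset.univ : Finset ι'), (pt i).lin ^ e i ∣ G := by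
    intro i _
    rw [(pt i).lin_pow_dvd_iff hG0]
    have hXT : HahnSeries.single (T : ℤ) (1 : Ω) = toL (PowerSeries.X ^ T) := by
      rw [map_pow, Disc.toL_X, HahnSeries.single_pow, one_pow]
      simp
    have hev : (pt i).eval (PowerSeries.X ^ T : PowerSeries (Disc.O Ω)) ≠ 0 := by
      rw [map_pow, DiscPt.eval_X]
      exact pow_ne_zero _ fun h => h0 i (congrArg Subtype.val h)
    have hxm : x ∈ Disc.merField Ω :=
      ⟨G, PowerSeries.X ^ T, fun h => hev (by rw [h, map_zero]), by rw [← hXT, hGx]⟩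
    have hG' := hGx
    rw [hXT] at hG'
    have := (pt i).ordAt_eq hx (fun h => hev (by rw [h, map_zero])) hG'.symm
    rw [(pt i).ordNat_of_eval_ne_zero hev] at this
    have h1 := hzero i
    rw [this] at h1
    omega
  obtain ⟨V, hV⟩ := DiscPt.prod_lin_pow_dvd Finset.univ pt (fun i _ j _ => hinj i j) e hdvd
  refine ⟨V, mul_right_cancel₀ (HahnSeries.single_ne_zero (a := (T : ℤ)) (one_ne_zero (α := Ω))) ?_⟩
  rw [← hGx, hV, map_mul, map_prod]
  simp only [map_pow, toL_lin, mul_pow]
  rw [Finset.prod_mul_distrib, Finset.prod_pow_eq_pow_sum, ← hT, HahnSeries.single_pow, one_pow]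
  simp only [nsmul_eq_mul, mul_one]
  ring

/-- `1 - j/a` for `a = j(s)`, as `(1 - s/q)` times a unit. -/
theorem exists_oneSub_factor (s : DiscPt Ω) {b : Ω} (hb : b = s.J) :
    ∃ H : (PowerSeries (Disc.O Ω))ˣ,
      1 - HahnSeries.C b * jqModC Ω = tInv s.val * toL (H : PowerSeries (Disc.O Ω)) := by
  obtain ⟨H0, hH, hH0⟩ := s.exists_sub_factor
  set Nj : PowerSeries (Disc.O Ω) := jNum.map (Int.castRingHom (Disc.O Ω)) with hNj
  have hc : PowerSeries.constantCoeff Nj = 1 := by
    rw [hNj, ← PowerSeries.coeff_zero_eq_constantCoeff, PowerSeries.coeff_map,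
      PowerSeries.coeff_zero_eq_constantCoeff, constantCoeff_jNum, map_one]
  have hu : IsUnit (Nj * H0) := by
    rw [PowerSeries.isUnit_iff_constantCoeff, map_mul, hc, one_mul, Disc.isUnit_O_iff]
    have h3 : ‖((PowerSeries.constantCoeff H0 : Disc.O Ω) : Ω) - 1‖ < ‖(1 : Ω)‖ := by
      rw [norm_one]; exact hH0.trans_lt s.norm_lt
    have := IsUltrametricDist.norm_add_eq_max_of_norm_ne_norm h3.ne
    rwa [sub_add_cancel, max_eq_right h3.le, norm_one] at this
  refine ⟨hu.unit, ?_⟩
  rw [IsUnit.unit_spec]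
  have e : jqModC Ω * toL (s.lin * H0) = 1 - HahnSeries.C b * jqModC Ω := by
    rw [← hH, map_sub, Disc.toL_C, mul_sub, Disc.jqModC_mul_jinv, hb, mul_comm]
    rfl
  rw [← e, map_mul, map_mul, toL_lin, jqModC, mul_mul_mul_comm,
    show toL Nj = HahnSeries.ofPowerSeries ℤ Ω (jNum.map (Int.castRingHom Ω)) by
      rw [Disc.toL_apply, hNj]
      congr 1]
  have hXX : HahnSeries.single (-1 : ℤ) (1 : Ω) * HahnSeries.single (1 : ℤ) (1 : Ω) = 1 := by
    rw [HahnSeries.single_mul_single]; simp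
  linear_combination (tInv s.val * HahnSeries.ofPowerSeries ℤ Ω (jNum.map (Int.castRingHom Ω)) *
    toL H0) * hXX

omit [CompleteSpace Ω] in
/-- A geometric series inverts up to a small error. -/
theorem small_geom_congr {ρ : ℝ} (hρ1 : ρ ≤ 1) {z w t H Hi : LaurentSeries Ω}
    (hz : Small ρ z) (hw : Small ρ w) (ht : t = 1 - w) (htH : 1 - z = t * H) (hH : Hi * H = 1)
    (hHi : Small 1 Hi) (M : ℕ) :
    Small (ρ ^ M) (∑ k ∈ Finset.range M, z ^ k - (∑ k ∈ Finset.range M, w ^ k) * Hi) := by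
  set g := ∑ k ∈ Finset.range M, z ^ k
  set S := ∑ k ∈ Finset.range M, w ^ k
  have hg : Small 1 g := Small.sum zero_le_one fun k _ => (hz.mono hρ1).pow_one_bound k
  have hS : Small 1 S := Small.sum zero_le_one fun k _ => (hw.mono hρ1).pow_one_bound k
  have e1 : g * (t * H) = 1 - z ^ M := by rw [← htH]; exact geom_sum_mul_neg z M
  have e2 : S * t = 1 - w ^ M := by rw [ht]; exact geom_sum_mul_neg w M
  have e : g - S * Hi = g * w ^ M - S * Hi * z ^ M := by
    linear_combination (S * Hi) * e1 - g * (Hi * H) * e2 - (g * (1 - w ^ M)) * hH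
  rw [e]
  exact ((hz.pow M).mul_left_one (hS.mul_right_one hHi) |> fun h1 =>
    ((hw.pow M).mul_left_one hg).sub h1)

end Fermat.Agent.Mazur.Immersion
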