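import Mathlib.Analysis.Calculus.DSlope
import Fermat.Agent.MF.LevelOne
import Fermat.Agent.MF.Product
import Fermat.Agent.Periods.Primitive

/-!
# The residue theorem in level one: `(f / Δ^m) dτ` has no residue at `∞`
-/

noncomputable section

open UpperHalfPlane hiding I
open Filter Topology Complex Function Metric ModularGroup
open scoped MatrixGroups ModularForm Manifold Real

namespace Fermat.Agent.Mazur.Immersion

open Fermat.Agent.MF (IsFormFn deltaFn taylorPS)

local notation "𝕢" => Function.Periodic.qParam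

theorem taylorPS_add {f g : ℂ → ℂ} (hf : AnalyticAt ℂ f 0) (hg : AnalyticAt ℂ g 0) :
    taylorPS (f + g) = taylorPS f + taylorPS g := by
  ext n
  simp [taylorPS, iteratedDeriv_add hf.contDiffAt hg.contDiffAt, mul_add]

/-- `∏ (1 - q^n) ^ 24`. -/
def etaFn (q : ℂ) : ℂ := (∏' n : ℕ, (1 - q ^ (n + 1))) ^ 24

theorem cuspFunction_delta {q : ℂ} (hq : q ∈ ball (0 : ℂ) 1) :
    cuspFunction 1 deltaFn q = q * etaFn q := by
  have := ModularForm.discriminant_cuspFunction_eqOn hq
  simp only [deltaFn, this, etaFn]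
  rw [(ModularForm.multipliable_one_sub_pow (by simpa using hq)).tprod_pow]

theorem delta_eq (τ : ℍ) : deltaFn τ = 𝕢 1 τ * etaFn (𝕢 1 τ) := by
  rw [← cuspFunction_delta (by simpa using Periodic.norm_qParam_lt_one one_pos τ.im_pos)]
  exact (eq_cuspFunction τ one_ne_zero MF.isFormFn_delta.isQFnTop.periodic).symm

theorem differentiableOn_etaFn : DifferentiableOn ℂ etaFn (ball 0 1) :=
  ModularForm.differentiableOn_tprod_one_sub_pow.pow 24

theorem etaFn_ne_zero {q : ℂ} (hq : q ∈ ball (0 : ℂ) 1) : etaFn q ≠ 0 := by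
  rcases eq_or_ne q 0 with rfl | h0
  · simp [etaFn]
  have hq' : ‖q‖ < 1 := by simpa using hq
  set τ : ℍ := ⟨Periodic.invQParam 1 q, Periodic.im_invQParam_pos_of_norm_lt_one one_pos hq' h0⟩
  have hτ : 𝕢 1 (τ : ℂ) = q := Periodic.qParam_right_inv one_ne_zero h0
  intro h
  exact MF.deltaFn_ne_zero τ (by rw [delta_eq, hτ, h, mul_zero])

theorem taylorPS_etaFn :
    taylorPS etaFn = ModularCurve.dedekindEtaUnit.map (Int.castRingHom ℂ) := by
  have hb : ball (0 : ℂ) 1 ∈ 𝓝 (0 : ℂ) := ball_mem_nhds _ one_pos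
  apply mul_left_cancel₀ (PowerSeries.X_ne_zero (R := ℂ))
  rw [← MF.taylorPS_id, ← MF.taylorPS_mul (f := fun x : ℂ => x) analyticAt_id
      (differentiableOn_etaFn.analyticAt hb),
    MF.taylorPS_id, ← MF.qExpansion_delta]
  refine (MF.taylorPS_congr ?_).trans rfl
  filter_upwards [hb] with q hq
  exact (cuspFunction_delta hq).symm

/-- Repeated slopes at `0`. -/
def slopes (g : ℂ → ℂ) : ℕ → ℂ → ℂ
  | 0 => g
  | i + 1 => dslope (slopes g i) 0

theorem differentiableOn_slopes {g : ℂ → ℂ} (hg : DifferentiableOn ℂ g (ball 0 1)) :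
    ∀ i, DifferentiableOn ℂ (slopes g i) (ball 0 1)
  | 0 => hg
  | i + 1 =>
    (Complex.differentiableOn_dslope (ball_mem_nhds (0 : ℂ) one_pos)).mpr
      (differentiableOn_slopes hg i)

theorem eq_sum_slopes (g : ℂ → ℂ) (n : ℕ) (q : ℂ) :
    g q = (∑ i ∈ Finset.range n, slopes g i 0 * q ^ i) + q ^ n * slopes g n q := by
  induction n with
  | zero => simp [slopes]
  | succ n ih =>
    have h := sub_smul_dslope (slopes g n) 0 q
    rw [sub_zero, smul_eq_mul] at h
    rw [Finset.sum_range_succ, ih, add_assoc, pow_succ, mul_assoc (q ^ n),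
      show slopes g (n + 1) q = dslope (slopes g n) 0 q from rfl, h]
    ring

theorem coeff_taylorPS_eq_slopes {g : ℂ → ℂ} (hg : DifferentiableOn ℂ g (ball 0 1)) (n : ℕ) :
    (taylorPS g).coeff n = slopes g n 0 := by
  classical
  have hb : ball (0 : ℂ) 1 ∈ 𝓝 (0 : ℂ) := ball_mem_nhds _ one_pos
  set P : Polynomial ℂ := ∑ i ∈ Finset.range (n + 1), Polynomial.C (slopes g i 0) * Polynomial.X ^ i
  have he : g = (fun q => P.eval q) + (fun q : ℂ => q) ^ (n + 1) * slopes g (n + 1) := by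
    funext q
    simp only [P, Pi.add_apply, Pi.mul_apply, Pi.pow_apply, Polynomial.eval_finsetSum,
      Polynomial.eval_mul, Polynomial.eval_C, Polynomial.eval_pow, Polynomial.eval_X]
    exact eq_sum_slopes g (n + 1) q
  have hw := (differentiableOn_slopes hg (n + 1)).analyticAt hb
  have hX : AnalyticAt ℂ (fun q : ℂ => q) 0 := analyticAt_id
  conv_lhs => rw [he]
  rw [taylorPS_add (P.differentiable.analyticAt 0) ((hX.pow _).mul hw), MF.taylorPS_polynomial,
    MF.taylorPS_mul (hX.pow _) hw, MF.taylorPS_pow hX, MF.taylorPS_id, map_add,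
    Polynomial.coeff_coe, PowerSeries.coeff_X_pow_mul', if_neg (by omega), add_zero]
  simp [P, Polynomial.coeff_C_mul, Polynomial.coeff_X_pow]

theorem hasDerivAt_qParam_one (τ : ℂ) :
    HasDerivAt (fun z : ℂ => 𝕢 1 z) (𝕢 1 τ * (2 * π * I)) τ := by
  simpa [Periodic.qParam, mul_comm, mul_div_assoc] using
    ((hasDerivAt_id τ).const_mul (2 * π * I : ℂ)).cexp

theorem S_mul_T_pow_three : (S * T) ^ 3 = (-1 : SL(2, ℤ)) := by
  ext i j
  fin_cases i <;> fin_cases j <;> simp [coe_S, coe_T, pow_succ, Matrix.mul_apply, Fin.sum_univ_two]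

/-- The residue theorem: the `q^m`-coefficient of `f · (Δ/q)^{-m}` vanishes in weight `12m + 2`. -/
theorem coeff_eq_zero_of_levelOne {m : ℕ} {f : ℍ → ℂ} (hf : IsFormFn ⊤ (12 * m + 2) f) :
    (qExpansion 1 f * ModularCurve.dedekindEtaUnitInv.map (Int.castRingHom ℂ) ^ m).coeff m = 0 := by
  classical
  have hb : ball (0 : ℂ) 1 ∈ 𝓝 (0 : ℂ) := ball_mem_nhds _ one_pos
  have hq := hf.isQFnTop
  set g : ℂ → ℂ := fun q => cuspFunction 1 f q * (etaFn q ^ m)⁻¹ with hgdef
  have hg : DifferentiableOn ℂ g (ball 0 1) :=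
    (differentiableOn_cuspFunction_ball one_pos hq.periodic hq.mdiff hq.bdd).mul
      ((differentiableOn_etaFn.pow m).inv fun q hq => pow_ne_zero m (etaFn_ne_zero hq))
  -- the series of `g`
  have hgT : taylorPS g =
      qExpansion 1 f * ModularCurve.dedekindEtaUnitInv.map (Int.castRingHom ℂ) ^ m := by
    have hu := differentiableOn_etaFn.analyticAt hb
    have h1 : taylorPS g * taylorPS (etaFn ^ m) = qExpansion 1 f := by
      rw [← MF.taylorPS_mul (hg.analyticAt hb) (hu.pow m)]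
      refine (MF.taylorPS_congr ?_).trans rfl
      filter_upwards [hb] with q hq
      simp only [hgdef, Pi.mul_apply, Pi.pow_apply]
      rw [mul_assoc, inv_mul_cancel₀ (pow_ne_zero m (etaFn_ne_zero hq)), mul_one]
    rw [← h1, MF.taylorPS_pow hu, taylorPS_etaFn, mul_assoc, ← mul_pow, ← map_mul,
      ModularCurve.dedekindEtaUnit_mul_inv, map_one, one_pow, mul_one]
  rw [← hgT, coeff_taylorPS_eq_slopes hg]
  set d := slopes g m 0
  -- the weight two function and a primitive
  set F : ℍ → ℂ := fun τ => f τ / deltaFn τ ^ m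
  obtain ⟨G, -, hG⟩ :=
    (((differentiableOn_slopes hg (m + 1)).const_mul (2 * π * I)⁻¹).isExactOn_ball).with_val_at 0 0
  set a : ℕ → ℂ := fun i => 2 * π * I * ((i : ℂ) - m)
  set P : ℍ → ℂ := fun τ => d * τ + G (𝕢 1 τ) +
    ∑ i ∈ Finset.range m, slopes g i 0 / a i * cexp (a i * τ)
  have hFeq : ∀ τ : ℍ, F τ = g (𝕢 1 τ) / 𝕢 1 τ ^ m := fun τ => by
    have hτ : cuspFunction 1 f (𝕢 1 τ) = f τ := eq_cuspFunction τ one_ne_zero hq.periodic
    simp only [F, hgdef, hτ, delta_eq τ, mul_pow]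
    rw [div_mul_eq_div_div, div_eq_mul_inv _ (etaFn _ ^ m)]
    ring
  have hP : Periods.IsPrimitive F P := fun τ => by
    have hqn : 𝕢 1 (τ : ℂ) ∈ ball (0 : ℂ) 1 := by
      simpa using Periodic.norm_qParam_lt_one one_pos τ.im_pos
    have hexp : ∀ i : ℕ, cexp (a i * τ) = 𝕢 1 τ ^ i / 𝕢 1 τ ^ m := fun i => by
      simp only [Periodic.qParam, ← Complex.exp_nat_mul, ← Complex.exp_sub, a]
      congr 1
      push_cast
      ring
    have h1 : HasDerivAt (fun z : ℂ => d * z + G (𝕢 1 z) +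
        ∑ i ∈ Finset.range m, slopes g i 0 / a i * cexp (a i * z))
        (d * 1 + (2 * π * I)⁻¹ * slopes g (m + 1) (𝕢 1 τ) * (𝕢 1 τ * (2 * π * I)) +
          ∑ i ∈ Finset.range m, slopes g i 0 / a i * (cexp (a i * τ) * (a i * 1))) τ :=
      (((hasDerivAt_id (τ : ℂ)).const_mul d).add
        ((hG _ hqn).comp (τ : ℂ) (hasDerivAt_qParam_one τ))).add
        (HasDerivAt.fun_sum fun i _ => (((hasDerivAt_id (τ : ℂ)).const_mul (a i)).cexp).const_mul _)
    have e : d * 1 + (2 * π * I)⁻¹ * slopes g (m + 1) (𝕢 1 τ) * (𝕢 1 τ * (2 * π * I)) +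
        ∑ i ∈ Finset.range m, slopes g i 0 / a i * (cexp (a i * τ) * (a i * 1)) = F τ := by
      have hq0 : 𝕢 1 (τ : ℂ) ^ m ≠ 0 := pow_ne_zero m (Complex.exp_ne_zero _)
      rw [hFeq, eq_sum_slopes g (m + 1), Finset.sum_range_succ, add_div, add_div, Finset.sum_div,
        mul_div_cancel_right₀ _ hq0]
      have hs : ∀ i ∈ Finset.range m, slopes g i 0 / a i * (cexp (a i * τ) * (a i * 1)) =
          slopes g i 0 * 𝕢 1 τ ^ i / 𝕢 1 τ ^ m := fun i hi => by
        have hne : a i ≠ 0 := mul_ne_zero Complex.two_pi_I_ne_zero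
          (sub_ne_zero.mpr fun h => (Finset.mem_range.mp hi).ne (by exact_mod_cast h))
        rw [hexp]
        field_simp
      rw [Finset.sum_congr rfl hs]
      have := Complex.two_pi_I_ne_zero
      rw [pow_succ]
      field_simp
      ring
    rw [e] at h1
    refine h1.congr_of_eventuallyEq ?_
    filter_upwards [Periods.eventually_im_pos τ] with z hz
    simp [P, ofComplex_apply_of_im_pos hz]
  -- invariance
  have hinv : ∀ γ : SL(2, ℤ), F ∣[(2 : ℤ)] γ = F := fun γ => by
    funext τ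
    have h1 := congrFun (hf.slash_eq γ trivial) τ
    have h2 := congrFun (MF.isFormFn_delta.slash_eq γ trivial) τ
    rw [ModularForm.SL_slash_apply] at h1 h2 ⊢
    have hd := denom_ne_zero γ τ
    have hΔ := MF.deltaFn_ne_zero (γ • τ)
    simp only [F, zpow_neg, zpow_ofNat] at h1 h2 ⊢
    rw [← h1, ← h2, mul_pow, inv_pow, ← pow_mul,
      show (12 * (m : ℤ) + 2) = ((12 * m + 2 : ℕ) : ℤ) by push_cast; ring, zpow_natCast, pow_add]
    field_simp
  obtain ⟨c, hc⟩ : ∃ c, ∀ τ : ℍ, P (S • τ) = P τ + c := by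
    have h := hP.comp_smul S
    rw [hinv] at h
    exact ⟨P (S • UpperHalfPlane.I) - P UpperHalfPlane.I, fun τ => by
      rw [← h.sub_eq_sub hP τ UpperHalfPlane.I]; ring⟩
  have hT : ∀ τ : ℍ, P (T • τ) = P τ + d := fun τ => by
    have hper : 𝕢 1 ((τ : ℂ) + 1) = 𝕢 1 (τ : ℂ) := by
      simp [Periodic.qParam, mul_add, Complex.exp_add]
    simp only [P, modular_T_smul, UpperHalfPlane.coe_vadd, Complex.ofReal_one, add_comm (1 : ℂ),
      hper]
    have : ∀ i : ℕ, cexp (a i * ((τ : ℂ) + 1)) = cexp (a i * τ) := fun i => by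
      rw [show a i * ((τ : ℂ) + 1) = a i * τ + (((i : ℤ) - m : ℤ) : ℂ) * (2 * π * I) by
        simp [a]; ring, Complex.exp_add, Complex.exp_int_mul_two_pi_mul_I, mul_one]
    simp only [this]
    ring
  have h2 : c + c = 0 := by
    have e : S • S • UpperHalfPlane.I = UpperHalfPlane.I := by
      rw [smul_smul, show S * S = (-1 : SL(2, ℤ)) by
        ext i j; fin_cases i <;> fin_cases j <;> simp [coe_S],
        SL_neg_smul, one_smul]
    have h := hc (S • UpperHalfPlane.I)
    rw [e, hc] at h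
    linear_combination -h
  have h3 : ∀ τ : ℍ, P ((S * T) • τ) = P τ + (c + d) := fun τ => by
    rw [mul_smul, hc, hT]; ring
  have h4 : c + d + (c + d) + (c + d) = 0 := by
    have e : (S * T) • (S * T) • (S * T) • UpperHalfPlane.I = UpperHalfPlane.I := by
      rw [smul_smul, smul_smul, ← sq, ← pow_succ, S_mul_T_pow_three, SL_neg_smul, one_smul]
    have h := h3 ((S * T) • (S * T) • UpperHalfPlane.I)
    rw [e, h3, h3] at h
    linear_combination -h
  linear_combination (1 / 3 : ℂ) * h4 - (1 / 2 : ℂ) * h2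

end Fermat.Agent.Mazur.Immersion
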