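import Fermat.Agent.Eis.LevelOne
import Fermat.Agent.MF.CuspChar
import Fermat.Agent.Mazur.Disc.Unit
import Fermat.Agent.Mazur.Immersion.LevelOneResidue

/-!
# The residue theorem for `f · w dτ` on `X₀(p)`

For `f` with poles only at the cusps and a weight two cusp form `w` of prime level, the constant
term of `f w` at `∞` equals the constant term of `(W f) (U_p w)`.
-/

noncomputable section

open UpperHalfPlane CongruenceSubgroup Function ModularCurve ModularGroup
open scoped MatrixGroups ModularForm Manifold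

namespace Fermat.Agent.Mazur.Immersion

open Fermat.Agent.MF (IsQFn IsFormFn lq deltaFn E4fn)
open Fermat.Agent.Eis (IsPair IsOne uOp coeff_uOp)

local notation "Qbar" => AlgebraicClosure ℚ
local notation "ηC" => ModularCurve.dedekindEtaUnitInv.map (Int.castRingHom ℂ)

theorem coeff_uOp_mul {R : Type*} [CommRing R] (p : ℕ) (hp : p ≠ 0) (P E : PowerSeries R) (m : ℕ) :
    (uOp p P * E).coeff m = (P * PowerSeries.expand p hp E).coeff (p * m) := by
  rw [PowerSeries.coeff_mul, PowerSeries.coeff_mul]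
  refine Finset.sum_of_injOn (fun i => (p * i.1, p * i.2)) ?_ ?_ ?_ ?_
  · intro i _ j _ h
    simp only [Prod.mk.injEq, mul_eq_mul_left_iff, hp, or_false] at h
    exact Prod.ext h.1 h.2
  · intro i hi
    simp only [Finset.mem_coe, Finset.HasAntidiagonal.mem_antidiagonal] at hi ⊢
    rw [← mul_add, hi]
  · intro i hi hni
    have hnd : ¬ p ∣ i.2 := fun ⟨c, hc⟩ => hni <| by
      rw [Finset.HasAntidiagonal.mem_antidiagonal] at hi
      obtain ⟨b, hb⟩ : p ∣ i.1 :=
        (Nat.dvd_add_left (show p ∣ i.2 from ⟨c, hc⟩)).mp (hi ▸ dvd_mul_right p m)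
      refine ⟨(b, c), ?_, Prod.ext hb.symm hc.symm⟩
      rw [hb, hc, ← mul_add] at hi
      simpa using Nat.eq_of_mul_eq_mul_left (Nat.pos_of_ne_zero hp) hi
    rw [PowerSeries.coeff_expand_of_not_dvd _ _ _ hnd, mul_zero]
  · intro i _
    rw [coeff_uOp, PowerSeries.coeff_expand_mul]

theorem coeff_zero_single_mul {R : Type*} [CommRing R] (n : ℕ) (P : PowerSeries R) :
    (HahnSeries.single (-(n : ℤ)) (1 : R) * HahnSeries.ofPowerSeries ℤ R P).coeff 0 =
        P.coeff n := by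
  have h := HahnSeries.coeff_single_mul_add (r := (1 : R)) (x := HahnSeries.ofPowerSeries ℤ R P)
    (a := (n : ℤ)) (b := -(n : ℤ))
  rw [add_neg_cancel, one_mul] at h
  rw [h, HahnSeries.ofPowerSeries_apply_coeff]

theorem lq_delta_eq : lq deltaFn = HahnSeries.single (1 : ℤ) (1 : ℂ) *
    HahnSeries.ofPowerSeries ℤ ℂ (ModularCurve.dedekindEtaUnit.map (Int.castRingHom ℂ)) := by
  rw [lq, MF.qExpansion_delta, map_mul, HahnSeries.ofPowerSeries_X]

theorem eq_single_mul {X : LaurentSeries ℂ} {U V A : PowerSeries ℂ} {k : ℕ} (hUV : U * V = 1)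
    (h : X * (HahnSeries.single (k : ℤ) 1 * HahnSeries.ofPowerSeries ℤ ℂ U) =
      HahnSeries.ofPowerSeries ℤ ℂ A) :
    X = HahnSeries.single (-(k : ℤ)) 1 * HahnSeries.ofPowerSeries ℤ ℂ (A * V) := by
  have e1 : HahnSeries.ofPowerSeries ℤ ℂ U * HahnSeries.ofPowerSeries ℤ ℂ V = 1 := by
    rw [← map_mul, hUV, map_one]
  have e2 : HahnSeries.single (-(k : ℤ)) (1 : ℂ) * HahnSeries.single (k : ℤ) 1 = 1 := by
    rw [HahnSeries.single_mul_single, neg_add_cancel, mul_one]
    rfl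
  rw [map_mul, ← h]
  linear_combination -(X * HahnSeries.single (-(k : ℤ)) (1 : ℂ) *
    HahnSeries.single (k : ℤ) 1) * e1 - X * e2

theorem lq_delta_pow (m : ℕ) : lq deltaFn ^ m = HahnSeries.single (m : ℤ) (1 : ℂ) *
    HahnSeries.ofPowerSeries ℤ ℂ
      (ModularCurve.dedekindEtaUnit.map (Int.castRingHom ℂ) ^ m) := by
  rw [lq_delta_eq, mul_pow, HahnSeries.single_pow, one_pow, map_pow (HahnSeries.ofPowerSeries ℤ ℂ)]
  simp

theorem etaUnit_pow_mul (m : ℕ) :
    ModularCurve.dedekindEtaUnit.map (Int.castRingHom ℂ) ^ m * ηC ^ m = 1 := by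
  rw [← mul_pow, ← map_mul, ModularCurve.dedekindEtaUnit_mul_inv, map_one, one_pow]

theorem eq_single_mul_of_mul_delta_pow {X : LaurentSeries ℂ} {A : PowerSeries ℂ} {m : ℕ}
    (h : X * lq deltaFn ^ m = HahnSeries.ofPowerSeries ℤ ℂ A) :
    X = HahnSeries.single (-(m : ℤ)) 1 * HahnSeries.ofPowerSeries ℤ ℂ (A * ηC ^ m) :=
  eq_single_mul (etaUnit_pow_mul m) (by rwa [← lq_delta_pow])

theorem eq_single_mul_of_mul_qExpand_delta_pow {p : ℕ} [NeZero p] {Y : LaurentSeries ℂ}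
    {B : PowerSeries ℂ} {m : ℕ}
    (h : Y * qExpand ℂ p (lq deltaFn ^ m) = HahnSeries.ofPowerSeries ℤ ℂ B) :
    Y = HahnSeries.single (-((p * m : ℕ) : ℤ)) 1 *
      HahnSeries.ofPowerSeries ℤ ℂ (B * PowerSeries.expand p (NeZero.ne p) (ηC ^ m)) := by
  refine eq_single_mul (U := PowerSeries.expand p (NeZero.ne p)
    (ModularCurve.dedekindEtaUnit.map (Int.castRingHom ℂ) ^ m))
    (by rw [← map_mul, etaUnit_pow_mul, map_one]) ?_
  rwa [lq_delta_pow, map_mul, qExpand_single, ← EichlerShimura.ofPowerSeries_expand,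
    ← Nat.cast_mul] at h

variable {p : ℕ} [hp : Fact p.Prime]

/-- The expansion at `0` of a weight two cusp form of prime level is `-p⁻¹ U_p` of the one at `∞`.
-/
theorem cuspForm_expansion_zero (w : CuspForm (Gamma0 p) 2) :
    qExpansion (p : ℝ) (⇑w ∣[(2 : ℤ)] S) = (-(p : ℂ)⁻¹) • uOp p (qExpansion 1 ⇑w) := by
  have hpair : IsPair p 2 (qExpansion 1 ⇑w) (qExpansion (p : ℝ) (⇑w ∣[(2 : ℤ)] S)) :=
    ⟨(ModularFormClass.modularForm w : ModularForm (Gamma0 p) 2), rfl, rfl⟩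
  have h := hpair.swap.trace.eq_zero_weight_two
  ext n
  have hn := congrArg (PowerSeries.coeff n) h
  simp only [map_add, PowerSeries.coeff_smul, smul_eq_mul, coeff_uOp, map_zero] at hn ⊢
  have hp0 : (p : ℂ) ≠ 0 := Nat.cast_ne_zero.mpr hp.out.ne_zero
  rw [zpow_two] at hn
  field_simp at hn ⊢
  linear_combination hn

/-- A function with poles only at the cusps is a form over a power of `Δ`. -/
theorem exists_formFn {x : modularFunctionFieldBar p}
    (hx : IsIntegral (Algebra.adjoin Qbar {jBar p}) x) :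
    ∃ (m : ℕ) (f : ℍ → ℂ), IsFormFn (Gamma0 p) (12 * m) f ∧
      coeffMap (complexEmbedding : Qbar →+* ℂ) (x : LaurentSeries Qbar) *
          lq deltaFn ^ m = lq f := by
  classical
  set e : Qbar →+* ℂ := (complexEmbedding : Qbar →+* ℂ)
  set φ : modularFunctionFieldBar p →+* LaurentSeries ℂ :=
    (coeffMap e).comp (modularFunctionFieldBar p).val.toRingHom
  set X := φ x with hX
  obtain ⟨P, hP, heval⟩ := hx
  have hQ : ∀ a : Algebra.adjoin Qbar {jBar p}, ∃ Q : Polynomial ℂ,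
      φ (a : modularFunctionFieldBar p) = Polynomial.aeval (jqModC ℂ) Q := by
    rintro ⟨a, ha⟩
    refine Algebra.adjoin_induction (p := fun b _ => ∃ Q : Polynomial ℂ,
      φ b = Polynomial.aeval (jqModC ℂ) Q) ?_ (fun r => ⟨Polynomial.C (e r), ?_⟩) ?_ ?_ ha
    · rintro b rfl
      refine ⟨Polynomial.X, ?_⟩
      rw [Polynomial.aeval_X]
      show coeffMap e (coeffEmb Qbar jq) = jqModC ℂ
      rw [Disc.coeffMap_embedding_coeffEmb, Mono.coeffEmb_jq]
    · rw [Polynomial.aeval_C]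
      show coeffMap e (algebraMap Qbar (LaurentSeries Qbar) r) = _
      rw [algebraMap_laurentSeries_eq_single, coeffMap_single, algebraMap_laurentSeries_eq_single]
    · rintro b c _ _ ⟨Q, hb⟩ ⟨R, hc⟩
      exact ⟨Q + R, by rw [map_add, hb, hc, map_add]⟩
    · rintro b c _ _ ⟨Q, hb⟩ ⟨R, hc⟩
      exact ⟨Q * R, by rw [map_mul, hb, hc, map_mul]⟩
  choose Q hQ using hQ
  set n := P.natDegree
  have heq : X ^ n + ∑ i ∈ Finset.range n,
      Polynomial.aeval (jqModC ℂ) (Q (P.coeff i)) * X ^ i = 0 := by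
    have h := congrArg φ heval
    rw [map_zero, Polynomial.hom_eval₂, hP.as_sum] at h
    simp only [Polynomial.eval₂_add, Polynomial.eval₂_finsetSum, Polynomial.eval₂_mul,
      Polynomial.eval₂_X_pow, Polynomial.eval₂_C, RingHom.comp_apply] at h
    rw [← h]
    exact congrArg₂ (· + ·) rfl (Finset.sum_congr rfl fun i _ => by rw [← hQ]; rfl)
  obtain ⟨m, hm⟩ : ∃ m : ℕ, ∀ i ∈ Finset.range n, (Q (P.coeff i)).natDegree < m :=
    ⟨(Finset.range n).sup (fun i => (Q (P.coeff i)).natDegree) + 1, fun i hi =>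
      Nat.lt_succ_of_le (Finset.le_sup (f := fun i => (Q (P.coeff i)).natDegree) hi)⟩
  set D := lq deltaFn
  have hd := MF.isFormFn_delta
  have h4 := MF.isFormFn_E4
  -- the coefficients, as cusp forms of level one
  let c : ℕ → ℍ → ℂ := fun s =>
    deltaFn * ∑ i ∈ Finset.range (m * (s + 1)),
      ((Q (P.coeff (n - 1 - s))).coeff i) • (E4fn ^ (3 * i) * deltaFn ^ (m * (s + 1) - 1 - i))
  have hsum : ∀ s, IsFormFn ⊤ (12 * ((m * (s + 1) : ℕ) : ℤ) - 12)
      (∑ i ∈ Finset.range (m * (s + 1)), ((Q (P.coeff (n - 1 - s))).coeff i) •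
        (E4fn ^ (3 * i) * deltaFn ^ (m * (s + 1) - 1 - i))) := fun s =>
    IsFormFn.sum _ fun i hi => (((h4.pow _).mul (hd.pow _)).cast (by
      have hi' : i < m * (s + 1) := Finset.mem_range.mp hi
      have hc : ((m * (s + 1) - 1 - i : ℕ) : ℤ) = ((m * (s + 1) : ℕ) : ℤ) - 1 - i := by omega
      rw [hc]; push_cast; ring)).smul _
  have hc : ∀ s, IsFormFn ⊤ (((s + 1 : ℕ) : ℤ) * (12 * (m : ℤ))) (c s) := fun s =>
    (hd.mul (hsum s)).cast (by push_cast; ring)
  have hc0 : ∀ s, (qExpansion 1 (c s)).coeff 0 = 0 := fun s => by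
    have := MF.lq_mul hd.isQFnTop (hsum s).isQFnTop
    simp only [lq, ← map_mul] at this
    rw [HahnSeries.ofPowerSeries_injective this, MF.qExpansion_delta]
    simp [mul_assoc]
  have hlqc : ∀ s < n, lq (c s) =
      Polynomial.aeval (jqModC ℂ) (Q (P.coeff (n - 1 - s))) * D ^ (m * (s + 1)) := by
    intro s hs
    have hdeg : (Q (P.coeff (n - 1 - s))).natDegree < m * (s + 1) :=
      (hm _ (Finset.mem_range.mpr (by omega))).trans_le (Nat.le_mul_of_pos_right _ (by omega))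
    show lq (deltaFn * _) = _
    rw [MF.lq_mul hd.isQFnTop (hsum s).isQFnTop,
      MF.lq_sum _ fun i _ => ((h4.isQFnTop.pow _).mul (hd.isQFnTop.pow _)).smul _,
      Finset.mul_sum, Polynomial.aeval_eq_sum_range' hdeg, Finset.sum_mul]
    refine Finset.sum_congr rfl fun i hi => ?_
    have hi' : i < m * (s + 1) := Finset.mem_range.mp hi
    rw [MF.lq_smul ((h4.isQFnTop.pow _).mul (hd.isQFnTop.pow _)),
      MF.lq_mul (h4.isQFnTop.pow _) (hd.isQFnTop.pow _), MF.lq_pow h4.isQFnTop,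
      MF.lq_pow hd.isQFnTop, pow_mul, ← MF.jqModC_mul_lq_delta, Algebra.smul_def,
      MF.algebraMap_eq_C, mul_pow, show m * (s + 1) = 1 + (i + (m * (s + 1) - 1 - i)) by omega,
      pow_add, pow_add, show 1 + (i + (m * (s + 1) - 1 - i)) - 1 - i = m * (s + 1) - 1 - i by omega,
      pow_one]
    ring
  -- the ratio
  obtain ⟨k, f₀, g₀, hf₀, hg₀, hg0, hfg⟩ :=
    (Mono.mem_FC_iff p).mp (Disc.coeffMap_mem_FC Qbar e x.2)
  have hdm : IsFormFn (Gamma0 p) (12 * (m : ℤ)) (deltaFn ^ m) :=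
    ((hd.pow m).mono le_top).cast (by ring)
  have hy : X * D ^ m * lq g₀ = lq (f₀ * deltaFn ^ m) := by
    rw [MF.lq_mul hf₀.isQFn0 hdm.isQFn0, MF.lq_pow hd.isQFnTop, ← hfg]
    show coeffMap e (x : LaurentSeries Qbar) * D ^ m * lq g₀ = _
    ring
  obtain ⟨f, hf, hfy⟩ := MF.exists_cuspFn_of_equation (MF.T_mem_Gamma0 p)
    (k := 12 * (m : ℤ)) (K := k) (n := n)
    (hf₀.mul hdm) hg₀ hg0 (c := c) (fun s _ => ⟨hc s, hc0 s⟩) hy (by
    rw [← Finset.sum_range_reflect] at heq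
    have : (X * D ^ m) ^ n + ∑ s ∈ Finset.range n, lq (c s) * (X * D ^ m) ^ (n - 1 - s) =
        D ^ (m * n) * (X ^ n + ∑ s ∈ Finset.range n,
          Polynomial.aeval (jqModC ℂ) (Q (P.coeff (n - 1 - s))) * X ^ (n - 1 - s)) := by
      rw [mul_add, Finset.mul_sum, mul_pow, ← pow_mul, mul_comm (X ^ n)]
      congr 1
      refine Finset.sum_congr rfl fun s hs => ?_
      have hs' : s < n := Finset.mem_range.mp hs
      rw [hlqc s hs', mul_pow, ← pow_mul,
        show m * n = m * (s + 1) + m * (n - 1 - s) by rw [← mul_add]; congr 1; omega, pow_add]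
      ring
    rw [this, heq, mul_zero])
  exact ⟨m, f, hf.form, hfy.symm⟩

/-- **The residue theorem**: the constant term of `x · w` at `∞` is that of `(W x) · U_p w`. -/
theorem coeff_zero_mul_eq (τ : modularFunctionFieldBar p →+* LaurentSeries Qbar)
    (hC : ∀ a, τ (algebraMap Qbar _ a) = HahnSeries.C a)
    (hj : τ (jBar p) = qExpand Qbar p (coeffEmb Qbar jq))
    (hjN : τ (jNBar p) = coeffEmb Qbar jq)
    (x : modularFunctionFieldBar p) (hx : IsIntegral (Algebra.adjoin Qbar {jBar p}) x)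
    (w : CuspForm (Gamma0 p) 2) (a : ℕ → ℤ) (ha : ∀ n, (qExpansion 1 w).coeff n = (a n : ℂ)) :
    ((x : LaurentSeries Qbar) *
        HahnSeries.ofPowerSeries ℤ Qbar (PowerSeries.mk fun n => (a n : Qbar))).coeff 0 =
      (τ x *
        HahnSeries.ofPowerSeries ℤ Qbar (PowerSeries.mk fun n => (a (p * n) : Qbar))).coeff 0 := by
  set e : Qbar →+* ℂ := (complexEmbedding : Qbar →+* ℂ)
  apply e.injective
  rw [← coeffMap_coeff, ← coeffMap_coeff, map_mul, map_mul, coeffMap_ofPowerSeries,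
    coeffMap_ofPowerSeries, Disc.coeffMap_fricke τ hC hj hjN x]
  set A := qExpansion 1 ⇑w
  have hA : (PowerSeries.mk fun n => (a n : Qbar)).map e = A := by
    ext n; simp [A, ha]
  have hUA : (PowerSeries.mk fun n => (a (p * n) : Qbar)).map e = uOp p A := by
    ext n; simp [A, ha]
  rw [hA, hUA]
  obtain ⟨m, f, hf, hfX⟩ := exists_formFn hx
  have hd : IsFormFn ⊤ (12 * (m : ℤ)) (deltaFn ^ m) :=
    (MF.isFormFn_delta.pow m).cast (by ring)
  have hdq : lq (deltaFn ^ m) = lq deltaFn ^ m := MF.lq_pow MF.isFormFn_delta.isQFnTop m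
  have hd0 : deltaFn ^ m ≠ 0 := fun h =>
    pow_ne_zero m (MF.deltaFn_ne_zero UpperHalfPlane.I) (congrFun h UpperHalfPlane.I)
  have hY : Disc.frickeC x * qExpand ℂ p (lq deltaFn ^ m) =
      HahnSeries.ofPowerSeries ℤ ℂ (qExpansion (p : ℝ) (f ∣[(12 * (m : ℤ))] S)) := by
    rw [Disc.frickeC_eq hf (hd.mono le_top) hd0 (by rw [hdq]; exact hfX), Disc.wexp_wslash_top hd,
      hdq, div_mul_cancel₀ _ ((map_ne_zero _).mpr (pow_ne_zero m MF.lq_delta_ne_zero))]
    show HahnSeries.ofPowerSeries ℤ ℂ (qExpansion (p : ℝ) (X0.wslash hf S : ℍ → ℂ)) = _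
    rw [X0.coe_wslash]
  rw [eq_single_mul_of_mul_delta_pow (A := qExpansion 1 f) hfX,
    eq_single_mul_of_mul_qExpand_delta_pow hY, mul_assoc, mul_assoc, ← map_mul, ← map_mul,
    coeff_zero_single_mul, coeff_zero_single_mul]
  set B := qExpansion (p : ℝ) (f ∣[(12 * (m : ℤ))] S)
  have hpair : IsPair p (12 * (m : ℤ) + 2) (qExpansion 1 f * A)
      (B * ((-(p : ℂ)⁻¹) • uOp p A)) := by
    rw [← cuspForm_expansion_zero w]
    exact IsPair.mul ⟨hf.toModularForm, rfl, rfl⟩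
      ⟨(ModularFormClass.modularForm w : ModularForm (Gamma0 p) 2), rfl, rfl⟩
  obtain ⟨g, hg⟩ := hpair.trace
  have hres := coeff_eq_zero_of_levelOne (MF.isFormFn_top g)
  have hU : (p : ℂ) • uOp p (B * ((-(p : ℂ)⁻¹) • uOp p A)) = -uOp p (B * uOp p A) := by
    ext n
    have hp0 : (p : ℂ) ≠ 0 := Nat.cast_ne_zero.mpr hp.out.ne_zero
    rw [mul_smul_comm, map_neg, PowerSeries.coeff_smul, coeff_uOp, PowerSeries.coeff_smul,
      coeff_uOp, smul_eq_mul, smul_eq_mul, ← mul_assoc, mul_neg, mul_inv_cancel₀ hp0, neg_one_mul]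
  rw [hg, hU, add_mul, neg_mul, map_add, map_neg, coeff_uOp_mul p hp.out.ne_zero, add_neg_eq_zero]
    at hres
  rw [mul_right_comm, hres, mul_right_comm]

end Fermat.Agent.Mazur.Immersion
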