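import Fermat.Agent.Mazur.Disc.Reduction
import Fermat.Agent.Mazur.Immersion.Bounded
import Fermat.Agent.Red.SameDegree

/-!
# Bounded functions: scaling into the integral functions, normalising the reduction
-/

noncomputable section

open ModularCurve AlgebraicCurve

namespace Fermat.Agent.Mazur.Immersion

open Fermat.Agent.Mazur.Disc (ser stdHom DiscPt)

local notation "Qbar" => AlgebraicClosure ℚ

variable {p : ℕ} [hp : Fact p.Prime] {Ω : Type*} [NormedField Ω] [IsUltrametricDist Ω]
  [CompleteSpace Ω] {ι : Qbar →+* Ω}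

omit [CompleteSpace Ω] in
/-- Functions integral over `ℚ̄[j]` have bounded expansions. -/
theorem exists_small_ser {γ : Ω} (hγ : 1 < ‖γ‖)
    {φ : modularFunctionFieldBar p →+* LaurentSeries Qbar} (hφ : Disc.Adm ι φ)
    (hj : ∃ B, Small B (ser ι φ (jBar p))) {x : modularFunctionFieldBar p}
    (hx : IsIntegral (Algebra.adjoin Qbar {jBar p}) x) : ∃ B, Small B (ser ι φ x) := by
  obtain ⟨Q, hQ, hroot⟩ := hx
  have hcoef : ∀ i, ∃ B, Small B
      (ser ι φ ((Q.coeff i : Algebra.adjoin Qbar {jBar p}) : modularFunctionFieldBar p)) := by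
    intro i
    generalize Q.coeff i = r
    obtain ⟨r, hr⟩ := r
    induction hr using Algebra.adjoin_induction with
    | mem y hy => rw [Set.mem_singleton_iff] at hy; subst hy; exact hj
    | algebraMap c =>
      refine ⟨‖ι c‖, ?_⟩
      rw [Disc.ser_const ι hφ]
      exact Small.const le_rfl
    | add a b _ _ ha hb =>
      obtain ⟨B, hB⟩ := ha
      obtain ⟨B', hB'⟩ := hb
      exact ⟨max B B', by rw [map_add]
                          exact (hB.mono (le_max_left _ _)).add (hB'.mono (le_max_right _ _))⟩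
    | mul a b _ _ ha hb =>
      obtain ⟨B, hB⟩ := ha
      obtain ⟨B', hB'⟩ := hb
      exact ⟨B * B', by rw [map_mul]; exact hB.mul hB'⟩
  refine exists_small_of_root hγ (hφ.mem x) (n := Q.natDegree)
    (c := fun i => ser ι φ ((Q.coeff i : Algebra.adjoin Qbar {jBar p}) : modularFunctionFieldBar p))
    (fun i _ => hcoef i) ?_
  have h := congrArg (ser ι φ) hroot
  rw [hQ.as_sum, Polynomial.eval₂_add, Polynomial.eval₂_X_pow, Polynomial.eval₂_finsetSum,
    map_add, map_pow, map_sum, map_zero] at h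
  refine Eq.trans ?_ h
  refine congrArg₂ (· + ·) rfl (Finset.sum_congr rfl fun i _ => ?_)
  rw [Polynomial.eval₂_mul, Polynomial.eval₂_C, Polynomial.eval₂_X_pow, map_mul, map_pow]
  rfl

variable {A : ValuationSubring Qbar} (hA : ∀ x, x ∈ A ↔ ‖ι x‖ ≤ 1)
include hA

omit [IsUltrametricDist Ω] [CompleteSpace Ω] in
theorem norm_lt_one_of_residue {a : A} (h : IsLocalRing.residue A a = 0) : ‖ι (a : Qbar)‖ < 1 := by
  refine lt_of_le_of_ne ((hA _).mp a.2) fun h1 => ?_
  have ha0 : (a : Qbar) ≠ 0 := fun h0 => by rw [h0, map_zero, norm_zero] at h1; exact zero_ne_one h1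
  have hinv : (a : Qbar)⁻¹ ∈ A := (hA _).mpr (by rw [map_inv₀, norm_inv, h1, inv_one])
  exact Red.pi_ne_zero_of_mul_eq_one (π := IsLocalRing.residue A) hinv (mul_inv_cancel₀ ha0) h

omit [IsUltrametricDist Ω] [CompleteSpace Ω] in
theorem norm_eq_one_of_residue {a : A} (h : IsLocalRing.residue A a ≠ 0) : ‖ι (a : Qbar)‖ = 1 := by
  refine le_antisymm ((hA _).mp a.2) ?_
  have hinv := (hA _).mp (Red.inv_mem_of_pi_ne_zero IsLocalRing.residue_surjective h)
  rw [map_inv₀, norm_inv] at hinv
  rcases (norm_nonneg (ι (a : Qbar))).lt_or_eq with h0 | h0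
  · exact (inv_le_one₀ h0).mp hinv
  · exfalso
    have ha0 : (a : Qbar) = 0 := (map_eq_zero ι).mp (norm_eq_zero.mp h0.symm)
    exact h (by rw [show a = 0 from Subtype.ext ha0, map_zero])

omit [IsUltrametricDist Ω] [CompleteSpace Ω] in
theorem small_coeffMap_subtype (y : LaurentSeries A) :
    Small 1 (coeffMap ι (coeffMap A.subtype y)) := fun k => (hA _).mp (y.coeff k).2

omit [IsUltrametricDist Ω] [CompleteSpace Ω] in
theorem exists_unit_coeff {y : LaurentSeries A} (h : coeffMap (IsLocalRing.residue A) y ≠ 0) :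
    ∃ k, ‖(coeffMap ι (coeffMap A.subtype y)).coeff k‖ = 1 := by
  by_contra hcon
  push Not at hcon
  refine h (HahnSeries.ext (funext fun k => ?_))
  show IsLocalRing.residue A (y.coeff k) = 0
  by_contra hk
  exact hcon k (norm_eq_one_of_residue hA hk)

omit [CompleteSpace Ω] in
/-- A bounded function is a constant times an integral function with nonzero reduction. -/
theorem exists_scale (hdeg : Red.SameDegree Qbar (IsLocalRing.ResidueField A) p)
    {f : modularFunctionFieldBar p} (hf : f ≠ 0) (hb : ∃ B, Small B (ser ι (stdHom p) f)) :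
    ∃ (c : Qbar) (y : LaurentSeries A), c ≠ 0 ∧
      coeffMap (IsLocalRing.residue A) y ∈ modularFunctionFieldFullC
          (IsLocalRing.ResidueField A) p ∧
      coeffMap (IsLocalRing.residue A) y ≠ 0 ∧
      (f : LaurentSeries Qbar) = HahnSeries.C c * coeffMap A.subtype y := by
  classical
  set G := Red.gaussData (A := A) (N := p) IsLocalRing.residue_surjective hdeg with hG
  obtain ⟨c, u, hu, hfu⟩ := G.scale f hf
  obtain ⟨yB, zB, hz, hyz⟩ := G.mem_O.mp u.2
  have hc : c ≠ 0 := fun h => hf (by rw [hfu, h, map_zero, zero_mul])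
  have hy0 : G.ρ yB ≠ 0 := fun h => hu (by rw [G.red_eq hz hyz, h, zero_div])
  obtain ⟨ys, hys, hysk⟩ := yB.2
  obtain ⟨zs, hzs, hzsk⟩ := zB.2
  have hρy : (G.ρ yB : LaurentSeries (IsLocalRing.ResidueField A)) =
      coeffMap (IsLocalRing.residue A) ys :=
    Red.coe_integralReduction A (IsLocalRing.residue A) p hys
  have hρz : (G.ρ zB : LaurentSeries (IsLocalRing.ResidueField A)) =
      coeffMap (IsLocalRing.residue A) zs :=
    Red.coe_integralReduction A (IsLocalRing.residue A) p hzs
  have hzne : coeffMap (IsLocalRing.residue A) zs ≠ 0 := fun h => hz (Subtype.ext (hρz.trans h))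
  have hyne : coeffMap (IsLocalRing.residue A) ys ≠ 0 := fun h => hy0 (Subtype.ext (hρy.trans h))
  obtain ⟨B, hB⟩ := hb
  have hιc : ι c ≠ 0 := (map_ne_zero ι).mpr hc
  have hfu' : ser ι (stdHom p) f =
      HahnSeries.C (ι c) * coeffMap ι ((u : modularFunctionFieldBar p) : LaurentSeries Qbar) := by
    rw [hfu, map_mul, Disc.ser_const ι (Disc.adm_stdHom ι)]
    rfl
  have hub : Small (‖ι c‖⁻¹ * B)
      (coeffMap ι ((u : modularFunctionFieldBar p) : LaurentSeries Qbar)) := by
    have h1 := (Small.const (c := (ι c)⁻¹) (norm_inv (ι c)).le).mul hB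
    rwa [hfu', ← mul_assoc, ← map_mul, inv_mul_cancel₀ hιc, map_one, one_mul] at h1
  have hu1 : Small 1 (coeffMap ι ((u : modularFunctionFieldBar p) : LaurentSeries Qbar)) := by
    refine small_of_mul hub (small_coeffMap_subtype hA zs) (exists_unit_coeff hA hzne) ?_
    rw [← map_mul, hzs, ← IntermediateField.coe_mul, hyz, ← hys]
    exact small_coeffMap_subtype hA ys
  let y : LaurentSeries A :=
    { coeff := fun k => ⟨((u : modularFunctionFieldBar p) : LaurentSeries Qbar).coeff k,
        (hA _).mpr (hu1 k)⟩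
      isPWO_support' := ((u : modularFunctionFieldBar p) : LaurentSeries Qbar).isPWO_support.mono
        fun k hk => by
          simp only [Function.mem_support, ne_eq] at hk ⊢
          exact fun h0 => hk (Subtype.ext h0) }
  have hy : coeffMap A.subtype y = ((u : modularFunctionFieldBar p) : LaurentSeries Qbar) :=
    HahnSeries.ext (funext fun k => rfl)
  have hprod : coeffMap (IsLocalRing.residue A) y * coeffMap (IsLocalRing.residue A) zs =
      coeffMap (IsLocalRing.residue A) ys := by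
    rw [← map_mul]
    congr 1
    refine Red.coeffMap_subtype_injective A ?_
    rw [map_mul, hy, hzs, hys, ← IntermediateField.coe_mul, hyz]
  refine ⟨c, y, hc, ?_, fun h => hyne (by rw [← hprod, h, zero_mul]), ?_⟩
  · rw [eq_div_of_mul_eq hzne hprod]
    exact div_mem hysk hzsk
  · rw [hy, hfu, IntermediateField.coe_mul, IntermediateField.coe_algebraMap_apply,
      algebraMap_laurentSeries_eq_single, HahnSeries.C_apply]

omit [CompleteSpace Ω] in
/-- A bounded function whose divisor reduces to zero is, up to a constant, congruent to one. -/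
theorem exists_congr_one {ℓ : ℕ} [Fact ℓ.Prime] (hℓp : ¬ ℓ ∣ p) (hAl : A.LiesOverPrime ℓ)
    (hred : ReductionInputsModL A p) {f : modularFunctionFieldBar p} (hf : f ≠ 0)
    (hb : ∃ B, Small B (ser ι (stdHom p) f))
    (hdiv : Finsupp.mapDomain (placeReductionModL hred) (FF.divOf (K := Qbar) f) = 0) :
    ∃ e : Qbar, e ≠ 0 ∧ ∃ r : ℝ, 0 ≤ r ∧ r < 1 ∧
      Small r (ser ι (stdHom p) (algebraMap Qbar _ e * f) - 1) := by
  classical
  have hdeg := Red.sameDegree hℓp hAl
  have := Red.isAlgClosed_residueField A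
  have := Red.isFunctionField_residue hdeg
  obtain ⟨c, y, hc, hyk, hyne, hfy⟩ := exists_scale hA hdeg hf hb
  set f₁ : modularFunctionFieldBar p := algebraMap Qbar _ c⁻¹ * f with hf₁
  have hf₁y : coeffMap A.subtype y = (f₁ : LaurentSeries Qbar) := by
    rw [hf₁, IntermediateField.coe_mul, IntermediateField.coe_algebraMap_apply,
      algebraMap_laurentSeries_eq_single, ← HahnSeries.C_apply, hfy, ← mul_assoc, ← map_mul,
      inv_mul_cancel₀ hc, map_one, one_mul]
  have hmem : coeffMap A.subtype y ∈ laurentBaseChange Qbar (modularFunctionFieldFull p) := by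
    rw [hf₁y]; exact f₁.2
  have hspec := (isPlaceReductionModL_placeReductionModL hred).2 y hmem hyk hyne
    (FF.divOf (K := Qbar) f) (fun v => by
      rw [FF.divOf_apply, show (⟨coeffMap A.subtype y, hmem⟩ : modularFunctionFieldBar p) = f₁ from
        Subtype.ext hf₁y, hf₁, FF.ord_algebraMap_mul v (inv_ne_zero hc)])
  have hκ : ∃ κ : IsLocalRing.ResidueField A, κ ≠ 0 ∧
      (⟨coeffMap (IsLocalRing.residue A) y, hyk⟩ :
        modularFunctionFieldFullC (IsLocalRing.ResidueField A) p) = algebraMap _ _ κ := by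
    refine (FF.divOf_eq_zero_iff fun h => hyne (congrArg Subtype.val h)).mp
        (Finsupp.ext fun Q => ?_)
    rw [FF.divOf_apply, ← hspec Q, hdiv]
  obtain ⟨κ, hκ0, hκ⟩ := hκ
  obtain ⟨c₀, hc₀⟩ := IsLocalRing.residue_surjective κ
  have hc₀n : ‖ι (c₀ : Qbar)‖ = 1 := norm_eq_one_of_residue hA (hc₀ ▸ hκ0)
  have hc₀0 : (c₀ : Qbar) ≠ 0 := fun h => by
    rw [h, map_zero, norm_zero] at hc₀n; exact zero_ne_one hc₀n
  refine ⟨(c₀ : Qbar)⁻¹ * c⁻¹, mul_ne_zero (inv_ne_zero hc₀0) (inv_ne_zero hc), ?_⟩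
  rw [show algebraMap Qbar (modularFunctionFieldBar p) ((c₀ : Qbar)⁻¹ * c⁻¹) * f =
    algebraMap Qbar _ (c₀ : Qbar)⁻¹ * f₁ by rw [map_mul, mul_assoc, ← hf₁]]
  set f₂ : modularFunctionFieldBar p := algebraMap Qbar _ (c₀ : Qbar)⁻¹ * f₁ with hf₂
  rcases eq_or_ne (f₂ - 1) 0 with h0 | h0
  · refine ⟨0, le_rfl, one_pos, ?_⟩
    rw [← map_one (ser ι (stdHom p)), ← map_sub, h0, map_zero]
    exact Small.zero le_rfl
  set y₂ : LaurentSeries A :=
    HahnSeries.C ⟨(c₀ : Qbar)⁻¹, (hA _).mpr (by rw [map_inv₀, norm_inv, hc₀n, inv_one])⟩ * y - 1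
    with hy₂
  have hy₂f : coeffMap A.subtype y₂ =
      ((f₂ - 1 : modularFunctionFieldBar p) : LaurentSeries Qbar) := by
    rw [hy₂, map_sub, map_one, map_mul, hf₁y, HahnSeries.C_apply, coeffMap_single, hf₂,
      AddSubgroupClass.coe_sub, IntermediateField.coe_mul, IntermediateField.coe_one,
      IntermediateField.coe_algebraMap_apply, algebraMap_laurentSeries_eq_single]
    simp only [hf₁, IntermediateField.coe_mul, IntermediateField.coe_algebraMap_apply,
      algebraMap_laurentSeries_eq_single]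
    rfl
  have hy₂0 : coeffMap (IsLocalRing.residue A) y₂ = 0 := by
    have h1 : coeffMap (IsLocalRing.residue A) y = HahnSeries.single (0 : ℤ) κ := by
      have h := congrArg Subtype.val hκ
      rw [IntermediateField.coe_algebraMap_apply, algebraMap_laurentSeries_eq_single] at h
      exact h
    rw [hy₂, map_sub, map_one, map_mul, h1, HahnSeries.C_apply, coeffMap_single, ← hc₀,
      HahnSeries.single_mul_single, ← map_mul, sub_eq_zero, add_zero]
    rw [show (⟨(c₀ : Qbar)⁻¹, _⟩ : A) * c₀ = 1 from Subtype.ext (inv_mul_cancel₀ hc₀0), map_one,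
      HahnSeries.single_zero_one]
  have hsy : ser ι (stdHom p) (f₂ - 1) = coeffMap ι (coeffMap A.subtype y₂) := by
    rw [hy₂f]; rfl
  obtain ⟨c', y₃, hc', -, hy₃, hy₃f⟩ := exists_scale hA hdeg h0
    ⟨1, by rw [hsy]; exact small_coeffMap_subtype hA y₂⟩
  obtain ⟨k, hk⟩ := exists_unit_coeff hA hy₃
  have hk' : (coeffMap ι (coeffMap A.subtype y₂)).coeff k =
      ι c' * (coeffMap ι (coeffMap A.subtype y₃)).coeff k := by
    rw [hy₂f, hy₃f, map_mul, HahnSeries.C_apply, coeffMap_single, HahnSeries.coeff_single_mul,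
      sub_zero]
  have hlt : ‖ι c'‖ < 1 := by
    have h1 : ‖(coeffMap ι (coeffMap A.subtype y₂)).coeff k‖ < 1 :=
      norm_lt_one_of_residue hA (congrArg (fun s => HahnSeries.coeff s k) hy₂0)
    rwa [hk', norm_mul, hk, mul_one] at h1
  refine ⟨‖ι c'‖, norm_nonneg _, hlt, ?_⟩
  rw [← map_one (ser ι (stdHom p)), ← map_sub, Disc.ser_apply, Disc.stdHom_apply, hy₃f, map_mul,
    HahnSeries.C_apply, coeffMap_single, ← HahnSeries.C_apply]
  exact (Small.const le_rfl).mul_right_one (small_coeffMap_subtype hA y₃)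

end Fermat.Agent.Mazur.Immersion
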