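import Fermat.Agent.Mazur.Disc.Near
import Fermat.Agent.Mazur.Immersion.Factor
import Fermat.Agent.Mazur.Immersion.Residue
import Fermat.Agent.Mazur.Immersion.Scale
import Fermat.Agent.Red.Genus

/-!
# The functions `1 - j/a` and their orders
-/

noncomputable section

open ModularCurve AlgebraicCurve

namespace Fermat.Agent.Mazur.Immersion

open Fermat.Agent.Mazur.Disc (ser stdHom DiscPt IsPoint IsFricke toL)

local notation "Qbar" => AlgebraicClosure ℚ

variable {p : ℕ} [hp : Fact p.Prime]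

/-- `1 - j/a`. -/
def jFactor (a : Qbar) : modularFunctionFieldBar p :=
  1 - algebraMap Qbar _ a⁻¹ * jBar p

/-- `∑_{k < M} (j/a)^k`. -/
def jGeom (a : Qbar) (M : ℕ) : modularFunctionFieldBar p :=
  ∑ k ∈ Finset.range M, (algebraMap Qbar _ a⁻¹ * jBar p) ^ k

theorem jFactor_eq {a : Qbar} (ha : a ≠ 0) :
    (jFactor a : modularFunctionFieldBar p) =
      algebraMap Qbar _ (-a⁻¹) * (jBar p - algebraMap Qbar _ a) := by
  rw [jFactor, map_neg, mul_sub, neg_mul, neg_mul, ← map_mul, inv_mul_cancel₀ ha, map_one]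
  ring

theorem ord_jFactor {a : Qbar} (ha : a ≠ 0) (v : XPlace p) :
    v.ord (jFactor a : modularFunctionFieldBar p) = v.ord (jBar p - algebraMap Qbar _ a) := by
  rw [jFactor_eq ha, FF.ord_algebraMap_mul v (neg_ne_zero.mpr (inv_ne_zero ha))]

theorem jFactor_ne_zero {a : Qbar} (ha : a ≠ 0) : (jFactor a : modularFunctionFieldBar p) ≠ 0 := by
  rw [jFactor_eq ha]
  exact mul_ne_zero ((map_ne_zero _).mpr (neg_ne_zero.mpr (inv_ne_zero ha)))
    (Disc.jBar_sub_ne_zero a)

omit hp in
theorem ord_prod_pow {ι' : Type*} (v : XPlace p) (f : ι' → modularFunctionFieldBar p)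
    (t : Finset ι') (hf : ∀ i ∈ t, f i ≠ 0) (N : ι' → ℕ) :
    v.ord (∏ i ∈ t, f i ^ N i) = ∑ i ∈ t, (N i : ℤ) * v.ord (f i) := by
  induction t using Finset.cons_induction with
  | empty => simp
  | cons a s ha ih =>
    rw [Finset.prod_cons, Finset.sum_cons, v.ord_mul (pow_ne_zero _ (hf a (by simp)))
      (Finset.prod_ne_zero_iff.mpr fun i hi => pow_ne_zero _ (hf i (by simp [hi]))),
      ih fun i hi => hf i (by simp [hi]), FF.ord_pow]

theorem ord_jBar_nonneg_of_pos {a : Qbar} {v : XPlace p}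
    (h : 0 < v.ord (jBar p - algebraMap Qbar _ a)) : 0 ≤ v.ord (jBar p) := by
  have h1 : jBar p - algebraMap Qbar _ a + algebraMap Qbar _ a ∈ v.toValuationSubring :=
    add_mem ((FF.mem_iff_ord_nonneg v).mpr h.le) (v.algebraMap_mem' a)
  rw [sub_add_cancel] at h1
  exact (FF.mem_iff_ord_nonneg v).mp h1

theorem ord_jFactor_nonneg {a : Qbar} (ha : a ≠ 0) {v : XPlace p} (h : 0 ≤ v.ord (jBar p)) :
    0 ≤ v.ord (jFactor a : modularFunctionFieldBar p) := by
  rw [ord_jFactor ha]
  exact (FF.mem_iff_ord_nonneg v).mp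
    (sub_mem ((FF.mem_iff_ord_nonneg v).mpr h) (v.algebraMap_mem' a))

theorem ord_jFactor_of_neg {a : Qbar} (ha : a ≠ 0) {v : XPlace p} (h : v.ord (jBar p) < 0) :
    v.ord (jFactor a : modularFunctionFieldBar p) = v.ord (jBar p) := by
  rw [ord_jFactor ha, sub_eq_add_neg]
  refine FF.ord_add_eq_of_lt v (jBar_ne_zero p) (Or.inr ?_)
  rw [FF.ord_neg, FF.ord_algebraMap]
  exact h

theorem isIntegral_jGeom (a : Qbar) (M : ℕ) :
    IsIntegral (Algebra.adjoin Qbar {jBar p}) (jGeom a M : modularFunctionFieldBar p) :=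
  IsIntegral.sum _ fun _ _ => IsIntegral.pow (IsIntegral.mul
    (isIntegral_algebraMap (x := (algebraMap Qbar (Algebra.adjoin Qbar {jBar p}) a⁻¹)))
    (isIntegral_algebraMap
      (x := (⟨jBar p, Algebra.subset_adjoin rfl⟩ : Algebra.adjoin Qbar {jBar p})))) _

variable {Ω : Type*} [NormedField Ω] [IsUltrametricDist Ω] [CompleteSpace Ω] [CharZero Ω]
  [IsAlgClosed Ω] {ι : Qbar →+* Ω}

omit [IsAlgClosed Ω] in
/-- A disc point and a Fricke point over it are different places. -/
theorem false_of_point_of_fricke {τ : modularFunctionFieldBar p →+* LaurentSeries Qbar}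
    (hτ : IsFricke τ) {s r : DiscPt Ω} (hs : s.val ≠ 0) (hr : r.val ^ p = s.val) {v : XPlace p}
    (hv : IsPoint ι (stdHom p) s v) (hw : IsPoint ι τ r v) : False := by
  obtain ⟨b, hb, hord⟩ := hv.exists_value ι (Disc.adm_stdHom ι) hs (Disc.stdHom_jNBar (p := p))
  have hr0 : r.val ≠ 0 := fun h => hs (by rw [← hr, h, zero_pow hp.out.ne_zero])
  have hb' := Disc.jN_value_fricke hτ hw hr0 (hord ▸ one_pos)
  have h1 := DiscPt.J_injective
    (mul_left_cancel₀ (left_ne_zero_of_mul_eq_one hb) (hb.trans hb'.symm))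
  have h1' : s.val ^ p = r.val := h1
  have h2 : ‖r.val‖ = ‖r.val‖ ^ (p * p) := by
    conv_lhs => rw [← h1', ← hr, ← pow_mul, norm_pow]
  have h3 : ‖r.val‖ ^ (p * p) < ‖r.val‖ ^ 1 :=
    pow_lt_pow_right_of_lt_one₀ (norm_pos_iff.mpr hr0) r.norm_lt (by nlinarith [hp.out.two_le])
  rw [pow_one, ← h2] at h3
  exact lt_irrefl _ h3

omit [IsUltrametricDist Ω] [CompleteSpace Ω] [CharZero Ω] [IsAlgClosed Ω] in
/-- Translation of the residue theorem to `Ω`. -/
theorem coeff_zero_ser_eq {τ : modularFunctionFieldBar p →+* LaurentSeries Qbar} (hτ : IsFricke τ)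
    {x : modularFunctionFieldBar p} (hx : IsIntegral (Algebra.adjoin Qbar {jBar p}) x)
    (w : CuspForm (CongruenceSubgroup.Gamma0 p) 2) (b : ℕ → ℤ)
    (hb : ∀ n, (UpperHalfPlane.qExpansion 1 w).coeff n = (b n : ℂ)) :
    (HahnSeries.ofPowerSeries ℤ Ω (PowerSeries.mk fun k => (b k : Ω)) *
        ser ι (stdHom p) x).coeff 0 =
      (HahnSeries.ofPowerSeries ℤ Ω (PowerSeries.mk fun k => (b (p * k) : Ω)) *
        ser ι τ x).coeff 0 := by
  have h := congrArg ι (coeff_zero_mul_eq τ hτ.map_const hτ.map_j hτ.map_jN x hx w b hb)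
  have key : ∀ (c : ℕ → ℤ) (y : LaurentSeries Qbar),
      ι ((y * HahnSeries.ofPowerSeries ℤ Qbar (PowerSeries.mk fun k => (c k : Qbar))).coeff 0) =
        (HahnSeries.ofPowerSeries ℤ Ω (PowerSeries.mk fun k => (c k : Ω)) *
            coeffMap ι y).coeff 0 := by
    intro c y
    rw [show ι ((y * _).coeff 0) = (coeffMap ι (y * HahnSeries.ofPowerSeries ℤ Qbar
        (PowerSeries.mk fun k => (c k : Qbar)))).coeff 0 from rfl,
      map_mul, coeffMap_ofPowerSeries, mul_comm]
    congr 3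
    ext k
    simp
  rw [key b, key fun k => b (p * k)] at h
  exact h

omit [IsUltrametricDist Ω] [CompleteSpace Ω] [CharZero Ω] [IsAlgClosed Ω] in
theorem ser_stdHom_jBar : ser ι (stdHom p) (jBar p) = jqModC Ω := Disc.coeffMap_coeffEmb_jq ι

omit [CompleteSpace Ω] [CharZero Ω] [IsAlgClosed Ω] in
theorem small_jqModC : Small 1 (jqModC Ω) := by
  rw [jqModC]
  exact (Small.single (-1) (norm_one (α := Ω)).le).mul_right_one
    (Small.ofPowerSeries zero_le_one fun k => by
      rw [PowerSeries.coeff_map]; exact IsUltrametricDist.norm_intCast_le_one Ω _)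

omit [CharZero Ω] [IsAlgClosed Ω] in
/-- Disc points with the same value of `j` coincide. -/
theorem eq_of_ord_pos {ι' : Type*} {pt : ι' → DiscPt Ω}
    (hinj : ∀ i j, (pt i).val = (pt j).val → i = j) {a : ι' → Qbar}
    (ha : ∀ i, ι (a i) * (pt i).J = 1) {v : XPlace p} {i k : ι'}
    (hi : 0 < v.ord (jBar p - algebraMap Qbar _ (a i)))
    (hk : 0 < v.ord (jBar p - algebraMap Qbar _ (a k))) : i = k := by
  have e := FF.const_unique v (Or.inr hi) (Or.inr hk)
  have hi' := ha i
  rw [e, ← ha k] at hi'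
  exact hinj i k (DiscPt.J_injective (mul_left_cancel₀
    ((map_ne_zero ι).mpr fun e0 => by simpa [e0] using ha k) hi'))

omit [CharZero Ω] [IsAlgClosed Ω] in
theorem ne_zero_of_mul_J {a : Qbar} {s : DiscPt Ω} (ha : ι a * s.J = 1) : a ≠ 0 := fun e => by
  simp [e] at ha

omit [CharZero Ω] [IsAlgClosed Ω] in
/-- The divisor of `1 - j/a` reduces to zero when `a` is the value of `j` at a disc point. -/
theorem mapDomain_divOf_jFactor {A : ValuationSubring Qbar} (hA : ∀ x, x ∈ A ↔ ‖ι x‖ ≤ 1)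
    (hred : ReductionInputsModL A p) {a : Qbar} {s : DiscPt Ω} (ha : ι a * s.J = 1) :
    Finsupp.mapDomain (placeReductionModL hred)
      (FF.divOf (K := Qbar) (jFactor a : modularFunctionFieldBar p)) = 0 := by
  have hJ : ι a⁻¹ = s.J := by rw [map_inv₀]; exact inv_eq_of_mul_eq_one_right ha
  have hiA : a⁻¹ ∈ A := (hA _).mpr (by rw [hJ, DiscPt.norm_J]; exact s.norm_lt.le)
  have hres : IsLocalRing.residue A ⟨a⁻¹, hiA⟩ = 0 := by
    by_contra hne
    have := norm_eq_one_of_residue hA hne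
    rw [hJ, DiscPt.norm_J] at this
    exact s.norm_lt.ne this
  let y : LaurentSeries A := 1 - HahnSeries.C ⟨a⁻¹, hiA⟩ * jqModC A
  have hy : coeffMap A.subtype y =
      ((jFactor a : modularFunctionFieldBar p) : LaurentSeries Qbar) := by
    rw [map_sub, map_one, map_mul, coeffMap_jqModC, HahnSeries.C_apply, coeffMap_single,
      jFactor, AddSubgroupClass.coe_sub, IntermediateField.coe_one, IntermediateField.coe_mul,
      IntermediateField.coe_algebraMap_apply, algebraMap_laurentSeries_eq_single]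
    congr 2
    exact ((congrArg _ jqModC_rat.symm).trans (coeffMap_jqModC _)).symm
  have hy' : coeffMap (IsLocalRing.residue A) y = 1 := by
    rw [map_sub, map_one, map_mul, HahnSeries.C_apply, coeffMap_single, hres, map_zero,
      zero_mul, sub_zero]
  have hmem : coeffMap A.subtype y ∈ laurentBaseChange Qbar (modularFunctionFieldFull p) :=
    hy.symm ▸ (jFactor a : modularFunctionFieldBar p).2
  ext Q
  rw [(isPlaceReductionModL_placeReductionModL hred).2 y hmem (by rw [hy']; exact one_mem _)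
    (by rw [hy']; exact one_ne_zero) _ (fun v => by
      rw [FF.divOf_apply]; congr 1; exact Subtype.ext hy.symm) Q]
  rw [show (⟨coeffMap (IsLocalRing.residue A) y, _⟩ :
      modularFunctionFieldFullC (IsLocalRing.ResidueField A) p) = 1 from Subtype.ext hy']
  exact Place.ord_one _

end Fermat.Agent.Mazur.Immersion
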