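import Fermat.Agent.Mazur.Immersion.JFactor

/-!
# Normalising a function with divisor supported on the disc of `∞`
-/

noncomputable section

open ModularCurve AlgebraicCurve

namespace Fermat.Agent.Mazur.Immersion

open Fermat.Agent.Mazur.Disc (ser stdHom DiscPt IsPoint IsFricke toL)

local notation "Qbar" => AlgebraicClosure ℚ

variable {p : ℕ} [hp : Fact p.Prime]

theorem ord_jBar_infty {O : XPlace p} (hO : IsInfty p O) : O.ord (jBar p) = -1 := by
  rw [hO (jBar p) (jBar_ne_zero p)]; exact Disc.order_stdHom_jBar (p := p)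

theorem ord_jBar_cusp {τ : modularFunctionFieldBar p →+* LaurentSeries Qbar} (hτ : IsFricke τ)
    {O : XPlace p} (hO : Disc.IsCusp τ O) : O.ord (jBar p) = -(p : ℤ) := by
  rw [hO (jBar p) (jBar_ne_zero p), hτ.map_j, Disc.order_qExpand, Disc.order_coeffEmb_jq]
  ring

variable {Ω : Type*} [NormedField Ω] [IsUltrametricDist Ω] [CompleteSpace Ω] [CharZero Ω]
  [IsAlgClosed Ω] {ι : Qbar →+* Ω}

variable {ι' : Type*} [Fintype ι'] {pt : ι' → DiscPt Ω}
  (hinj : ∀ i j, (pt i).val = (pt j).val → i = j) (h0 : ∀ i, (pt i).val ≠ 0) {a : ι' → Qbar}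
  (ha : ∀ i, ι (a i) * (pt i).J = 1) {P : ι' → XPlace p}
  (hP : ∀ i, IsPoint ι (stdHom p) (pt i) (P i)) {n : ι' → ℤ} {O : XPlace p} (hO : IsInfty p O)
  {h : modularFunctionFieldBar p}
  (hdiv : FF.divOf (K := Qbar) h =
    (∑ i, Finsupp.single (P i) (n i)) - Finsupp.single O (∑ i, n i))

omit [IsAlgClosed Ω] [Fintype ι'] in
include h0 ha hP in
theorem ord_sub_point (i : ι') : (P i).ord (jBar p - algebraMap Qbar _ (a i)) = 1 :=
  (hP i).ord_sub_const ι (Disc.adm_stdHom ι) (h0 i) (Disc.stdHom_jBar (p := p))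
    (by rw [Disc.isPoint_powPt_one]; exact ha i)

omit [IsAlgClosed Ω] [Fintype ι'] in
include h0 ha hP hO in
theorem point_ne_infty (i : ι') : P i ≠ O := fun e => by
  have := ord_jBar_nonneg_of_pos (v := P i) ((ord_sub_point h0 ha hP i).symm ▸ one_pos)
  rw [e, ord_jBar_infty hO] at this
  omega

include hdiv in
theorem ord_div_of_ne {v : XPlace p} (hv : v ≠ O) [DecidableEq (XPlace p)] :
    v.ord h = ∑ i, if P i = v then n i else 0 := by
  have h1 := DFunLike.congr_fun hdiv v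
  rw [FF.divOf_apply, Finsupp.sub_apply, Finsupp.finsetSum_apply,
    Finsupp.single_eq_of_ne hv, sub_zero] at h1
  rw [h1]
  exact Finset.sum_congr rfl fun i _ => Finsupp.single_apply

omit [IsAlgClosed Ω] in
include hinj h0 ha hP hO hdiv in
theorem ord_div_point (i : ι') : (P i).ord h = n i := by
  classical
  rw [ord_div_of_ne hdiv (point_ne_infty h0 ha hP hO i), Finset.sum_eq_single i]
  · simp
  · intro k _ hki
    rw [if_neg]
    intro e
    exact hki (eq_of_ord_pos hinj ha (v := P i)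
      (e ▸ (ord_sub_point h0 ha hP k).symm ▸ one_pos) ((ord_sub_point h0 ha hP i).symm ▸ one_pos))
  · simp

omit [IsAlgClosed Ω] in
include h0 ha hP hO hdiv in
theorem ord_div_infty : O.ord h = -∑ i, n i := by
  have h1 := DFunLike.congr_fun hdiv O
  rw [FF.divOf_apply, Finsupp.sub_apply, Finsupp.finsetSum_apply, Finsupp.single_eq_same,
    Finset.sum_eq_zero fun i _ => Finsupp.single_eq_of_ne (point_ne_infty h0 ha hP hO i).symm,
    zero_sub] at h1
  exact h1

/-- The exponent making `h` regular at a point. -/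
def negPart (n : ι' → ℤ) (i : ι') : ℕ := (-n i).toNat

/-- The remaining exponent. -/
def posPart (n : ι' → ℤ) (i : ι') : ℕ := (n i).toNat

omit [Fintype ι'] in
theorem add_negPart (n : ι' → ℤ) (i : ι') : n i + negPart n i = posPart n i := by
  simp only [negPart, posPart]; omega

omit [CharZero Ω] [IsAlgClosed Ω] in
include ha in
theorem ord_prod_jFactor (hh0 : h ≠ 0) (v : XPlace p) :
    v.ord (h * ∏ i, (jFactor (a i) : modularFunctionFieldBar p) ^ negPart n i) =
      v.ord h + ∑ i, (negPart n i : ℤ) * v.ord (jFactor (a i) : modularFunctionFieldBar p) := by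
  rw [v.ord_mul hh0 (Finset.prod_ne_zero_iff.mpr fun i _ =>
      pow_ne_zero _ (jFactor_ne_zero (ne_zero_of_mul_J (ha i)))),
    ord_prod_pow v _ _ fun i _ => jFactor_ne_zero (ne_zero_of_mul_J (ha i))]

omit [CharZero Ω] [IsAlgClosed Ω] in
include ha in
theorem single_jFactor_le {v : XPlace p} (hv : 0 ≤ v.ord (jBar p)) (i : ι') :
    (negPart n i : ℤ) * v.ord (jFactor (a i) : modularFunctionFieldBar p) ≤
      ∑ k, (negPart n k : ℤ) * v.ord (jFactor (a k) : modularFunctionFieldBar p) :=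
  Finset.single_le_sum (f := fun k => (negPart n k : ℤ) *
      v.ord (jFactor (a k) : modularFunctionFieldBar p))
    (fun k _ => mul_nonneg (Int.natCast_nonneg _)
      (ord_jFactor_nonneg (ne_zero_of_mul_J (ha k)) hv)) (Finset.mem_univ i)

omit [IsAlgClosed Ω] in
include hinj h0 ha hP hO hdiv in
/-- A multiple of `h ∏ (1 - j/aᵢ)^{Nᵢ}` congruent to `1`. -/
theorem exists_normalised {ℓ : ℕ} [Fact ℓ.Prime] (hℓp : ¬ ℓ ∣ p) (hl : ‖(ℓ : Ω)‖ < 1)
    {A : ValuationSubring Qbar} (hA : ∀ x, x ∈ A ↔ ‖ι x‖ ≤ 1) (hAl : A.LiesOverPrime ℓ)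
    (hh0 : h ≠ 0) :
    ∃ G : modularFunctionFieldBar p, G ≠ 0 ∧ IsIntegral (Algebra.adjoin Qbar {jBar p}) G ∧
      (∃ r : ℝ, 0 ≤ r ∧ r < 1 ∧ Small r (ser ι (stdHom p) G - 1)) ∧
      ∀ v : XPlace p, v.ord G =
        v.ord h + ∑ i, (negPart n i : ℤ) * v.ord (jFactor (a i) : modularFunctionFieldBar p) := by
  classical
  have hℓ0 : (ℓ : Ω) ≠ 0 := Nat.cast_ne_zero.mpr (Fact.out : ℓ.Prime).ne_zero
  have hγ : 1 < ‖((ℓ : Ω))⁻¹‖ := by
    rw [norm_inv]; exact one_lt_inv_iff₀.mpr ⟨norm_pos_iff.mpr hℓ0, hl⟩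
  obtain ⟨τ, hτ⟩ := Disc.exists_isFricke p
  have hred : ReductionInputsModL A p := Red.reductionInputsModL A hℓp hAl
  obtain ⟨u, D, hu⟩ := Disc.exists_isDeltaUnit hτ
  have ha0 : ∀ i, a i ≠ 0 := fun i => ne_zero_of_mul_J (ha i)
  set G₀ := h * ∏ i, (jFactor (a i) : modularFunctionFieldBar p) ^ negPart n i with hG₀
  have hG₀0 : G₀ ≠ 0 := mul_ne_zero hh0 (Finset.prod_ne_zero_iff.mpr fun i _ =>
    pow_ne_zero _ (jFactor_ne_zero (ha0 i)))
  have hordG : ∀ v : XPlace p, v.ord G₀ =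
      v.ord h + ∑ i, (negPart n i : ℤ) * v.ord (jFactor (a i) : modularFunctionFieldBar p) :=
    ord_prod_jFactor ha hh0
  have hGint : IsIntegral (Algebra.adjoin Qbar {jBar p}) G₀ := by
    refine Red.isIntegral_adjoin_of_ord_nonneg fun v hv => ?_
    rw [hordG]
    have hvO : v ≠ O := fun e => by rw [e, ord_jBar_infty hO] at hv; omega
    by_cases hex : ∃ i, P i = v
    · obtain ⟨i, rfl⟩ := hex
      rw [ord_div_point hinj h0 ha hP hO hdiv i]
      have h1 := single_jFactor_le ha (n := n) hv i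
      rw [ord_jFactor (ha0 i), ord_sub_point h0 ha hP i, mul_one] at h1
      have := add_negPart n i
      omega
    · rw [ord_div_of_ne hdiv hvO, Finset.sum_eq_zero fun i _ => if_neg fun e => hex ⟨i, e⟩,
        zero_add]
      exact Finset.sum_nonneg fun i _ => mul_nonneg (Int.natCast_nonneg _)
        (ord_jFactor_nonneg (ha0 i) hv)
  have hjsmall : Small 1 (jqModC Ω) := small_jqModC
  have hbd := exists_small_ser hγ (Disc.adm_stdHom ι)
    ⟨1, show Small 1 (ser ι (stdHom p) (jBar p)) by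
      rw [ser_stdHom_jBar]; exact hjsmall⟩ hGint
  have hmd : Finsupp.mapDomain (placeReductionModL hred) (FF.divOf (K := Qbar) G₀) = 0 := by
    have hD : FF.divOf (K := Qbar) G₀ = FF.divOf (K := Qbar) h + ∑ i, (negPart n i : ℤ) •
        FF.divOf (K := Qbar) (jFactor (a i) : modularFunctionFieldBar p) := by
      ext v
      rw [FF.divOf_apply, hordG, Finsupp.add_apply, Finsupp.finsetSum_apply, FF.divOf_apply]
      congr 1
    rw [hD, hdiv, ← Finsupp.mapDomain.addMonoidHom_apply, map_add, map_sub, map_sum, map_sum,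
      Finset.sum_eq_zero (f := fun i => Finsupp.mapDomain.addMonoidHom (placeReductionModL hred)
        ((negPart n i : ℤ) • FF.divOf (K := Qbar) (jFactor (a i) : modularFunctionFieldBar p)))
        fun i _ => by rw [map_zsmul, Finsupp.mapDomain.addMonoidHom_apply,
          mapDomain_divOf_jFactor hA hred (ha i), smul_zero],
      add_zero]
    simp only [Finsupp.mapDomain.addMonoidHom_apply, Finsupp.mapDomain_single,
      Disc.placeReduction_point hu hτ hA hred hO (h0 _) (hP _)]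
    rw [← Finsupp.single_finsetSum, sub_self]
  obtain ⟨e, he, r, hr0, hr1, hGs⟩ := exists_congr_one hA hℓp hAl hred hG₀0 hbd hmd
  refine ⟨algebraMap Qbar _ e * G₀, mul_ne_zero ((map_ne_zero _).mpr he) hG₀0,
    IsIntegral.mul (isIntegral_algebraMap
      (x := algebraMap Qbar (Algebra.adjoin Qbar {jBar p}) e)) hGint,
    ⟨r, hr0, hr1, hGs⟩, fun v => ?_⟩
  rw [FF.ord_algebraMap_mul v he, hordG]

end Fermat.Agent.Mazur.Immersion
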